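import Fermat.Agent.GC.Tate.Cor

/-!
# GATE-C / C2 : the explicit Shapiro map is an isomorphism; `res` is injective up to the index

On Mathlib's `groupCohomology` (`A : Rep.{u} k G`, `k G : Type u`):

* `δ_map_naturality` : naturality of the connecting homomorphism across a change of group
  (`f : H →* G`, compatible maps `φᵢ : Res_f Xᵢ ⟶ Yᵢ` of short exact sequences);
* `env A`, `envSES A`, `envSES_shortExact`, `isZero_groupCohomology_env` : the acyclic envelope
  `0 ⟶ A ⟶ Coind_1^G Res_1 A ⟶ Q ⟶ 0` (dimension shifting);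
* `coind_shortExact` : `Coind_S^G` preserves short exact sequences;
* `coindEv S B : Res_S Coind_S^G B ⟶ B` (evaluation at `1`) and the explicit Shapiro map
  `shapiro S B n := map S.subtype (coindEv S B) n : Hⁿ(G, Coind_S^G B) ⟶ Hⁿ(S, B)`;
* `shapiro_bijective`, `shapiroIso` : it is an isomorphism in every degree;
* `resCoind_comp_shapiro` : `resCoind S A n ≫ shapiro S (Res A) n = map S.subtype (𝟙 _) n`;
* `cor S A n : Hⁿ(S, Res A) ⟶ Hⁿ(G, A)` with `res_comp_cor : res ≫ cor = [G:S] • 𝟙`;
* `index_nsmul_eq_zero_of_res_eq_zero` : `res x = 0 → [G:S] • x = 0`;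
* `eq_zero_of_res_sylow_eq_zero` : `p`-primary classes are detected on a Sylow `p`-subgroup.
-/

namespace Fermat.Agent.GC.Tate

open CategoryTheory groupCohomology Rep Limits

universe u

section DeltaNaturality

variable {k G H : Type u} [CommRing k] [Group G] [Group H]

/-- The morphism of short complexes of cochain complexes induced by a group hom `f : H →* G`
and compatible maps `φᵢ : Res_f Xᵢ ⟶ Yᵢ`. -/
noncomputable def cochainsMapShortComplex (f : H →* G) {X : ShortComplex (Rep.{u} k G)}
    {Y : ShortComplex (Rep.{u} k H)}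
    (φ₁ : res f X.X₁ ⟶ Y.X₁) (φ₂ : res f X.X₂ ⟶ Y.X₂) (φ₃ : res f X.X₃ ⟶ Y.X₃)
    (comm₁₂ : (resFunctor f).map X.f ≫ φ₂ = φ₁ ≫ Y.f)
    (comm₂₃ : (resFunctor f).map X.g ≫ φ₃ = φ₂ ≫ Y.g) :
    X.map (cochainsFunctor k G) ⟶ Y.map (cochainsFunctor k H) where
  τ₁ := cochainsMap f φ₁
  τ₂ := cochainsMap f φ₂
  τ₃ := cochainsMap f φ₃
  comm₁₂ := by
    have h1 : cochainsMap (MonoidHom.id G) X.f ≫ cochainsMap f φ₂ =
        cochainsMap f ((resFunctor f).map X.f ≫ φ₂) := rfl
    have h2 : cochainsMap f φ₁ ≫ cochainsMap (MonoidHom.id H) Y.f =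
        cochainsMap f (φ₁ ≫ Y.f) := rfl
    exact (h1.trans ((congrArg (cochainsMap f) comm₁₂).trans h2.symm)).symm
  comm₂₃ := by
    have h1 : cochainsMap (MonoidHom.id G) X.g ≫ cochainsMap f φ₃ =
        cochainsMap f ((resFunctor f).map X.g ≫ φ₃) := rfl
    have h2 : cochainsMap f φ₂ ≫ cochainsMap (MonoidHom.id H) Y.g =
        cochainsMap f (φ₂ ≫ Y.g) := rfl
    exact (h1.trans ((congrArg (cochainsMap f) comm₂₃).trans h2.symm)).symm

/-- Naturality of the connecting homomorphism with respect to a change of group. -/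
theorem δ_map_naturality (f : H →* G) {X : ShortComplex (Rep.{u} k G)}
    {Y : ShortComplex (Rep.{u} k H)} (hX : X.ShortExact) (hY : Y.ShortExact)
    (φ₁ : res f X.X₁ ⟶ Y.X₁) (φ₂ : res f X.X₂ ⟶ Y.X₂) (φ₃ : res f X.X₃ ⟶ Y.X₃)
    (comm₁₂ : (resFunctor f).map X.f ≫ φ₂ = φ₁ ≫ Y.f)
    (comm₂₃ : (resFunctor f).map X.g ≫ φ₃ = φ₂ ≫ Y.g) (i j : ℕ) (hij : i + 1 = j) :
    δ hX i j hij ≫ map f φ₁ j = map f φ₃ i ≫ δ hY i j hij :=
  HomologicalComplex.HomologySequence.δ_naturality
    (cochainsMapShortComplex f φ₁ φ₂ φ₃ comm₁₂ comm₂₃)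
    (map_cochainsFunctor_shortExact hX) (map_cochainsFunctor_shortExact hY) i j hij

end DeltaNaturality

section Envelope

variable {k G : Type u} [CommRing k] [Group G]

instance mono_coindUnit (T : Subgroup G) (A : Rep.{u} k G) : Mono (coindUnit T A) := by
  rw [Rep.mono_iff_injective]
  intro a b hab
  have h1 : ((coindUnit T A).hom a).1 (1 : G) = ((coindUnit T A).hom b).1 (1 : G) :=
    congrArg (fun f => f.1 (1 : G)) hab
  rw [coindUnit_hom_apply, coindUnit_hom_apply] at h1
  simpa using h1

/-- The coinduced envelope `Coind_1^G Res_1 A`. -/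
noncomputable abbrev env (A : Rep.{u} k G) : Rep.{u} k G :=
  coind (⊥ : Subgroup G).subtype (res (⊥ : Subgroup G).subtype A)

/-- The envelope short complex `A ⟶ env A ⟶ env A / A`. -/
noncomputable def envSES (A : Rep.{u} k G) : ShortComplex (Rep.{u} k G) :=
  ShortComplex.cokernelSequence (coindUnit (⊥ : Subgroup G) A)

lemma envSES_shortExact (A : Rep.{u} k G) : (envSES A).ShortExact :=
  ShortComplex.ShortExact.mk' (ShortComplex.cokernelSequence_exact _)
    (by dsimp [envSES, ShortComplex.cokernelSequence]; infer_instance)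
    (by dsimp [envSES, ShortComplex.cokernelSequence]; infer_instance)

lemma isZero_groupCohomology_env (A : Rep.{u} k G) (n : ℕ) :
    IsZero (groupCohomology (env A) (n + 1)) :=
  (isZero_groupCohomology_succ_of_subsingleton _ n).of_iso (coindIso _ (n + 1))

end Envelope

variable {k G : Type u} [CommRing k] [Group G] (S : Subgroup G)

instance coindFunctor_preservesHomology :
    (coindFunctor k S.subtype : Rep.{u} k S ⥤ Rep.{u} k G).PreservesHomology :=
  Functor.preservesHomology_of_preservesEpis_and_kernels _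

/-- `Coind_S^G` preserves short exact sequences. -/
lemma coind_shortExact {X : ShortComplex (Rep.{u} k S)} (hX : X.ShortExact) :
    (X.map (coindFunctor k S.subtype)).ShortExact := by
  have := hX.mono_f
  have := hX.epi_g
  exact hX.map (coindFunctor k S.subtype)

/-- Evaluation at `1`: `Res_S Coind_S^G B ⟶ B`. -/
noncomputable def coindEv (B : Rep.{u} k S) : res S.subtype (coind S.subtype B) ⟶ B :=
  (resCoindHomEquiv S.subtype (coind S.subtype B) B).symm (𝟙 _)

lemma coindEv_hom_apply (B : Rep.{u} k S) (f : coind S.subtype B) :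
    (coindEv S B).hom f = f.1 1 := rfl

lemma coindEv_naturality {B B' : Rep.{u} k S} (φ : B ⟶ B') :
    (resFunctor S.subtype).map (coindMap S.subtype φ) ≫ coindEv S B' = coindEv S B ≫ φ := by
  ext f
  rfl

/-- The explicit Shapiro map `Hⁿ(G, Coind_S^G B) ⟶ Hⁿ(S, B)`. -/
noncomputable def shapiro (B : Rep.{u} k S) (n : ℕ) :
    groupCohomology (coind S.subtype B) n ⟶ groupCohomology B n :=
  map S.subtype (coindEv S B) n

lemma shapiro_naturality {B B' : Rep.{u} k S} (φ : B ⟶ B') (n : ℕ) :
    map (MonoidHom.id G) (coindMap S.subtype φ) n ≫ shapiro S B' n =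
      shapiro S B n ≫ map (MonoidHom.id S) φ n := by
  unfold shapiro
  have h1 := map_comp (A := coind S.subtype B) (B := coind S.subtype B') (C := B')
    (MonoidHom.id G) S.subtype (coindMap S.subtype φ) (coindEv S B') n
  have h2 := map_comp (A := coind S.subtype B) (B := B) (C := B')
    S.subtype (MonoidHom.id S) (coindEv S B) φ n
  rw [← h1, ← h2]
  exact congrArg (fun ψ => map S.subtype ψ n) (coindEv_naturality S φ)

/-- `res = resCoind ≫ shapiro`. -/
lemma resCoind_comp_shapiro (A : Rep.{u} k G) (n : ℕ) :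
    resCoind S A n ≫ shapiro S (res S.subtype A) n = map S.subtype (𝟙 (res S.subtype A)) n := by
  unfold resCoind shapiro
  rw [← map_comp (A := A) (B := coind S.subtype (res S.subtype A)) (C := res S.subtype A)
    (MonoidHom.id G) S.subtype (coindUnit S A) (coindEv S (res S.subtype A)) n]
  refine congrArg (fun ψ => map S.subtype ψ n) ?_
  ext a
  change ((coindUnit S A).hom a).1 1 = a
  rw [coindUnit_hom_apply]
  simp

/-- The Shapiro map commutes with connecting homomorphisms. -/
lemma δ_comp_shapiro {X : ShortComplex (Rep.{u} k S)} (hX : X.ShortExact) (i j : ℕ)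
    (hij : i + 1 = j) :
    δ (coind_shortExact S hX) i j hij ≫ shapiro S X.X₁ j = shapiro S X.X₃ i ≫ δ hX i j hij :=
  δ_map_naturality S.subtype (coind_shortExact S hX) hX (coindEv S X.X₁) (coindEv S X.X₂)
    (coindEv S X.X₃) (coindEv_naturality S X.f) (coindEv_naturality S X.g) i j hij

/-- Injectivity of the Shapiro map in degree `0`. -/
lemma shapiro_zero_injective (B : Rep.{u} k S) : Function.Injective (shapiro S B 0) := by
  rw [injective_iff_map_eq_zero]
  intro x hx
  have key := map_H0Iso_hom_f_apply S.subtype (coindEv S B) x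
  unfold shapiro at hx
  rw [hx] at key
  simp only [map_zero] at key
  set f := (H0Iso (coind S.subtype B)).hom x with hf
  have hf1 : f.1.1 1 = 0 := key.symm
  have hfz : f = 0 := by
    apply Subtype.ext
    apply Subtype.ext
    funext g
    have hinv := f.2 g
    have : f.1.1 g = ((coind S.subtype B).ρ g f.1).1 1 := by
      change f.1.1 g = f.1.1 (1 * g)
      rw [one_mul]
    rw [this, hinv]
    exact hf1
  have : x = (H0Iso (coind S.subtype B)).inv f := by simp [hf]
  rw [this, hfz, map_zero]

/-- Surjectivity of the Shapiro map in degree `0`. -/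
lemma shapiro_zero_surjective (B : Rep.{u} k S) : Function.Surjective (shapiro S B 0) := by
  intro y
  set b := (H0Iso B).hom y with hb
  let f0 : coind S.subtype B := ⟨fun _ => b.1, by
    intro s g
    exact (b.2 s).symm⟩
  have hf0 : ∀ g : G, (coind S.subtype B).ρ g f0 = f0 := by
    intro g
    apply Subtype.ext
    funext h
    rfl
  let f : (coind S.subtype B).ρ.invariants := ⟨f0, hf0⟩
  refine ⟨(H0Iso (coind S.subtype B)).inv f, ?_⟩
  have key := map_H0Iso_hom_f_apply S.subtype (coindEv S B) ((H0Iso (coind S.subtype B)).inv f)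
  have h1 : (H0Iso (coind S.subtype B)).hom ((H0Iso (coind S.subtype B)).inv f) = f := by simp
  rw [h1] at key
  have h2 : (H0Iso B).hom (shapiro S B 0 ((H0Iso (coind S.subtype B)).inv f)) = b := by
    apply Subtype.ext
    exact key
  have h3 : Function.Injective (H0Iso B).hom :=
    (ModuleCat.mono_iff_injective _).1 inferInstance
  exact h3 (h2.trans hb)

/-- The explicit Shapiro map is bijective in every degree (dimension shifting). -/
theorem shapiro_bijective (n : ℕ) (B : Rep.{u} k S) : Function.Bijective (shapiro S B n) := by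
  induction n generalizing B with
  | zero => exact ⟨shapiro_zero_injective S B, shapiro_zero_surjective S B⟩
  | succ n ih =>
    have hX := envSES_shortExact B
    have hcX := coind_shortExact S hX
    -- vanishing of the middle terms
    have hzS : IsZero (groupCohomology (envSES B).X₂ (n + 1)) := isZero_groupCohomology_env B n
    have hzG : IsZero (groupCohomology ((envSES B).map (coindFunctor k S.subtype)).X₂ (n + 1)) :=
      hzS.of_iso (coindIso (envSES B).X₂ (n + 1))
    have hδS : Function.Surjective (δ hX n (n + 1) rfl) :=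
      (ModuleCat.epi_iff_surjective _).1 (epi_δ_of_isZero hX n hzS)
    have hδG : Function.Surjective (δ hcX n (n + 1) rfl) :=
      (ModuleCat.epi_iff_surjective _).1 (epi_δ_of_isZero hcX n hzG)
    have hcomm := δ_comp_shapiro S hX n (n + 1) rfl
    have hcomm' : ∀ y, shapiro S (envSES B).X₁ (n + 1) (δ hcX n (n + 1) rfl y) =
        δ hX n (n + 1) rfl (shapiro S (envSES B).X₃ n y) := fun y =>
      congrArg (fun f => f y) hcomm
    constructor
    · rw [injective_iff_map_eq_zero]
      intro x hx
      obtain ⟨y, rfl⟩ := hδG x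
      have h1 : δ hX n (n + 1) rfl (shapiro S (envSES B).X₃ n y) = 0 := by
        rw [← hcomm' y]; exact hx
      -- exactness at `Hⁿ(S, Q)`
      have hex := mapShortComplex₃_exact hX (i := n) (j := n + 1) rfl
      rw [ShortComplex.moduleCat_exact_iff] at hex
      obtain ⟨z, hz⟩ := hex _ h1
      obtain ⟨z', rfl⟩ := (ih (envSES B).X₂).2 z
      have hnat := shapiro_naturality S (envSES B).g n
      have hnat' : shapiro S (envSES B).X₃ n
          (map (MonoidHom.id G) (coindMap S.subtype (envSES B).g) n z') =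
          map (MonoidHom.id S) (envSES B).g n (shapiro S (envSES B).X₂ n z') :=
        congrArg (fun f => f z') hnat
      have h2 : map (MonoidHom.id G) (coindMap S.subtype (envSES B).g) n z' = y :=
        (ih (envSES B).X₃).1 (hnat'.trans hz)
      rw [← h2]
      have hzero := (mapShortComplex₃ hcX (i := n) (j := n + 1) rfl).zero
      exact congrArg (fun f => f z') hzero
    · intro w
      obtain ⟨v, rfl⟩ := hδS w
      obtain ⟨y, rfl⟩ := (ih (envSES B).X₃).2 v
      exact ⟨δ hcX n (n + 1) rfl y, hcomm' y⟩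

/-- The explicit Shapiro isomorphism `Hⁿ(G, Coind_S^G B) ≅ Hⁿ(S, B)`. -/
noncomputable def shapiroIso (B : Rep.{u} k S) (n : ℕ) :
    groupCohomology (coind S.subtype B) n ≅ groupCohomology B n :=
  (LinearEquiv.ofBijective (shapiro S B n).hom (shapiro_bijective S n B)).toModuleIso

lemma shapiroIso_hom (B : Rep.{u} k S) (n : ℕ) : (shapiroIso S B n).hom = shapiro S B n := rfl

/-- `res x = 0 → [G:S] • x = 0`: restriction to a subgroup of finite index is injective up to
the index (true `res = map S.subtype (𝟙 _)` of Mathlib). -/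
theorem index_nsmul_eq_zero_of_res_eq_zero [S.FiniteIndex] (A : Rep.{u} k G) (n : ℕ)
    (x : groupCohomology A n) (hx : map S.subtype (𝟙 (res S.subtype A)) n x = 0) :
    S.index • x = 0 := by
  rw [← corCoind_resCoind_apply]
  have h1 : shapiro S (res S.subtype A) n (resCoind S A n x) = 0 := by
    have := congrArg (fun f => f x) (resCoind_comp_shapiro S A n)
    exact this.trans hx
  have h2 : resCoind S A n x = 0 :=
    (shapiro_bijective S n (res S.subtype A)).1 (h1.trans (map_zero _).symm)
  rw [h2, map_zero]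

/-- Corestriction `Hⁿ(S, Res A) ⟶ Hⁿ(G, A)` for a subgroup of finite index. -/
noncomputable def cor [S.FiniteIndex] (A : Rep.{u} k G) (n : ℕ) :
    groupCohomology (res S.subtype A) n ⟶ groupCohomology A n :=
  (shapiroIso S (res S.subtype A) n).inv ≫ corCoind S A n

/-- `res ≫ cor = [G:S]`. -/
theorem res_comp_cor [S.FiniteIndex] (A : Rep.{u} k G) (n : ℕ) :
    map S.subtype (𝟙 (res S.subtype A)) n ≫ cor S A n = S.index • 𝟙 (groupCohomology A n) := by
  unfold cor
  rw [← resCoind_comp_shapiro, ← shapiroIso_hom, Category.assoc, Iso.hom_inv_id_assoc,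
    resCoind_comp_corCoind]

lemma cor_res_apply [S.FiniteIndex] (A : Rep.{u} k G) (n : ℕ) (x : groupCohomology A n) :
    cor S A n (map S.subtype (𝟙 (res S.subtype A)) n x) = S.index • x := by
  have := congrArg (fun f => f x) (res_comp_cor S A n)
  simpa using this

/-- `p`-primary classes are detected by restriction to a Sylow `p`-subgroup. -/
theorem eq_zero_of_res_sylow_eq_zero [Finite G] (p : ℕ) [Fact p.Prime] (P : Sylow p G)
    (A : Rep.{u} k G) (n : ℕ) (x : groupCohomology A n) (m : ℕ) (hx : p ^ m • x = 0)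
    (hres : map (P : Subgroup G).subtype (𝟙 (res (P : Subgroup G).subtype A)) n x = 0) :
    x = 0 := by
  have h1 := index_nsmul_eq_zero_of_res_eq_zero (P : Subgroup G) A n x hres
  have hcop : Nat.Coprime (p ^ m) (P : Subgroup G).index :=
    Nat.Coprime.pow_left _ ((Nat.Prime.coprime_iff_not_dvd Fact.out).2 P.not_dvd_index)
  have h2 : (Nat.gcd (p ^ m) (P : Subgroup G).index) • x = 0 :=
    addOrderOf_dvd_iff_nsmul_eq_zero.1 (Nat.dvd_gcd
      (addOrderOf_dvd_iff_nsmul_eq_zero.2 hx) (addOrderOf_dvd_iff_nsmul_eq_zero.2 h1))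
  rwa [hcop, one_smul] at h2

/-- A class restricting to `0` on every Sylow subgroup (all primes) is `0`. -/
theorem eq_zero_of_forall_res_sylow_eq_zero [Finite G] (A : Rep.{u} k G) (n : ℕ)
    (x : groupCohomology A n)
    (hres : ∀ (p : ℕ) [Fact p.Prime] (P : Sylow p G),
      map (P : Subgroup G).subtype (𝟙 (res (P : Subgroup G).subtype A)) n x = 0) :
    x = 0 := by
  by_contra hz
  have hdvd : ∀ (p : ℕ) [Fact p.Prime] (P : Sylow p G),
      addOrderOf x ∣ (P : Subgroup G).index := fun p _ P =>
    addOrderOf_dvd_iff_nsmul_eq_zero.2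
      (index_nsmul_eq_zero_of_res_eq_zero (P : Subgroup G) A n x (hres p P))
  have hne : addOrderOf x ≠ 1 := fun h1 => hz (AddMonoid.addOrderOf_eq_one_iff.1 h1)
  obtain ⟨q, hq, hqd⟩ := Nat.exists_prime_and_dvd hne
  have : Fact q.Prime := ⟨hq⟩
  obtain ⟨Q⟩ : Nonempty (Sylow q G) := inferInstance
  exact Q.not_dvd_index (hqd.trans (hdvd q Q))

end Fermat.Agent.GC.Tate
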