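import Mathlib

/-!
# GATE-C / C2 : restriction–corestriction for Mathlib's `groupCohomology`, vanishing form

`S ≤ G` of finite index, `A : Rep k G` (`k G : Type u`, Mathlib's universe convention).

* `coindUnit S A : A ⟶ Coind_S^G Res_S A`, `a ↦ (g ↦ g a)` (unit of `Res ⊣ Coind`);
* `coindTrace S A : Coind_S^G Res_S A ⟶ A`, `f ↦ ∑_{gS ∈ G/S} g f(g⁻¹)` (the trace);
* `coindUnit_comp_coindTrace : coindUnit S A ≫ coindTrace S A = (S.index : k) • 𝟙 A`;
* `resCoind S A n : Hⁿ(G, A) ⟶ Hⁿ(G, Coind Res A)` and `corCoind S A n` back, with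
  `resCoind_comp_corCoind : resCoind S A n ≫ corCoind S A n = S.index • 𝟙 _`;
* `index_nsmul_eq_zero_of_isZero` : `Hⁿ(S, Res A) = 0 → [G:S] • x = 0` for `x : Hⁿ(G, A)`
  (uses Mathlib's Shapiro isomorphism `groupCohomology.coindIso` only as an abstract iso);
* `card_nsmul_groupCohomology_eq_zero` : `|G| • x = 0` for `x : Hⁿ⁺¹(G, A)`, `G` finite;
* `isZero_of_forall_sylow` : if `Hⁿ(P, Res A) = 0` for every Sylow subgroup `P` of the finite
  group `G` (all primes), then `Hⁿ(G, A) = 0`;
* `eq_zero_of_pow_nsmul_eq_zero_of_isZero_sylow` : the `p`-primary version.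
-/

namespace Fermat.Agent.GC.Tate

open CategoryTheory groupCohomology Rep

universe u

variable {k G : Type u} [CommRing k] [Group G] (S : Subgroup G)

/-- Unit `A ⟶ Coind_S^G Res_S A`, `a ↦ (g ↦ g a)`. -/
noncomputable def coindUnit (A : Rep.{u} k G) : A ⟶ coind S.subtype (res S.subtype A) :=
  resCoindToHom S.subtype A (res S.subtype A) (𝟙 _)

@[simp]
lemma coindUnit_hom_apply (A : Rep.{u} k G) (a : A) (g : G) :
    ((coindUnit S A).hom a).1 g = A.ρ g a := rfl

/-- `g ↦ g • f(g⁻¹)`, constant on left cosets of `S`. -/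
def twistFun (A : Rep.{u} k G) (f : coind S.subtype (res S.subtype A)) (g : G) : A :=
  A.ρ g (f.1 g⁻¹)

lemma twistFun_mul_mem (A : Rep.{u} k G) (f : coind S.subtype (res S.subtype A)) (g : G)
    (s : S) : twistFun S A f (g * s) = twistFun S A f g := by
  unfold twistFun
  have h := f.2 s⁻¹ g⁻¹
  simp only [mul_inv_rev]
  have h' : f.1 ((s : G)⁻¹ * g⁻¹) = A.ρ (s : G)⁻¹ (f.1 g⁻¹) := by
    simpa using h
  rw [h', map_mul]
  simp

lemma twistFun_out (A : Rep.{u} k G) (f : coind S.subtype (res S.subtype A)) (g : G) :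
    twistFun S A f (QuotientGroup.mk g : G ⧸ S).out = twistFun S A f g := by
  obtain ⟨s, hs⟩ := QuotientGroup.mk_out_eq_mul S g
  rw [hs, twistFun_mul_mem]

lemma twistFun_rho (A : Rep.{u} k G) (f : coind S.subtype (res S.subtype A)) (h g : G) :
    twistFun S A ((coind S.subtype (res S.subtype A)).ρ h f) g
      = A.ρ h (twistFun S A f (h⁻¹ * g)) := by
  unfold twistFun
  have : ((coind S.subtype (res S.subtype A)).ρ h f).1 g⁻¹ = f.1 (g⁻¹ * h) := rfl
  rw [this]
  simp [← Module.End.mul_apply, ← map_mul]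

lemma twistFun_add (A : Rep.{u} k G) (f f' : coind S.subtype (res S.subtype A)) (g : G) :
    twistFun S A (f + f') g = twistFun S A f g + twistFun S A f' g := by
  simp [twistFun]

lemma twistFun_smul (A : Rep.{u} k G) (c : k) (f : coind S.subtype (res S.subtype A))
    (g : G) : twistFun S A (c • f) g = c • twistFun S A f g := by
  simp [twistFun]

section FiniteIndex

variable [S.FiniteIndex]

attribute [local instance] Subgroup.fintypeQuotientOfFiniteIndex

/-- The `k`-linear trace `f ↦ ∑_{gS} g f(g⁻¹)`. -/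
noncomputable def coindTraceLin (A : Rep.{u} k G) :
    coind S.subtype (res S.subtype A) →ₗ[k] A where
  toFun f := ∑ q : G ⧸ S, twistFun S A f q.out
  map_add' f g := by
    rw [← Finset.sum_add_distrib]
    exact Finset.sum_congr rfl fun q _ => twistFun_add S A f g _
  map_smul' c f := by
    rw [RingHom.id_apply, Finset.smul_sum]
    exact Finset.sum_congr rfl fun q _ => twistFun_smul S A c f _

lemma coindTraceLin_apply (A : Rep.{u} k G) (f : coind S.subtype (res S.subtype A)) :
    coindTraceLin S A f = ∑ q : G ⧸ S, twistFun S A f q.out := rfl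

lemma coindTraceLin_equivariant (A : Rep.{u} k G) (h : G)
    (f : coind S.subtype (res S.subtype A)) :
    coindTraceLin S A ((coind S.subtype (res S.subtype A)).ρ h f)
      = A.ρ h (coindTraceLin S A f) := by
  rw [coindTraceLin_apply, coindTraceLin_apply, map_sum]
  rw [← Equiv.sum_comp (MulAction.toPerm h⁻¹ : Equiv.Perm (G ⧸ S))
    (fun q => A.ρ h (twistFun S A f q.out))]
  refine Finset.sum_congr rfl fun q _ => ?_
  rw [twistFun_rho]
  congr 1
  have : (MulAction.toPerm h⁻¹ : Equiv.Perm (G ⧸ S)) q = QuotientGroup.mk (h⁻¹ * q.out) := by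
    conv_lhs => rw [← QuotientGroup.out_eq' q]
    rfl
  rw [this, twistFun_out]

/-- Trace `Coind_S^G Res_S A ⟶ A`, `f ↦ ∑_{gS} g f(g⁻¹)`. -/
noncomputable def coindTrace (A : Rep.{u} k G) :
    coind S.subtype (res S.subtype A) ⟶ A :=
  Rep.ofHom ⟨coindTraceLin S A, fun h => by
    ext f
    exact coindTraceLin_equivariant S A h f⟩

lemma coindTrace_hom_apply (A : Rep.{u} k G) (f : coind S.subtype (res S.subtype A)) :
    (coindTrace S A).hom f = ∑ q : G ⧸ S, twistFun S A f q.out := rfl

lemma coindTrace_coindUnit_apply (A : Rep.{u} k G) (a : A) :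
    (coindTrace S A).hom ((coindUnit S A).hom a) = S.index • a := by
  rw [coindTrace_hom_apply]
  have h1 : ∀ q : G ⧸ S, twistFun S A ((coindUnit S A).hom a) q.out = a := by
    intro q
    unfold twistFun
    rw [coindUnit_hom_apply]
    simp [← Module.End.mul_apply, ← map_mul]
  rw [Finset.sum_congr rfl fun q _ => h1 q]
  simp [Subgroup.index, Nat.card_eq_fintype_card]

lemma coindUnit_comp_coindTrace_nsmul (A : Rep.{u} k G) :
    coindUnit S A ≫ coindTrace S A = S.index • 𝟙 A := by
  ext a
  exact (coindTrace_coindUnit_apply S A a).trans rfl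

lemma coindUnit_comp_coindTrace (A : Rep.{u} k G) :
    coindUnit S A ≫ coindTrace S A = (S.index : k) • 𝟙 A := by
  rw [coindUnit_comp_coindTrace_nsmul, Nat.cast_smul_eq_nsmul]

end FiniteIndex

/-- `Hⁿ(G, A) ⟶ Hⁿ(G, Coind_S^G Res_S A)` induced by the unit. -/
noncomputable def resCoind (A : Rep.{u} k G) (n : ℕ) :
    groupCohomology A n ⟶ groupCohomology (coind S.subtype (res S.subtype A)) n :=
  map (MonoidHom.id G) (coindUnit S A) n

section FiniteIndex

variable [S.FiniteIndex]

/-- `Hⁿ(G, Coind_S^G Res_S A) ⟶ Hⁿ(G, A)` induced by the trace. -/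
noncomputable def corCoind (A : Rep.{u} k G) (n : ℕ) :
    groupCohomology (coind S.subtype (res S.subtype A)) n ⟶ groupCohomology A n :=
  map (MonoidHom.id G) (coindTrace S A) n

lemma map_id_nsmul {A B : Rep.{u} k G} (φ : A ⟶ B) (m n : ℕ) :
    map (MonoidHom.id G) (m • φ) n = m • map (MonoidHom.id G) φ n := by
  have : ∀ ψ : A ⟶ B, map (MonoidHom.id G) ψ n =
      (cochainsFunctor k G ⋙ HomologicalComplex.homologyFunctor (ModuleCat k) _ n).map ψ :=
    fun _ => rfl
  rw [this, this]
  exact Functor.map_nsmul _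

lemma resCoind_comp_corCoind (A : Rep.{u} k G) (n : ℕ) :
    resCoind S A n ≫ corCoind S A n = S.index • 𝟙 (groupCohomology A n) := by
  unfold resCoind corCoind
  calc map (MonoidHom.id G) (coindUnit S A) n ≫ map (MonoidHom.id G) (coindTrace S A) n
      = map (MonoidHom.id G) (coindUnit S A ≫ coindTrace S A) n := (map_id_comp _ _ n).symm
    _ = map (MonoidHom.id G) (S.index • 𝟙 A) n :=
        congrArg (fun φ => map (MonoidHom.id G) φ n) (coindUnit_comp_coindTrace_nsmul S A)
    _ = S.index • 𝟙 (groupCohomology A n) := by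
        rw [map_id_nsmul, map_id]

lemma corCoind_resCoind_apply (A : Rep.{u} k G) (n : ℕ) (x : groupCohomology A n) :
    corCoind S A n (resCoind S A n x) = S.index • x := by
  have := congrArg (fun f => f x) (resCoind_comp_corCoind S A n)
  simpa using this

/-- If `Hⁿ(S, Res A) = 0` then `[G:S]` kills `Hⁿ(G, A)`. -/
theorem index_nsmul_eq_zero_of_isZero (A : Rep.{u} k G) (n : ℕ)
    (h : Limits.IsZero (groupCohomology (res S.subtype A) n)) (x : groupCohomology A n) :
    S.index • x = 0 := by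
  have h' : Limits.IsZero (groupCohomology (coind S.subtype (res S.subtype A)) n) :=
    h.of_iso (coindIso (res S.subtype A) n)
  rw [← corCoind_resCoind_apply]
  have : resCoind S A n x = 0 := by
    have := h'.eq_of_tgt (resCoind S A n) 0
    rw [this]; rfl
  rw [this, map_zero]

end FiniteIndex

/-- `|G|` kills `Hⁿ⁺¹(G, A)` for a finite group `G`. -/
theorem card_nsmul_groupCohomology_eq_zero [Finite G] (A : Rep.{u} k G) (n : ℕ)
    (x : groupCohomology A (n + 1)) : Nat.card G • x = 0 := by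
  have h := index_nsmul_eq_zero_of_isZero (⊥ : Subgroup G) A (n + 1)
    (isZero_groupCohomology_succ_of_subsingleton _ n) x
  rwa [Subgroup.index_bot] at h

/-- `p`-primary Sylow vanishing: if `x : Hⁿ(G, A)` is killed by a power of `p` and
`Hⁿ(P, Res A) = 0` for a Sylow `p`-subgroup `P`, then `x = 0`. -/
theorem eq_zero_of_pow_nsmul_eq_zero_of_isZero_sylow [Finite G] (p : ℕ) [Fact p.Prime]
    (P : Sylow p G) (A : Rep.{u} k G) (n : ℕ)
    (h : Limits.IsZero (groupCohomology (res (P : Subgroup G).subtype A) n))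
    (x : groupCohomology A n) (m : ℕ) (hx : p ^ m • x = 0) : x = 0 := by
  have h1 := index_nsmul_eq_zero_of_isZero (P : Subgroup G) A n h x
  have hcop : Nat.Coprime (p ^ m) (P : Subgroup G).index :=
    Nat.Coprime.pow_left _ ((Nat.Prime.coprime_iff_not_dvd Fact.out).2 P.not_dvd_index)
  have h2 : (Nat.gcd (p ^ m) (P : Subgroup G).index) • x = 0 := by
    have := addOrderOf_dvd_iff_nsmul_eq_zero.2 hx
    have h3 := addOrderOf_dvd_iff_nsmul_eq_zero.2 h1
    exact addOrderOf_dvd_iff_nsmul_eq_zero.1 (Nat.dvd_gcd this h3)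
  rwa [hcop, one_smul] at h2

/-- Sylow vanishing: if `Hⁿ(P, Res A) = 0` for every Sylow subgroup `P` of the finite group
`G` (all primes `p`), then `Hⁿ(G, A) = 0`. -/
theorem isZero_of_forall_sylow [Finite G] (A : Rep.{u} k G) (n : ℕ)
    (h : ∀ (p : ℕ) [Fact p.Prime] (P : Sylow p G),
      Limits.IsZero (groupCohomology (res (P : Subgroup G).subtype A) n)) :
    Limits.IsZero (groupCohomology A n) := by
  rw [ModuleCat.isZero_iff_subsingleton]
  refine ⟨fun x y => ?_⟩
  suffices ∀ z : groupCohomology A n, z = 0 by rw [this x, this y]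
  intro z
  by_contra hz
  -- the additive order of `z` divides every Sylow index
  have hdvd : ∀ (p : ℕ) [Fact p.Prime] (P : Sylow p G),
      addOrderOf z ∣ (P : Subgroup G).index := fun p _ P =>
    addOrderOf_dvd_iff_nsmul_eq_zero.2 (index_nsmul_eq_zero_of_isZero (P : Subgroup G) A n (h p P) z)
  have hne : addOrderOf z ≠ 1 := fun h1 => hz (AddMonoid.addOrderOf_eq_one_iff.1 h1)
  obtain ⟨q, hq, hqd⟩ := Nat.exists_prime_and_dvd hne
  have : Fact q.Prime := ⟨hq⟩
  obtain ⟨Q⟩ : Nonempty (Sylow q G) := inferInstance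
  exact Q.not_dvd_index (hqd.trans (hdvd q Q))

end Fermat.Agent.GC.Tate
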