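import Mathlib

/-!
# Inflation–restriction in degree 2

For a normal subgroup `S ≤ G` and a `G`-representation `A` with `H¹(S, A) = 0`, the sequence
`0 ⟶ H²(G ⧸ S, A^S) ⟶ H²(G, A) ⟶ H²(S, A)` is exact.  Direct cocycle computation.
-/

universe u

namespace Fermat.Agent.GC.Tate.InfRes2

open CategoryTheory groupCohomology Rep

variable {k G : Type u} [CommRing k] [Group G]

section Core

variable (A : Rep k G) (S : Subgroup G)

/-- The 2-cocycle identity for a plain function `G × G → A`. -/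
def IsZ2 (f : G × G → A) : Prop :=
  ∀ g h j : G, f (g * h, j) + f (g, h) = A.ρ g (f (h, j)) + f (g, h * j)

/-- The coboundary of a 1-cochain, as a plain function. -/
def dOne (v : G → A) : G × G → A := fun p => A.ρ p.1 (v p.2) - v (p.1 * p.2) + v p.1

/-- Cocycle-level form of `H¹(S, A) = 0`: every 1-cocycle of `S` with values in `A` is a
coboundary. -/
def H1Vanishes : Prop :=
  ∀ c : G → A, (∀ s ∈ S, ∀ t ∈ S, c (s * t) = A.ρ s (c t) + c s) →
    ∃ a : A, ∀ s ∈ S, c s = A.ρ s a - a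

variable {A S}

lemma dOne_apply (v : G → A) (g h : G) : dOne A v (g, h) = A.ρ g (v h) - v (g * h) + v g := rfl

lemma isZ2_dOne (v : G → A) : IsZ2 A (dOne A v) := by
  intro g h j
  simp only [dOne_apply, map_mul, Module.End.mul_apply, map_add, map_sub, mul_assoc]
  abel

lemma IsZ2.add {f f' : G × G → A} (hf : IsZ2 A f) (hf' : IsZ2 A f') : IsZ2 A (f + f') := by
  intro g h j
  simp only [Pi.add_apply, map_add]
  linear_combination (norm := abel) hf g h j + hf' g h j

lemma IsZ2.sub {f f' : G × G → A} (hf : IsZ2 A f) (hf' : IsZ2 A f') : IsZ2 A (f - f') := by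
  intro g h j
  simp only [Pi.sub_apply, map_sub]
  linear_combination (norm := abel) hf g h j - hf' g h j

/-- **Step 1.** If the 2-cocycle `f` vanishes on `S × S`, then after adding the coboundary of
`φ x = f (r x, (r x)⁻¹ x)` (`r` a system of representatives of `G / S`) it vanishes on `G × S`. -/
lemma step1 {f : G × G → A} (hf : IsZ2 A f) (hS : ∀ s ∈ S, ∀ t ∈ S, f (s, t) = 0)
    (r : G → G) (hr : ∀ x, (r x)⁻¹ * x ∈ S) (hr' : ∀ x, ∀ s ∈ S, r (x * s) = r x)
    (x s : G) (hs : s ∈ S) :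
    (f + dOne A (fun x => f (r x, (r x)⁻¹ * x))) (x, s) = 0 := by
  have hr1 : r 1 ∈ S := by simpa using S.inv_mem (hr 1)
  have hrs : r s = r 1 := by simpa using hr' 1 s hs
  have h0 : f (r s, (r s)⁻¹ * s) = 0 :=
    hS _ (hrs ▸ hr1) _ (S.mul_mem (S.inv_mem (hrs ▸ hr1)) hs)
  have h1 := hf (r x) ((r x)⁻¹ * x) s
  rw [mul_inv_cancel_left, hS _ (hr x) _ hs, map_zero, zero_add, mul_assoc] at h1
  simp only [Pi.add_apply, dOne_apply, h0, map_zero, hr' x s hs]
  linear_combination (norm := abel) h1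

/-- **Step 2.** If the 2-cocycle `f` vanishes on `G × S`, it is right-`S`-invariant in the second
variable. -/
lemma snd_mul_of_vanish {f : G × G → A} (hf : IsZ2 A f) (h0 : ∀ x, ∀ s ∈ S, f (x, s) = 0)
    (x g s : G) (hs : s ∈ S) : f (x, g * s) = f (x, g) := by
  have h1 := hf x g s
  rw [h0 _ s hs, h0 _ s hs, map_zero, zero_add, zero_add] at h1
  exact h1.symm

/-- **Step 2'.** If the 2-cocycle `f` vanishes on `G × S`, then `s ↦ f (s, g)` is a 1-cocycle
on `S` for every `g`. -/
lemma fst_cocycle_of_vanish [S.Normal] {f : G × G → A} (hf : IsZ2 A f)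
    (h0 : ∀ x, ∀ s ∈ S, f (x, s) = 0) (g s : G) (t : G) (ht : t ∈ S) :
    f (s * t, g) = A.ρ s (f (t, g)) + f (s, g) := by
  have h1 := hf s t g
  have h2 : f (s, t * g) = f (s, g) := by
    have : t * g = g * (g⁻¹ * t * g) := by group
    rw [this]
    exact snd_mul_of_vanish hf h0 s g _ (Subgroup.Normal.conj_mem' ‹_› t ht g)
  rw [h0 _ t ht, add_zero, h2] at h1
  exact h1

/-- **Step 3.** If the 2-cocycle `f` vanishes on `G × S` and `H¹(S, A) = 0`, then `f` is
cohomologous to a 2-cocycle vanishing on `S × G` and `G × S`. -/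
lemma step3 [S.Normal] (hH : H1Vanishes A S) {f : G × G → A} (hf : IsZ2 A f)
    (h0 : ∀ x, ∀ s ∈ S, f (x, s) = 0)
    (r : G → G) (hr : ∀ x, (r x)⁻¹ * x ∈ S) (hr' : ∀ x, ∀ s ∈ S, r (x * s) = r x) :
    ∃ a : G → A, (∀ g, ∀ s ∈ S, (f - dOne A a) (s, g) = 0) ∧
      (∀ g, ∀ s ∈ S, (f - dOne A a) (g, s) = 0) := by
  have hr1 : r 1 ∈ S := by simpa using S.inv_mem (hr 1)
  have hex : ∀ g : G, ∃ b : A, ∀ s ∈ S, f (s, g) = A.ρ s b - b :=
    fun g => hH (fun s => f (s, g)) (fun s _ t ht => fst_cocycle_of_vanish hf h0 g s t ht)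
  choose b hb using hex
  have ha2 : ∀ s ∈ S, b (r s) - b (r 1) = 0 := by
    intro s hs
    have : r s = r 1 := by simpa using hr' 1 s hs
    rw [this, sub_self]
  have ha3 : ∀ g, ∀ s ∈ S, f (s, g) = A.ρ s (b (r g) - b (r 1)) - (b (r g) - b (r 1)) := by
    intro g s hs
    have h1 : f (s, g) = f (s, r g) := by
      conv_lhs => rw [show g = r g * ((r g)⁻¹ * g) by group]
      exact snd_mul_of_vanish hf h0 s (r g) _ (hr g)
    have h2 : f (s, r 1) = 0 := h0 s _ hr1
    rw [h1, hb (r g) s hs, map_sub]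
    rw [hb (r 1) s hs] at h2
    linear_combination (norm := abel) h2
  refine ⟨fun g => b (r g) - b (r 1), fun g s hs => ?_, fun g s hs => ?_⟩
  · have h3 : b (r (s * g)) = b (r g) := by
      have : s * g = g * (g⁻¹ * s * g) := by group
      rw [this, hr' g _ (Subgroup.Normal.conj_mem' ‹_› s hs g)]
    simp only [Pi.sub_apply, dOne_apply, ha3 g s hs, ha2 s hs, h3]
    abel
  · simp only [Pi.sub_apply, dOne_apply, h0 g s hs, ha2 s hs, hr' g s hs, map_zero]
    abel

/-- **Step 4.** A 2-cocycle vanishing on `S × G` and `G × S` is constant on cosets of `S` in both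
variables and has `S`-invariant values. -/
lemma step4 [S.Normal] {f : G × G → A} (hf : IsZ2 A f)
    (h1 : ∀ g, ∀ s ∈ S, f (s, g) = 0) (h2 : ∀ g, ∀ s ∈ S, f (g, s) = 0) :
    (∀ g h, ∀ s ∈ S, f (g, h * s) = f (g, h)) ∧ (∀ g h, ∀ s ∈ S, f (g * s, h) = f (g, h)) ∧
      (∀ g h, ∀ s ∈ S, A.ρ s (f (g, h)) = f (g, h)) := by
  have hA : ∀ g h, ∀ s ∈ S, f (g, h * s) = f (g, h) :=
    fun g h s hs => snd_mul_of_vanish hf h2 g h s hs
  have hB : ∀ g h, ∀ s ∈ S, f (g * s, h) = f (g, h) := by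
    intro g h s hs
    have e := hf g s h
    rw [h2 g s hs, h1 h s hs, map_zero, add_zero, zero_add] at e
    rw [e, show s * h = h * (h⁻¹ * s * h) by group]
    exact hA g h _ (Subgroup.Normal.conj_mem' ‹_› s hs h)
  refine ⟨hA, hB, fun g h s hs => ?_⟩
  have e := hf s g h
  rw [h1 g s hs, h1 _ s hs, add_zero, add_zero, show s * g = g * (g⁻¹ * s * g) by group,
    hB g h _ (Subgroup.Normal.conj_mem' ‹_› s hs g)] at e
  exact e.symm

lemma dOne_add (v w : G → A) : dOne A (v + w) = dOne A v + dOne A w := by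
  funext ⟨g, h⟩
  simp only [dOne_apply, Pi.add_apply, map_add]
  abel

lemma dOne_sub (v w : G → A) : dOne A (v - w) = dOne A v - dOne A w := by
  funext ⟨g, h⟩
  simp only [dOne_apply, Pi.sub_apply, map_sub]
  abel

lemma dOne_dZero (a : A) : dOne A (fun g => A.ρ g a - a) = 0 := by
  funext ⟨g, h⟩
  simp only [dOne_apply, map_sub, map_mul, Module.End.mul_apply, Pi.zero_apply]
  abel

/-- **Exactness, cocycle level.** If `H¹(S, A) = 0` and the restriction of the 2-cocycle `f` to
`S × S` is the coboundary of `u`, then `f` is cohomologous to a 2-cocycle which is constant on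
cosets of `S` in both variables and has `S`-invariant values. -/
theorem exists_factor [S.Normal] (hH : H1Vanishes A S) {f : G × G → A} (hf : IsZ2 A f)
    (u : G → A) (hu : ∀ s ∈ S, ∀ t ∈ S, f (s, t) = dOne A u (s, t)) :
    ∃ v : G → A, (∀ g h, ∀ s ∈ S, (f - dOne A v) (g, h * s) = (f - dOne A v) (g, h)) ∧
      (∀ g h, ∀ s ∈ S, (f - dOne A v) (g * s, h) = (f - dOne A v) (g, h)) ∧
      (∀ g h, ∀ s ∈ S, A.ρ s ((f - dOne A v) (g, h)) = (f - dOne A v) (g, h)) := by
  classical
  let r : G → G := fun x => (x : G ⧸ S).out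
  have hr : ∀ x, (r x)⁻¹ * x ∈ S := fun x => QuotientGroup.eq.1 (QuotientGroup.out_eq' _)
  have hr' : ∀ x, ∀ s ∈ S, r (x * s) = r x := by
    intro x s hs
    simp only [r, QuotientGroup.mk_mul_of_mem x hs]
  have hf0 : IsZ2 A (f - dOne A u) := hf.sub (isZ2_dOne u)
  have h00 : ∀ s ∈ S, ∀ t ∈ S, (f - dOne A u) (s, t) = 0 := by
    intro s hs t ht
    rw [Pi.sub_apply, hu s hs t ht, sub_self]
  set φ : G → A := fun x => (f - dOne A u) (r x, (r x)⁻¹ * x) with hφ
  have hf1 : IsZ2 A (f - dOne A u + dOne A φ) := hf0.add (isZ2_dOne φ)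
  have h10 : ∀ x, ∀ s ∈ S, (f - dOne A u + dOne A φ) (x, s) = 0 :=
    fun x s hs => step1 hf0 h00 r hr hr' x s hs
  obtain ⟨a, ha1, ha2⟩ := step3 hH hf1 h10 r hr hr'
  have e : f - dOne A u + dOne A φ - dOne A a = f - dOne A (u - φ + a) := by
    rw [dOne_add, dOne_sub]; abel
  rw [e] at ha1 ha2
  exact ⟨u - φ + a, step4 (hf.sub (isZ2_dOne _)) ha1 ha2⟩

/-- **Injectivity of inflation, cocycle level.** If `H¹(S, A) = 0` and an inflated 2-cocycle `y`
(constant on cosets, `S`-invariant values) is the coboundary of `v`, then it is the coboundary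
of an inflated 1-cochain. -/
theorem exists_descent [S.Normal] (hH : H1Vanishes A S) {y : G × G → A} (hy : IsZ2 A y)
    (hy1 : ∀ g h, ∀ s ∈ S, y (g, h * s) = y (g, h)) (hy2 : ∀ g h, ∀ s ∈ S, y (g * s, h) = y (g, h))
    (hy3 : ∀ g h, ∀ s ∈ S, A.ρ s (y (g, h)) = y (g, h)) (v : G → A) (hv : y = dOne A v) :
    ∃ v' : G → A, y = dOne A v' ∧ (∀ g, ∀ s ∈ S, v' (g * s) = v' g) ∧
      (∀ g, ∀ s ∈ S, A.ρ s (v' g) = v' g) := by
  -- `y` is constant `= c` on `S × S`
  have hc : ∀ s ∈ S, ∀ t ∈ S, y (s, t) = y (1, 1) := by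
    intro s hs t ht
    have := hy2 1 t s hs
    have := hy1 1 1 t ht
    simp_all
  have hyg1 : ∀ g, y (g, 1) = A.ρ g (y (1, 1)) := by
    intro g
    have := hy g 1 1
    simp only [mul_one] at this
    linear_combination (norm := abel) this
  have hy1g : ∀ g, y (1, g) = y (1, 1) := by
    intro g
    have := hy 1 1 g
    simp only [mul_one, one_mul, map_one, Module.End.one_apply] at this
    linear_combination (norm := abel) (-1 : ℤ) • this
  -- `v - c` is a 1-cocycle on `S`
  obtain ⟨a, ha⟩ := hH (fun g => v g - y (1, 1)) (by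
    intro s hs t ht
    have h1 := hc s hs t ht
    rw [hv, dOne_apply, ← hv] at h1
    have h2 := hy3 1 1 s hs
    simp only [map_sub, h2]
    linear_combination (norm := abel) (-1 : ℤ) • h1)
  have hv' : y = dOne A (v - fun g => A.ρ g a - a) := by
    rw [dOne_sub, dOne_dZero, sub_zero, hv]
  have hvS : ∀ s ∈ S, (v - fun g => A.ρ g a - a) s = y (1, 1) := by
    intro s hs
    have := ha s hs
    simp only [Pi.sub_apply]
    linear_combination (norm := abel) this
  set v' : G → A := v - fun g => A.ρ g a - a with hv'_def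
  have hA : ∀ g, ∀ s ∈ S, v' (g * s) = v' g := by
    intro g s hs
    have h1 : y (g, s) = A.ρ g (y (1, 1)) := by
      have := hy1 g 1 s hs
      rw [one_mul] at this
      rw [this, hyg1]
    have h2 := congr_fun hv' (g, s)
    rw [dOne_apply, hvS s hs, h1] at h2
    linear_combination (norm := abel) h2
  refine ⟨v', hv', hA, fun g s hs => ?_⟩
  have h1 : y (s, g) = y (1, 1) := by
    have := hy2 1 g s hs
    rw [one_mul] at this
    rw [this, hy1g]
  have h2 := congr_fun hv' (s, g)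
  rw [dOne_apply, hvS s hs, show s * g = g * (g⁻¹ * s * g) by group,
    hA g _ (Subgroup.Normal.conj_mem' ‹_› s hs g), h1] at h2
  linear_combination (norm := abel) (-1 : ℤ) • h2

end Core

section Bridge

variable (A : Rep k G) (S : Subgroup G) [S.Normal]

lemma isZ2_iff_mem_cocycles₂ (f : G × G → A) : IsZ2 A f ↔ f ∈ cocycles₂ A :=
  (mem_cocycles₂_iff f).symm

lemma dOne_eq (v : G → A) : dOne A v = (d₁₂ A).hom v := rfl

omit [S.Normal] in
/-- `H¹(S, A) = 0` in Mathlib's sense implies the cocycle-level vanishing. -/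
lemma h1Vanishes_of_isZero (h : Limits.IsZero (groupCohomology (res S.subtype A) 1)) :
    H1Vanishes A S := by
  intro c hc
  have hmem : (fun s : S => c s.1) ∈ cocycles₁ (res S.subtype A) := by
    rw [mem_cocycles₁_iff]
    intro s t
    exact hc s.1 s.2 t.1 t.2
  have hz : H1π (res S.subtype A) ⟨_, hmem⟩ = 0 :=
    @Subsingleton.elim _ (ModuleCat.subsingleton_of_isZero h) _ _
  obtain ⟨a, ha⟩ := (H1π_eq_zero_iff _).1 hz
  refine ⟨a, fun s hs => ?_⟩
  have := congr_fun ha ⟨s, hs⟩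
  rw [cocycles₁.coe_mk (A := res S.subtype A)] at this
  simpa using this.symm

lemma mapCocycles₂_apply {H : Type u} [Group H] {A : Rep k H} {B : Rep k G} (f : G →* H)
    (φ : res f A ⟶ B) (x : cocycles₂ A) (g h : G) :
    (mapCocycles₂ f φ x) (g, h) = φ.hom (x (f g, f h)) := rfl

/-- The map on `H²` induced by the trivial group homomorphism vanishes. -/
theorem map₂_one {H : Type u} [Group H] {A : Rep k H} {B : Rep k G}
    (φ : res (1 : G →* H) A ⟶ B) : map (1 : G →* H) φ 2 = 0 := by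
  rw [← cancel_epi (H2π A), H2π_comp_map, Limits.comp_zero]
  ext x
  simp only [ModuleCat.hom_comp, LinearMap.coe_comp, Function.comp_apply, ModuleCat.hom_zero,
    LinearMap.zero_apply]
  rw [H2π_eq_zero_iff]
  refine ⟨fun _ => φ.hom (x (1, 1)), ?_⟩
  funext ⟨g, h⟩
  have := hom_comm_apply φ g (x (1, 1))
  erw [mapCocycles₂_apply]
  rw [d₁₂_hom_apply]
  simp only [MonoidHom.one_apply]
  rw [← this]
  simp

/-- Descend a function on `G × G` with `S`-invariant values to `G ⧸ S × G ⧸ S → A^S`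
(meaningful when it is constant on cosets). -/
noncomputable def descend₂ (f : G × G → A) (h3 : ∀ g h, ∀ s ∈ S, A.ρ s (f (g, h)) = f (g, h)) :
    (G ⧸ S) × (G ⧸ S) → (A.quotientToInvariants S) :=
  fun p => ⟨f (p.1.out, p.2.out), fun s => h3 _ _ s.1 s.2⟩

omit [S.Normal] in
lemma out_rel (g : G) : ∃ s ∈ S, (g : G ⧸ S).out = g * s := by
  obtain ⟨s, hs⟩ := QuotientGroup.mk_out_eq_mul S g
  exact ⟨s.1, s.2, hs⟩

lemma descend₂_mk {f : G × G → A} (h1 : ∀ g h, ∀ s ∈ S, f (g, h * s) = f (g, h))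
    (h2 : ∀ g h, ∀ s ∈ S, f (g * s, h) = f (g, h))
    (h3 : ∀ g h, ∀ s ∈ S, A.ρ s (f (g, h)) = f (g, h)) (g h : G) :
    ((descend₂ A S f h3 ((g : G ⧸ S), (h : G ⧸ S))) : A) = f (g, h) := by
  obtain ⟨s, hs, es⟩ := out_rel S g
  obtain ⟨t, ht, et⟩ := out_rel S h
  simp only [descend₂, es, et, h1 _ _ t ht, h2 _ _ s hs]

lemma descend₂_mem_cocycles₂ {f : G × G → A} (hf : IsZ2 A f)
    (h1 : ∀ g h, ∀ s ∈ S, f (g, h * s) = f (g, h))
    (h2 : ∀ g h, ∀ s ∈ S, f (g * s, h) = f (g, h))
    (h3 : ∀ g h, ∀ s ∈ S, A.ρ s (f (g, h)) = f (g, h)) :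
    descend₂ A S f h3 ∈ cocycles₂ (A.quotientToInvariants S) := by
  rw [mem_cocycles₂_iff]
  intro p q r
  induction p using QuotientGroup.induction_on with | H g =>
  induction q using QuotientGroup.induction_on with | H h =>
  induction r using QuotientGroup.induction_on with | H j =>
  apply Subtype.ext
  have := hf g h j
  have e : ∀ c : (A.quotientToInvariants S),
      (((A.ρ.quotientToInvariants S) (g : G ⧸ S) c : (A.quotientToInvariants S)) : A) =
        A.ρ g (c : A) := fun c => rfl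
  simp only [← QuotientGroup.mk_mul]
  rw [Submodule.coe_add, Submodule.coe_add, e, descend₂_mk A S h1 h2 h3, descend₂_mk A S h1 h2 h3,
    descend₂_mk A S h1 h2 h3, descend₂_mk A S h1 h2 h3]
  exact this

/-- The short complex `H²(G ⧸ S, A^S) ⟶ H²(G, A) ⟶ H²(S, A)`. -/
@[simps X₁ X₂ X₃ f g]
noncomputable def H2InfRes : ShortComplex (ModuleCat k) where
  X₁ := groupCohomology (A.quotientToInvariants S) 2
  X₂ := groupCohomology A 2
  X₃ := groupCohomology (res S.subtype A) 2
  f := map (QuotientGroup.mk' S) (ofHom <| A.ρ.quotientToInvariants_lift S) 2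
  g := map S.subtype (𝟙 _) 2
  zero := by rw [← map_comp, Category.comp_id,
    groupCohomology.congr (QuotientGroup.mk'_comp_subtype S) (fun f φ => map f φ 2), map₂_one]

set_option backward.defeqAttrib.useBackward true in
set_option backward.isDefEq.respectTransparency false in
/-- Exactness of `H²(G ⧸ S, A^S) ⟶ H²(G, A) ⟶ H²(S, A)` when every 1-cocycle `S → A` is a
coboundary. -/
theorem H2InfRes_exact_of_h1Vanishes (h : H1Vanishes A S) :
    (H2InfRes A S).Exact := by
  rw [ShortComplex.moduleCat_exact_iff_ker_sub_range]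
  intro x hx
  induction x using H2_induction_on with | @h x =>
  simp_all only [H2InfRes_X₂, H2InfRes_X₃, H2InfRes_g, H2InfRes_X₁, LinearMap.mem_ker,
    H2π_comp_map_apply S.subtype, H2InfRes_f]
  rcases (H2π_eq_zero_iff _).1 hx with ⟨(u : S → A), hu⟩
  classical
  -- extend `u` by zero
  let u' : G → A := fun g => if hg : g ∈ S then u ⟨g, hg⟩ else 0
  have hu' : ∀ s ∈ S, ∀ t ∈ S, x (s, t) = dOne A u' (s, t) := by
    intro s hs t ht
    have := congr_fun hu (⟨s, hs⟩, ⟨t, ht⟩)
    erw [mapCocycles₂_apply] at this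
    rw [d₁₂_hom_apply] at this
    simp only [dOne_apply, u', dif_pos hs, dif_pos ht, dif_pos (S.mul_mem hs ht)]
    exact this.symm
  obtain ⟨v, h1, h2, h3⟩ := exists_factor h
    ((isZ2_iff_mem_cocycles₂ A x).2 x.2) u' hu'
  have hZ : IsZ2 A (⇑x - dOne A v) := ((isZ2_iff_mem_cocycles₂ A x).2 x.2).sub (isZ2_dOne v)
  refine ⟨H2π _ ⟨descend₂ A S _ h3, descend₂_mem_cocycles₂ A S hZ h1 h2 h3⟩, ?_⟩
  symm
  simp only [H2π_comp_map_apply, H2π_eq_iff (A := A)]
  refine ⟨v, ?_⟩
  funext ⟨g, j⟩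
  rw [Pi.sub_apply]
  erw [mapCocycles₂_apply]
  have e := descend₂_mk A S h1 h2 h3 g j
  rw [Pi.sub_apply] at e
  change dOne A v (g, j) = x (g, j) - ((descend₂ A S (⇑x - dOne A v) h3 ((g : G ⧸ S), (j : G ⧸ S))) : A)
  rw [e]
  abel

set_option backward.defeqAttrib.useBackward true in
set_option backward.isDefEq.respectTransparency false in
/-- The inflation map `H²(G ⧸ S, A^S) ⟶ H²(G, A)` is a monomorphism when every 1-cocycle
`S → A` is a coboundary. -/
theorem H2InfRes_mono_of_h1Vanishes (h : H1Vanishes A S) :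
    Mono (H2InfRes A S).f := by
  rw [ModuleCat.mono_iff_injective, injective_iff_map_eq_zero]
  intro y hy
  induction y using H2_induction_on with | @h y =>
  simp_all only [H2InfRes_X₂, H2InfRes_X₁, H2InfRes_f, H2π_comp_map_apply (QuotientGroup.mk' S)]
  rcases (H2π_eq_zero_iff _).1 hy with ⟨(v : G → A), hv⟩
  let Y : G × G → A :=
    fun p => ((y ((p.1 : G ⧸ S), (p.2 : G ⧸ S)) : (A.quotientToInvariants S)) : A)
  have hY : Y = dOne A v := by
    funext ⟨g, j⟩
    have := congr_fun hv (g, j)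
    erw [mapCocycles₂_apply] at this
    exact this.symm
  have hYZ : IsZ2 A Y := by rw [hY]; exact isZ2_dOne v
  have hY1 : ∀ g h, ∀ s ∈ S, Y (g, h * s) = Y (g, h) := by
    intro g h s hs
    simp only [Y, QuotientGroup.mk_mul_of_mem _ hs]
  have hY2 : ∀ g h, ∀ s ∈ S, Y (g * s, h) = Y (g, h) := by
    intro g h s hs
    simp only [Y, QuotientGroup.mk_mul_of_mem _ hs]
  have hY3 : ∀ g h, ∀ s ∈ S, A.ρ s (Y (g, h)) = Y (g, h) :=
    fun g h s hs => (y ((g : G ⧸ S), (h : G ⧸ S))).2 ⟨s, hs⟩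
  obtain ⟨v', hv', hv1, hv2⟩ :=
    exists_descent h hYZ hY1 hY2 hY3 v hY
  rw [H2π_eq_zero_iff]
  refine ⟨fun p => ⟨v' p.out, fun s => hv2 _ s.1 s.2⟩, ?_⟩
  have hout : ∀ g : G, v' (g : G ⧸ S).out = v' g := by
    intro g
    obtain ⟨s, hs, es⟩ := out_rel S g
    rw [es, hv1 g s hs]
  funext ⟨p, q⟩
  induction p using QuotientGroup.induction_on with | H g =>
  induction q using QuotientGroup.induction_on with | H j =>
  apply Subtype.ext
  rw [d₁₂_hom_apply]
  have e := congr_fun hv' (g, j)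
  rw [dOne_apply] at e
  change A.ρ g (v' (j : G ⧸ S).out) - v' ((g : G ⧸ S) * (j : G ⧸ S)).out + v' (g : G ⧸ S).out =
    Y (g, j)
  rw [← QuotientGroup.mk_mul, hout, hout, hout, e]

/-- Exactness of `H²(G ⧸ S, A^S) ⟶ H²(G, A) ⟶ H²(S, A)` when `H¹(S, A) = 0`. -/
theorem H2InfRes_exact (h : Limits.IsZero (groupCohomology (res S.subtype A) 1)) :
    (H2InfRes A S).Exact :=
  H2InfRes_exact_of_h1Vanishes A S (h1Vanishes_of_isZero A S h)

/-- The inflation map `H²(G ⧸ S, A^S) ⟶ H²(G, A)` is a monomorphism when `H¹(S, A) = 0`. -/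
theorem H2InfRes_mono (h : Limits.IsZero (groupCohomology (res S.subtype A) 1)) :
    Mono (H2InfRes A S).f :=
  H2InfRes_mono_of_h1Vanishes A S (h1Vanishes_of_isZero A S h)

/-- `Subsingleton` form of the hypothesis. -/
theorem H2InfRes_exact_of_subsingleton [Subsingleton (groupCohomology (res S.subtype A) 1)] :
    (H2InfRes A S).Exact :=
  H2InfRes_exact A S (ModuleCat.isZero_of_subsingleton _)

/-- `Subsingleton` form of the hypothesis. -/
theorem H2InfRes_mono_of_subsingleton [Subsingleton (groupCohomology (res S.subtype A) 1)] :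
    Mono (H2InfRes A S).f :=
  H2InfRes_mono A S (ModuleCat.isZero_of_subsingleton _)

/-- Elementwise: inflation `H²(G ⧸ S, A^S) → H²(G, A)` is injective when `H¹(S, A) = 0`. -/
theorem inf_injective (h : Limits.IsZero (groupCohomology (res S.subtype A) 1)) :
    Function.Injective (H2InfRes A S).f.hom :=
  (ModuleCat.mono_iff_injective _).1 (H2InfRes_mono A S h)

/-- Elementwise: a class in `H²(G, A)` dying in `H²(S, A)` is inflated from `H²(G ⧸ S, A^S)`,
when `H¹(S, A) = 0`. -/
theorem exists_inf_eq_of_res_eq_zero (h : Limits.IsZero (groupCohomology (res S.subtype A) 1))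
    (x : groupCohomology A 2) (hx : (H2InfRes A S).g.hom x = 0) :
    ∃ y : groupCohomology (A.quotientToInvariants S) 2, (H2InfRes A S).f.hom y = x := by
  have := (ShortComplex.moduleCat_exact_iff_ker_sub_range _).1 (H2InfRes_exact A S h)
  exact this (LinearMap.mem_ker.2 hx)

/-- Elementwise: `res ∘ inf = 0` on `H²`. -/
theorem res_inf_eq_zero (y : groupCohomology (A.quotientToInvariants S) 2) :
    (H2InfRes A S).g.hom ((H2InfRes A S).f.hom y) = 0 := by
  have := (H2InfRes A S).zero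
  exact congr($(this).hom y)

omit [S.Normal] in
/-- Counting lemma for an exact-in-the-middle pair of additive maps. -/
lemma finite_and_card_le_of_ker_le_range {X₁ X₂ X₃ : Type*} [AddCommGroup X₁] [AddCommGroup X₂]
    [AddCommGroup X₃] (f : X₁ →+ X₂) (g : X₂ →+ X₃) (h : g.ker ≤ f.range) [Finite X₁]
    [Finite X₃] : Finite X₂ ∧ Nat.card X₂ ≤ Nat.card X₁ * Nat.card X₃ := by
  classical
  have hσ : ∀ x : X₂, ∃ y : X₁, f y = x - Function.invFun g (g x) := by
    intro x
    apply h
    have := Function.invFun_eq (f := g) ⟨x, rfl⟩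
    rw [AddMonoidHom.mem_ker, map_sub, this, sub_self]
  choose τ hτ using hσ
  have hinj : Function.Injective (fun x : X₂ => (τ x, g x)) := by
    intro x x' hxx
    simp only [Prod.mk.injEq] at hxx
    have h1 := hτ x
    have h2 := hτ x'
    rw [hxx.1, hxx.2] at h1
    rw [h1] at h2
    exact sub_left_injective h2
  refine ⟨Finite.of_injective _ hinj, ?_⟩
  have := Nat.card_le_card_of_injective _ hinj
  rwa [Nat.card_prod] at this

/-- Counting form of degree-2 inflation–restriction: if `H¹(S, A) = 0` and `H²(G ⧸ S, A^S)`,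
`H²(S, A)` are finite, then `H²(G, A)` is finite of cardinality at most the product. -/
theorem finite_and_card_H2_le (h : Limits.IsZero (groupCohomology (res S.subtype A) 1))
    [Finite (groupCohomology (A.quotientToInvariants S) 2)]
    [Finite (groupCohomology (res S.subtype A) 2)] :
    Finite (groupCohomology A 2) ∧ Nat.card (groupCohomology A 2) ≤
      Nat.card (groupCohomology (A.quotientToInvariants S) 2) *
        Nat.card (groupCohomology (res S.subtype A) 2) := by
  have hex := (ShortComplex.moduleCat_exact_iff_ker_sub_range _).1 (H2InfRes_exact A S h)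
  refine finite_and_card_le_of_ker_le_range (H2InfRes A S).f.hom.toAddMonoidHom
    (H2InfRes A S).g.hom.toAddMonoidHom ?_
  intro x hx
  obtain ⟨y, hy⟩ := hex (LinearMap.mem_ker.2 hx)
  exact ⟨y, hy⟩

end Bridge

end Fermat.Agent.GC.Tate.InfRes2
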