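/-
GATE-C / C2 TATE : interface definitions (helper25).  Mathlib only.
Model: Mathlib's `groupCohomology (A : Rep ℤ G) (n : ℕ)` for a (finite) group `G : Type`.
Acyclicity for all subgroups, class modules, augmentation ideal.
-/
import Mathlib

set_option autoImplicit false

namespace Fermat.Agent.GC.Tate

open CategoryTheory groupCohomology

noncomputable section

variable {G : Type} [Group G]

/-- The subgroup `H ≤ G` acting on `A` (restriction of the representation). -/
abbrev resSub (A : Rep ℤ G) (H : Subgroup G) : Rep ℤ H := Rep.res H.subtype A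

/-- `A` is acyclic for all subgroups: `Hᵐ⁺¹(H, A) = 0` for every subgroup `H` and every `m`. -/
def IsAcyclic (A : Rep ℤ G) : Prop :=
  ∀ (H : Subgroup G) (m : ℕ), Limits.IsZero (groupCohomology (resSub A H) (m + 1))

/-- `A` is acyclic at the prime `p`: `Hᵐ⁺¹(H, A)` has no `p`-torsion, for every subgroup `H` and
every `m`. -/
def IsAcyclicAt (p : ℕ) (A : Rep ℤ G) : Prop :=
  ∀ (H : Subgroup G) (m : ℕ) (x : groupCohomology (resSub A H) (m + 1)), (p : ℤ) • x = 0 → x = 0

/-- Restriction `H²(G, C) ⟶ H²(H, C)`. -/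
def resH2 (C : Rep ℤ G) (H : Subgroup G) : H2 C ⟶ H2 (resSub C H) :=
  groupCohomology.map H.subtype (𝟙 _) 2

variable (G) in
/-- A class module for the finite group `G` (Neukirch–Schmidt–Wingberg 3.1.8): a `G`-module `C` and
a class `u ∈ H²(G, C)` such that for every subgroup `H`: `H¹(H, C) = 0` and `H²(H, C)` is cyclic
of order `|H|`, generated by `res u`. -/
structure ClassModule where
  /-- the module -/
  C : Rep ℤ G
  /-- the fundamental class -/
  u : H2 C
  h1 : ∀ H : Subgroup G, Subsingleton (H1 (resSub C H))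
  h2_card : ∀ H : Subgroup G, Nat.card (H2 (resSub C H)) = Nat.card H
  h2_gen : ∀ (H : Subgroup G) (x : H2 (resSub C H)), ∃ n : ℤ, x = n • (resH2 C H).hom u

variable (G) in
/-- `p`-primary class module: the class-module axioms on `p`-primary parts only. `H¹(H, C)` has no
`p`-torsion; every `p`-power-torsion class of `H²(H, C)` is a multiple of `res u`; and the
`p`-power torsion of `H²(H, C)` has exactly `p ^ v_p(|H|)` elements. -/
structure PClassModule (p : ℕ) where
  /-- the module -/
  C : Rep ℤ G
  /-- the fundamental class -/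
  u : H2 C
  h1 : ∀ (H : Subgroup G) (x : H1 (resSub C H)), (p : ℤ) • x = 0 → x = 0
  h2_card : ∀ H : Subgroup G,
    Nat.card {x : H2 (resSub C H) // ∃ k : ℕ, ((p : ℤ) ^ k) • x = 0} =
      p ^ (Nat.card H).factorization p
  h2_gen : ∀ (H : Subgroup G) (x : H2 (resSub C H)), (∃ k : ℕ, ((p : ℤ) ^ k) • x = 0) →
    ∃ n : ℤ, x = n • (resH2 C H).hom u

/-! ### A concrete criterion for short exactness in `Rep k G` -/

section ShortExact

universe w u v

/-- Concrete criterion: a short complex of representations is short exact as soon as `f` is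
injective, `g` is surjective and `ker g ⊆ im f` (stated for a general coefficient ring `k`, so that
it can be instantiated at `k = ℤ` without elaboration problems). -/
lemma shortExact_of_concrete {k : Type u} {G : Type v} [CommRing k] [Group G]
    (S : ShortComplex (Rep.{w} k G)) (hf : Function.Injective S.f.hom)
    (hg : Function.Surjective S.g.hom)
    (hex : ∀ x : S.X₂, S.g.hom x = 0 → ∃ y : S.X₁, S.f.hom y = x) : S.ShortExact where
  exact := (forget₂ (Rep.{w} k G) (ModuleCat.{w} k)).reflects_exact_of_faithful _ <|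
    (ShortComplex.moduleCat_exact_iff _).2 fun x hx => hex x hx
  mono_f := (Rep.mono_iff_injective _).2 hf
  epi_g := (Rep.epi_iff_surjective _).2 hg

end ShortExact

/-! ### The augmentation sequence `0 → I_G → ℤ[G] → ℤ → 0` -/

variable (G)

/-- The augmentation `ℤ[G] ⟶ ℤ` as a morphism of representations. -/
def augHom : Rep.leftRegular ℤ G ⟶ Rep.trivial ℤ G ℤ :=
  Rep.leftRegularHom (Rep.trivial ℤ G ℤ) (1 : ℤ)

/-- The augmentation ideal, as a submodule of `ℤ[G]`. -/
def augSubmodule : Submodule ℤ (Rep.leftRegular ℤ G) :=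
  LinearMap.ker (augHom G).hom.toLinearMap

lemma augSubmodule_le_comap (g : G) :
    augSubmodule G ≤ (augSubmodule G).comap ((Rep.leftRegular ℤ G).ρ g) := by
  intro x hx
  simp only [augSubmodule, Submodule.mem_comap, LinearMap.mem_ker] at hx ⊢
  have := Rep.hom_comm_apply (augHom G) g x
  change (augHom G).hom ((Rep.leftRegular ℤ G).ρ g x) = 0
  rw [this]
  change (Rep.trivial ℤ G ℤ).ρ g ((augHom G).hom x) = 0
  have hx' : (augHom G).hom x = 0 := hx
  rw [hx']
  simp

/-- The augmentation ideal `I_G` as a representation of `G`. -/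
def augRep : Rep ℤ G :=
  (Rep.leftRegular ℤ G).subrepresentation (augSubmodule G) (augSubmodule_le_comap G)

/-- The inclusion `I_G ⟶ ℤ[G]`. -/
def augι : augRep G ⟶ Rep.leftRegular ℤ G :=
  Rep.subtype (Rep.leftRegular ℤ G) (augSubmodule G) (augSubmodule_le_comap G)

lemma augι_comp_augHom : augι G ≫ augHom G = 0 := by
  ext x
  exact x.2

/-- The augmentation sequence `I_G ⟶ ℤ[G] ⟶ ℤ`. -/
def augSeq : ShortComplex (Rep ℤ G) := ShortComplex.mk (augι G) (augHom G) (augι_comp_augHom G)

lemma augHom_single (g : G) (r : ℤ) :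
    (augHom G).hom (MonoidAlgebra.single g r : MonoidAlgebra ℤ G) = r := by
  simp [augHom]

lemma augSeq_shortExact : (augSeq G).ShortExact :=
  shortExact_of_concrete (augSeq G) (fun _ _ h => Subtype.ext h)
    (fun r => ⟨(MonoidAlgebra.single (1 : G) r : MonoidAlgebra ℤ G), augHom_single G 1 r⟩)
    (fun x hx => ⟨(⟨x, hx⟩ : augSubmodule G), rfl⟩)

end

end Fermat.Agent.GC.Tate
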