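/-
GATE-C / C2 TATE (helper25): elementwise forms of Mathlib's long exact sequence of group
cohomology, stated for a general coefficient ring `k` (so that they can be used at `k = ℤ`
without elaboration problems), plus vanishing consequences.
-/
import Mathlib

set_option autoImplicit false

namespace Fermat.Agent.GC.Tate

open CategoryTheory groupCohomology Limits

universe u

variable {k G : Type u} [CommRing k] [Group G] {X : ShortComplex (Rep k G)} (hX : X.ShortExact)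

include hX

/-- Exactness at `Hⁱ⁺¹(X₁)`: kernel of `Hⁱ⁺¹(f)` is the image of `δ`. -/
lemma exists_δ_eq_of_map_f_eq_zero (i : ℕ) (x : groupCohomology X.X₁ (i + 1))
    (hx : (groupCohomology.map (MonoidHom.id G) X.f (i + 1)).hom x = 0) :
    ∃ y : groupCohomology X.X₃ i, (δ hX i (i + 1) rfl).hom y = x :=
  (ShortComplex.moduleCat_exact_iff _).1 (mapShortComplex₁_exact hX rfl) x hx

/-- `Hⁱ⁺¹(f) ∘ δ = 0`. -/
lemma map_f_δ_apply (i : ℕ) (y : groupCohomology X.X₃ i) :
    (groupCohomology.map (MonoidHom.id G) X.f (i + 1)).hom ((δ hX i (i + 1) rfl).hom y) = 0 := by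
  have := (mapShortComplex₁ hX (i := i) (j := i + 1) rfl).zero
  exact congrArg (fun φ => φ.hom y) this

/-- Exactness at `Hⁱ(X₂)`. -/
lemma exists_map_f_eq_of_map_g_eq_zero (i : ℕ) (x : groupCohomology X.X₂ i)
    (hx : (groupCohomology.map (MonoidHom.id G) X.g i).hom x = 0) :
    ∃ y : groupCohomology X.X₁ i, (groupCohomology.map (MonoidHom.id G) X.f i).hom y = x :=
  (ShortComplex.moduleCat_exact_iff _).1 (mapShortComplex₂_exact hX i) x hx

/-- Exactness at `Hⁱ(X₃)`. -/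
lemma exists_map_g_eq_of_δ_eq_zero (i : ℕ) (x : groupCohomology X.X₃ i)
    (hx : (δ hX i (i + 1) rfl).hom x = 0) :
    ∃ y : groupCohomology X.X₂ i, (groupCohomology.map (MonoidHom.id G) X.g i).hom y = x :=
  (ShortComplex.moduleCat_exact_iff _).1 (mapShortComplex₃_exact hX rfl) x hx

/-- `δ ∘ Hⁱ(g) = 0`. -/
lemma δ_map_g_apply (i : ℕ) (y : groupCohomology X.X₂ i) :
    (δ hX i (i + 1) rfl).hom ((groupCohomology.map (MonoidHom.id G) X.g i).hom y) = 0 := by
  have := (mapShortComplex₃ hX (i := i) (j := i + 1) rfl).zero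
  exact congrArg (fun φ => φ.hom y) this

/-- If `Hⁱ(X₁)` and `Hⁱ(X₃)` vanish, so does `Hⁱ(X₂)`. -/
lemma isZero_X₂_of_isZero (i : ℕ) (h1 : IsZero (groupCohomology X.X₁ i))
    (h3 : IsZero (groupCohomology X.X₃ i)) : IsZero (groupCohomology X.X₂ i) :=
  (mapShortComplex₂_exact hX i).isZero_of_both_zeros (h1.eq_of_src _ _) (h3.eq_of_tgt _ _)

/-- If `Hⁱ(X₃)` and `Hⁱ⁺¹(X₂)` vanish, so does `Hⁱ⁺¹(X₁)`. -/
lemma isZero_X₁_succ_of_isZero (i : ℕ) (h3 : IsZero (groupCohomology X.X₃ i))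
    (h2 : IsZero (groupCohomology X.X₂ (i + 1))) : IsZero (groupCohomology X.X₁ (i + 1)) :=
  (mapShortComplex₁_exact hX (i := i) (j := i + 1) rfl).isZero_of_both_zeros
    (h3.eq_of_src _ _) (h2.eq_of_tgt _ _)

/-- If `Hⁱ(X₂)` and `Hⁱ⁺¹(X₁)` vanish, so does `Hⁱ(X₃)`. -/
lemma isZero_X₃_of_isZero (i : ℕ) (h2 : IsZero (groupCohomology X.X₂ i))
    (h1 : IsZero (groupCohomology X.X₁ (i + 1))) : IsZero (groupCohomology X.X₃ i) :=
  (mapShortComplex₃_exact hX (i := i) (j := i + 1) rfl).isZero_of_both_zeros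
    (h2.eq_of_src _ _) (h1.eq_of_tgt _ _)

end Fermat.Agent.GC.Tate
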