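/-
GATE-C / CYC-BRIDGE (helper68).  Mathlib only.

For a finite cyclic group `G = ⟨g⟩` and `A : Rep k G`, the cardinality of Mathlib's
`groupCohomology A i` is the index `[ker N : im (ρ g - 1)]` (`i` odd) resp.
`[ker (ρ g - 1) : im N]` (`i > 0` even), in `AddSubgroup.relIndex` form.  Also the multiplicative
form for `Rep.ofMulDistribMulAction G M`.
-/
import Mathlib

set_option autoImplicit false
set_option linter.style.haveILetI false

open CategoryTheory

namespace Fermat.Agent.GC.CycBridge

universe u

/-! ### linear algebra: the cardinality of a subquotient -/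

theorem card_quotient_eq_relIndex {R X : Type*} [Ring R] [AddCommGroup X] [Module R X]
    (K : Submodule R X) (P : Submodule R K) :
    Nat.card (K ⧸ P) = (P.map K.subtype).toAddSubgroup.relIndex K.toAddSubgroup := by
  have h1 : Nat.card (K ⧸ P) = P.toAddSubgroup.index := rfl
  rw [h1, AddSubgroup.relIndex]
  congr 1
  ext x
  constructor
  · intro hx
    exact ⟨x, hx, rfl⟩
  · rintro ⟨y, hy, hyx⟩
    have : y = x := Subtype.ext hyx
    exact this ▸ hy

/-- the homology of a short complex of modules has cardinality `[ker g : im f]` -/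
theorem card_homology_eq_relIndex {R : Type u} [Ring R] (S : ShortComplex (ModuleCat.{u} R)) :
    Nat.card S.homology =
      (LinearMap.range S.f.hom).toAddSubgroup.relIndex (LinearMap.ker S.g.hom).toAddSubgroup := by
  have e : S.homology ≃ (LinearMap.ker S.g.hom ⧸ LinearMap.range S.moduleCatToCycles) :=
    (S.moduleCatHomologyIso.toLinearEquiv).toEquiv
  rw [Nat.card_congr e, card_quotient_eq_relIndex]
  congr 2
  ext x
  constructor
  · rintro ⟨y, ⟨z, rfl⟩, rfl⟩
    exact ⟨z, rfl⟩
  · rintro ⟨z, rfl⟩
    exact ⟨S.moduleCatToCycles z, ⟨z, rfl⟩, rfl⟩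

/-! ### cyclic groups -/

section Cyclic

open Rep Rep.FiniteCyclicGroup

variable {k G : Type u} [CommRing k] [CommGroup G] [Fintype G] (A : Rep k G) (g : G)
  (hg : ∀ x, x ∈ Subgroup.zpowers g)

include hg

/-- **(B1)** odd degree: `|Hⁱ(G, A)| = [ker N : im (ρ g - 1)]`. -/
theorem card_groupCohomology_odd (i : ℕ) (hi : Odd i) :
    Nat.card (groupCohomology A i) =
      (LinearMap.range (applyAsHom A g - 𝟙 A).hom.toLinearMap).toAddSubgroup.relIndex
        (LinearMap.ker A.norm.hom.toLinearMap).toAddSubgroup := by
  rw [Nat.card_congr ((groupCohomologyIsoOdd A g hg i hi).toLinearEquiv).toEquiv,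
    card_homology_eq_relIndex]
  rfl

/-- **(B2)** positive even degree: `|Hⁱ(G, A)| = [ker (ρ g - 1) : im N]`. -/
theorem card_groupCohomology_even (i : ℕ) [NeZero i] (hi : Even i) :
    Nat.card (groupCohomology A i) =
      (LinearMap.range A.norm.hom.toLinearMap).toAddSubgroup.relIndex
        (LinearMap.ker (applyAsHom A g - 𝟙 A).hom.toLinearMap).toAddSubgroup := by
  rw [Nat.card_congr ((groupCohomologyIsoEven A g hg i hi).toLinearEquiv).toEquiv,
    card_homology_eq_relIndex]
  rfl

/-- periodicity of cardinalities -/
theorem card_groupCohomology_add_two (i : ℕ) [NeZero i] :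
    Nat.card (groupCohomology A (i + 2)) = Nat.card (groupCohomology A i) := by
  rcases Nat.even_or_odd i with hi | hi
  · rw [card_groupCohomology_even A g hg i hi,
      card_groupCohomology_even A g hg (i + 2) (hi.add (by decide))]
  · rw [card_groupCohomology_odd A g hg i hi,
      card_groupCohomology_odd A g hg (i + 2) (hi.add_even (by decide))]

end Cyclic

/-! ### a `Group` with a generator, `Representation`-level statement -/

section CyclicGroup

variable {k G : Type u} [CommRing k] [Group G] [Fintype G] (A : Rep k G) (g : G)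
  (hg : ∀ x, x ∈ Subgroup.zpowers g)

include hg

/-- **(B1')** odd degree: `|Hⁱ(G, A)| = [ker N : im (ρ g - 1)]`, `G` any group generated by `g`. -/
theorem card_groupCohomology_odd_of_group (i : ℕ) (hi : Odd i) :
    Nat.card (groupCohomology A i) =
      (LinearMap.range (A.ρ g - 1)).toAddSubgroup.relIndex
        (LinearMap.ker A.ρ.norm).toAddSubgroup := by
  haveI : IsCyclic G := ⟨g, hg⟩
  letI : CommGroup G := IsCyclic.commGroup
  exact card_groupCohomology_odd A g hg i hi

/-- **(B2')** positive even degree: `|Hⁱ(G, A)| = [ker (ρ g - 1) : im N]`. -/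
theorem card_groupCohomology_even_of_group (i : ℕ) [NeZero i] (hi : Even i) :
    Nat.card (groupCohomology A i) =
      (LinearMap.range A.ρ.norm).toAddSubgroup.relIndex
        (LinearMap.ker (A.ρ g - 1)).toAddSubgroup := by
  haveI : IsCyclic G := ⟨g, hg⟩
  letI : CommGroup G := IsCyclic.commGroup
  exact card_groupCohomology_even A g hg i hi

theorem card_groupCohomology_add_two_of_group (i : ℕ) [NeZero i] :
    Nat.card (groupCohomology A (i + 2)) = Nat.card (groupCohomology A i) := by
  haveI : IsCyclic G := ⟨g, hg⟩
  letI : CommGroup G := IsCyclic.commGroup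
  exact card_groupCohomology_add_two A g hg i

end CyclicGroup

end Fermat.Agent.GC.CycBridge

namespace Fermat.Agent.GC.CycBridge

/-! ### multiplicative form -/

section Mul

open Rep Rep.FiniteCyclicGroup

set_option linter.unusedSectionVars false

section Defs

variable {G M : Type} [Monoid G] [Fintype G] [CommGroup M] [MulDistribMulAction G M]

/-- `x ↦ g • x / x` -/
def mDlt (g : G) : M →* M where
  toFun x := g • x / x
  map_one' := by simp
  map_mul' x y := by rw [smul_mul', mul_div_mul_comm]

variable (G) in
/-- `x ↦ ∏_{h ∈ G} h • x` -/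
def mNrm : M →* M where
  toFun x := ∏ h : G, h • x
  map_one' := by simp
  map_mul' x y := by simp [smul_mul', Finset.prod_mul_distrib]

theorem mDlt_apply (g : G) (x : M) : mDlt g x = g • x / x := rfl

theorem mNrm_apply (x : M) : mNrm G x = ∏ h : G, h • x := rfl

end Defs

variable {G M : Type} [CommGroup G] [Fintype G] [CommGroup M] [MulDistribMulAction G M]

/-- the linear map `ρ g - 1` of `Rep.ofMulDistribMulAction G M`, on `Additive M` -/
noncomputable def dLin (g : G) : Additive M →ₗ[ℤ] Additive M :=
  (applyAsHom (Rep.ofMulDistribMulAction G M) g - 𝟙 _).hom.toLinearMap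

variable (G M) in
/-- the norm of `Rep.ofMulDistribMulAction G M`, on `Additive M` -/
noncomputable def nLin : Additive M →ₗ[ℤ] Additive M :=
  (Rep.ofMulDistribMulAction G M).norm.hom.toLinearMap

theorem dLin_apply (g : G) (x : Additive M) :
    dLin g x = Additive.ofMul (mDlt g x.toMul) := by
  simp [dLin, applyAsHom, mDlt_apply, div_eq_mul_inv, sub_eq_add_neg]
  rfl

theorem nLin_apply (x : Additive M) :
    nLin G M x = Additive.ofMul (mNrm G x.toMul) := by
  apply Additive.toMul.injective
  exact Representation.norm_ofMulDistribMulAction_eq x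

theorem range_dLin (g : G) :
    (LinearMap.range (dLin (M := M) g)).toAddSubgroup =
      Subgroup.toAddSubgroup (mDlt (M := M) g).range := by
  ext x
  constructor
  · rintro ⟨y, rfl⟩
    exact ⟨y.toMul, (congrArg Additive.toMul (dLin_apply g y)).symm⟩
  · rintro ⟨y, hy⟩
    exact ⟨Additive.ofMul y, (dLin_apply g _).trans (congrArg Additive.ofMul hy)⟩

theorem ker_dLin (g : G) :
    (LinearMap.ker (dLin (M := M) g)).toAddSubgroup =
      Subgroup.toAddSubgroup (mDlt (M := M) g).ker := by
  ext x
  constructor
  · intro hx
    have h : dLin g x = 0 := hx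
    rw [dLin_apply] at h
    exact h
  · intro hx
    show dLin g x = 0
    rw [dLin_apply]
    exact hx

theorem range_nLin :
    (LinearMap.range (nLin G M)).toAddSubgroup = Subgroup.toAddSubgroup (mNrm G (M := M)).range := by
  ext x
  constructor
  · rintro ⟨y, rfl⟩
    exact ⟨y.toMul, (congrArg Additive.toMul (nLin_apply y)).symm⟩
  · rintro ⟨y, hy⟩
    exact ⟨Additive.ofMul y, (nLin_apply _).trans (congrArg Additive.ofMul hy)⟩

theorem ker_nLin :
    (LinearMap.ker (nLin G M)).toAddSubgroup = Subgroup.toAddSubgroup (mNrm G (M := M)).ker := by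
  ext x
  constructor
  · intro hx
    have h : nLin G M x = 0 := hx
    rw [nLin_apply] at h
    exact h
  · intro hx
    show nLin G M x = 0
    rw [nLin_apply]
    exact hx

variable (g : G) (hg : ∀ x, x ∈ Subgroup.zpowers g)

include hg

/-- **(B3)** odd degree, multiplicative: `|Hⁱ(G, M)| = [ker N : {g x / x}]`. -/
theorem card_groupCohomology_odd_mul (i : ℕ) (hi : Odd i) :
    Nat.card (groupCohomology (Rep.ofMulDistribMulAction G M) i) =
      (mDlt (M := M) g).range.relIndex (mNrm G (M := M)).ker := by
  have h := card_groupCohomology_odd (Rep.ofMulDistribMulAction G M) g hg i hi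
  have h' : Nat.card (groupCohomology (Rep.ofMulDistribMulAction G M) i) =
      (LinearMap.range (dLin (M := M) g)).toAddSubgroup.relIndex
        (LinearMap.ker (nLin G M)).toAddSubgroup := h
  rw [h', range_dLin, ker_nLin, Subgroup.relIndex_toAddSubgroup]

/-- **(B3)** positive even degree, multiplicative: `|Hⁱ(G, M)| = [M^G : N M]`. -/
theorem card_groupCohomology_even_mul (i : ℕ) [NeZero i] (hi : Even i) :
    Nat.card (groupCohomology (Rep.ofMulDistribMulAction G M) i) =
      (mNrm G (M := M)).range.relIndex (mDlt (M := M) g).ker := by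
  have h := card_groupCohomology_even (Rep.ofMulDistribMulAction G M) g hg i hi
  have h' : Nat.card (groupCohomology (Rep.ofMulDistribMulAction G M) i) =
      (LinearMap.range (nLin G M)).toAddSubgroup.relIndex
        (LinearMap.ker (dLin (M := M) g)).toAddSubgroup := h
  rw [h', range_nLin, ker_dLin, Subgroup.relIndex_toAddSubgroup]

theorem card_H1_mul :
    Nat.card (groupCohomology.H1 (Rep.ofMulDistribMulAction G M)) =
      (mDlt (M := M) g).range.relIndex (mNrm G (M := M)).ker :=
  card_groupCohomology_odd_mul g hg 1 (by decide)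

theorem card_H2_mul :
    Nat.card (groupCohomology.H2 (Rep.ofMulDistribMulAction G M)) =
      (mNrm G (M := M)).range.relIndex (mDlt (M := M) g).ker :=
  card_groupCohomology_even_mul g hg 2 (by decide)

end Mul

/-! ### the same for a `Group` with a generator (no `CommGroup` instance required) -/

section Group

variable {G M : Type} [Group G] [Fintype G] [CommGroup M] [MulDistribMulAction G M]
  (g : G) (hg : ∀ x, x ∈ Subgroup.zpowers g)

include hg

theorem card_H1_mul_of_group :
    Nat.card (groupCohomology.H1 (Rep.ofMulDistribMulAction G M)) =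
      (mDlt (M := M) g).range.relIndex (mNrm G (M := M)).ker := by
  haveI : IsCyclic G := ⟨g, hg⟩
  letI : CommGroup G := IsCyclic.commGroup
  exact card_H1_mul g hg

theorem card_H2_mul_of_group :
    Nat.card (groupCohomology.H2 (Rep.ofMulDistribMulAction G M)) =
      (mNrm G (M := M)).range.relIndex (mDlt (M := M) g).ker := by
  haveI : IsCyclic G := ⟨g, hg⟩
  letI : CommGroup G := IsCyclic.commGroup
  exact card_H2_mul g hg

theorem card_groupCohomology_odd_mul_of_group (i : ℕ) (hi : Odd i) :
    Nat.card (groupCohomology (Rep.ofMulDistribMulAction G M) i) =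
      (mDlt (M := M) g).range.relIndex (mNrm G (M := M)).ker := by
  haveI : IsCyclic G := ⟨g, hg⟩
  letI : CommGroup G := IsCyclic.commGroup
  exact card_groupCohomology_odd_mul g hg i hi

theorem card_groupCohomology_even_mul_of_group (i : ℕ) [NeZero i] (hi : Even i) :
    Nat.card (groupCohomology (Rep.ofMulDistribMulAction G M) i) =
      (mNrm G (M := M)).range.relIndex (mDlt (M := M) g).ker := by
  haveI : IsCyclic G := ⟨g, hg⟩
  letI : CommGroup G := IsCyclic.commGroup
  exact card_groupCohomology_even_mul g hg i hi

end Group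

end Fermat.Agent.GC.CycBridge
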