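import Fermat.Agent.GC.Tate.CorRes

/-!
# GATE-C / C2 : Shapiro's lemma for an INJECTIVE group homomorphism `φ : D →* G`

Mathlib's `groupCohomology.coindIso` (and `shapiro` of `CorRes.lean`) are stated for `S.subtype`.
C4's idele model uses `Rep.coind (decHom q L) _` with `decHom` an injective `MonoidHom`, so here:

* `coindEvHom φ A : res φ (coind φ A) ⟶ A` (evaluation at `1`), any `φ`;
* `shapiroHom φ A n := map φ (coindEvHom φ A) n : Hⁿ(G, Coind_φ A) ⟶ Hⁿ(D, A)`, any `φ`;
* `shapiroHom_naturality`;
* `shapiroHom_bijective φ hφ A n` for `hφ : Function.Injective φ`, and `shapiroHomIso`.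
Proof: transport along `D ≃* φ.range` to the subgroup case (`shapiro_bijective`).
-/

namespace Fermat.Agent.GC.Tate

open CategoryTheory groupCohomology Rep Limits

universe u

variable {k G D : Type u} [CommRing k] [Group G] [Group D] (φ : D →* G)

/-- Evaluation at `1`: `Res_φ Coind_φ A ⟶ A`, for an arbitrary group homomorphism `φ`. -/
noncomputable def coindEvHom (A : Rep.{u} k D) : res φ (coind φ A) ⟶ A :=
  (resCoindHomEquiv φ (coind φ A) A).symm (𝟙 _)

lemma coindEvHom_hom_apply (A : Rep.{u} k D) (f : coind φ A) :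
    (coindEvHom φ A).hom f = f.1 1 := rfl

/-- The explicit Shapiro map for a group homomorphism `φ : D →* G`. -/
noncomputable def shapiroHom (A : Rep.{u} k D) (n : ℕ) :
    groupCohomology (coind φ A) n ⟶ groupCohomology A n :=
  map φ (coindEvHom φ A) n

lemma coindEvHom_naturality {A B : Rep.{u} k D} (f : A ⟶ B) :
    (resFunctor φ).map (coindMap φ f) ≫ coindEvHom φ B = coindEvHom φ A ≫ f := by
  ext x
  rfl

lemma shapiroHom_naturality {A B : Rep.{u} k D} (f : A ⟶ B) (n : ℕ) :
    map (MonoidHom.id G) (coindMap φ f) n ≫ shapiroHom φ B n =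
      shapiroHom φ A n ≫ map (MonoidHom.id D) f n := by
  unfold shapiroHom
  have h1 := map_comp (A := coind φ A) (B := coind φ B) (C := B)
    (MonoidHom.id G) φ (coindMap φ f) (coindEvHom φ B) n
  have h2 := map_comp (A := coind φ A) (B := A) (C := B)
    φ (MonoidHom.id D) (coindEvHom φ A) f n
  rw [← h1, ← h2]
  exact congrArg (fun ψ => map φ ψ n) (coindEvHom_naturality φ f)

section Injective

variable (hφ : Function.Injective φ)

/-- `D ≃* φ.range`. -/
noncomputable abbrev rangeEquiv : D ≃* φ.range := MonoidHom.ofInjective hφ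

/-- `A` transported to a representation of `φ.range`. -/
noncomputable abbrev transportRep (A : Rep.{u} k D) : Rep.{u} k φ.range :=
  res (rangeEquiv φ hφ).symm.toMonoidHom A

/-- `Coind_φ A ⟶ Coind_{φ.range}^G A'` (identity on functions). -/
noncomputable def coindToRange (A : Rep.{u} k D) :
    coind φ A ⟶ coind φ.range.subtype (transportRep φ hφ A) :=
  Rep.ofHom ⟨
    { toFun := fun f => ⟨f.1, by
        intro s g
        have h := f.2 ((rangeEquiv φ hφ).symm s) g
        have hs : φ ((rangeEquiv φ hφ).symm s) = s.1 := by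
          have := (rangeEquiv φ hφ).apply_symm_apply s
          exact congrArg Subtype.val this
        rw [hs] at h
        exact h⟩
      map_add' := fun _ _ => rfl
      map_smul' := fun _ _ => rfl }, fun g => by ext f; rfl⟩

/-- `Coind_{φ.range}^G A' ⟶ Coind_φ A` (identity on functions). -/
noncomputable def coindOfRange (A : Rep.{u} k D) :
    coind φ.range.subtype (transportRep φ hφ A) ⟶ coind φ A :=
  Rep.ofHom ⟨
    { toFun := fun f => ⟨f.1, by
        intro d g
        have h := f.2 (rangeEquiv φ hφ d) g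
        have hd : (rangeEquiv φ hφ).symm (rangeEquiv φ hφ d) = d :=
          (rangeEquiv φ hφ).symm_apply_apply d
        change f.1 (φ d * g) = A.ρ ((rangeEquiv φ hφ).symm (rangeEquiv φ hφ d)) (f.1 g) at h
        rw [hd] at h
        exact h⟩
      map_add' := fun _ _ => rfl
      map_smul' := fun _ _ => rfl }, fun g => by ext f; rfl⟩

lemma coindToRange_comp_coindOfRange (A : Rep.{u} k D) :
    coindToRange φ hφ A ≫ coindOfRange φ hφ A = 𝟙 _ := by
  ext f; rfl

lemma coindOfRange_comp_coindToRange (A : Rep.{u} k D) :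
    coindOfRange φ hφ A ≫ coindToRange φ hφ A = 𝟙 _ := by
  ext f; rfl


/-- `Res_e A' ⟶ A` (identity), `e : D ≃* φ.range`. -/
noncomputable def transportBack (A : Rep.{u} k D) :
    res (rangeEquiv φ hφ).toMonoidHom (transportRep φ hφ A) ⟶ A :=
  Rep.ofHom ⟨LinearMap.id, fun d => by
    ext a
    change A.ρ ((rangeEquiv φ hφ).symm (rangeEquiv φ hφ d)) a = A.ρ d a
    rw [(rangeEquiv φ hφ).symm_apply_apply d]⟩

/-- `Res_{e⁻¹} A ⟶ A'` (identity). -/
noncomputable def transportFwd (A : Rep.{u} k D) :
    res (rangeEquiv φ hφ).symm.toMonoidHom A ⟶ transportRep φ hφ A := 𝟙 _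

lemma map_transport_bijective (A : Rep.{u} k D) (n : ℕ) :
    Function.Bijective (map (rangeEquiv φ hφ).toMonoidHom (transportBack φ hφ A) n) := by
  have h1 : map (rangeEquiv φ hφ).symm.toMonoidHom (transportFwd φ hφ A) n ≫
      map (rangeEquiv φ hφ).toMonoidHom (transportBack φ hφ A) n = 𝟙 _ := by
    rw [← map_comp (A := A) (B := transportRep φ hφ A) (C := A)
      (rangeEquiv φ hφ).symm.toMonoidHom (rangeEquiv φ hφ).toMonoidHom
      (transportFwd φ hφ A) (transportBack φ hφ A) n, ← map_id]
    refine map_congr (g := MonoidHom.id D) (ψ := 𝟙 A) (MonoidHom.ext fun d => by simp) ?_ n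
    rfl
  have h2 : map (rangeEquiv φ hφ).toMonoidHom (transportBack φ hφ A) n ≫
      map (rangeEquiv φ hφ).symm.toMonoidHom (transportFwd φ hφ A) n = 𝟙 _ := by
    have hc := map_comp (A := transportRep φ hφ A) (B := A) (C := transportRep φ hφ A)
      (rangeEquiv φ hφ).toMonoidHom (rangeEquiv φ hφ).symm.toMonoidHom
      (transportBack φ hφ A) (transportFwd φ hφ A) n
    rw [← hc]
    have hcg : map ((rangeEquiv φ hφ).toMonoidHom.comp (rangeEquiv φ hφ).symm.toMonoidHom)
        ((resFunctor (rangeEquiv φ hφ).symm.toMonoidHom).map (transportBack φ hφ A) ≫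
          transportFwd φ hφ A) n =
        map (A := transportRep φ hφ A) (B := transportRep φ hφ A) (MonoidHom.id φ.range)
          (𝟙 (transportRep φ hφ A)) n := by
      apply map_congr (MonoidHom.ext fun d => by simp)
      ext a
      rfl
    rw [hcg]
    exact map_id n
  refine ⟨?_, ?_⟩
  · intro x y hxy
    have := congrArg (map (rangeEquiv φ hφ).symm.toMonoidHom (transportFwd φ hφ A) n) hxy
    have hx := congrArg (fun f => f x) h2
    have hy := congrArg (fun f => f y) h2
    simp only [ModuleCat.hom_comp, LinearMap.comp_apply] at hx hy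
    exact hx.symm.trans (this.trans hy)
  · intro y
    exact ⟨map (rangeEquiv φ hφ).symm.toMonoidHom (transportFwd φ hφ A) n y,
      congrArg (fun f => f y) h1⟩


/-- `Hⁿ(G, Coind_φ A) ⟶ Hⁿ(G, Coind_{φ.range} A')`. -/
noncomputable def mapToRange (A : Rep.{u} k D) (n : ℕ) :
    groupCohomology (coind φ A) n ⟶
      groupCohomology (coind φ.range.subtype (transportRep φ hφ A)) n :=
  map (MonoidHom.id G) (coindToRange φ hφ A) n

/-- `Hⁿ(G, Coind_{φ.range} A') ⟶ Hⁿ(G, Coind_φ A)`. -/
noncomputable def mapOfRange (A : Rep.{u} k D) (n : ℕ) :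
    groupCohomology (coind φ.range.subtype (transportRep φ hφ A)) n ⟶
      groupCohomology (coind φ A) n :=
  map (MonoidHom.id G) (coindOfRange φ hφ A) n

lemma mapToRange_comp_mapOfRange (A : Rep.{u} k D) (n : ℕ) :
    mapToRange φ hφ A n ≫ mapOfRange φ hφ A n = 𝟙 _ := by
  unfold mapToRange mapOfRange
  rw [← map_id_comp, coindToRange_comp_coindOfRange, map_id]

lemma mapOfRange_comp_mapToRange (A : Rep.{u} k D) (n : ℕ) :
    mapOfRange φ hφ A n ≫ mapToRange φ hφ A n = 𝟙 _ := by
  unfold mapToRange mapOfRange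
  rw [← map_id_comp, coindOfRange_comp_coindToRange, map_id]

lemma mapToRange_bijective (A : Rep.{u} k D) (n : ℕ) :
    Function.Bijective (mapToRange φ hφ A n) := by
  have e1 := mapToRange_comp_mapOfRange φ hφ A n
  have e2 := mapOfRange_comp_mapToRange φ hφ A n
  refine ⟨fun x y hxy => ?_, fun y => ⟨mapOfRange φ hφ A n y,
    congrArg (fun f => f y) e2⟩⟩
  have := congrArg (mapOfRange φ hφ A n) hxy
  have hx := congrArg (fun f => f x) e1
  have hy := congrArg (fun f => f y) e1
  simp only [ModuleCat.hom_comp, LinearMap.comp_apply] at hx hy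
  exact hx.symm.trans (this.trans hy)

lemma shapiroHom_eq_comp (A : Rep.{u} k D) (n : ℕ) :
    shapiroHom φ A n = mapToRange φ hφ A n ≫
      shapiro φ.range (transportRep φ hφ A) n ≫
      map (rangeEquiv φ hφ).toMonoidHom (transportBack φ hφ A) n := by
  unfold shapiro shapiroHom mapToRange
  have h1 := map_comp (A := coind φ A) (B := coind φ.range.subtype (transportRep φ hφ A))
    (C := transportRep φ hφ A) (MonoidHom.id G) φ.range.subtype (coindToRange φ hφ A)
    (coindEv φ.range (transportRep φ hφ A)) n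
  rw [← Category.assoc, ← h1]
  have h2 := map_comp (A := coind φ A) (B := transportRep φ hφ A) (C := A)
    ((MonoidHom.id G).comp φ.range.subtype) (rangeEquiv φ hφ).toMonoidHom
    ((resFunctor φ.range.subtype).map (coindToRange φ hφ A) ≫
      coindEv φ.range (transportRep φ hφ A)) (transportBack φ hφ A) n
  rw [← h2]
  apply map_congr (MonoidHom.ext fun d => rfl)
  ext f
  rfl

include hφ in
/-- **Shapiro's lemma for an injective group homomorphism** `φ : D →* G`: the explicit map
`Hⁿ(G, Coind_φ A) ⟶ Hⁿ(D, A)` (restrict along `φ`, evaluate at `1`) is bijective. -/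
theorem shapiroHom_bijective (A : Rep.{u} k D) (n : ℕ) :
    Function.Bijective (shapiroHom φ A n) := by
  rw [shapiroHom_eq_comp φ hφ A n]
  have hb1 := mapToRange_bijective φ hφ A n
  have hb2 := shapiro_bijective φ.range n (transportRep φ hφ A)
  have hb3 := map_transport_bijective φ hφ A n
  exact (hb3.comp (hb2.comp hb1))

/-- Shapiro's isomorphism for an injective group homomorphism. -/
noncomputable def shapiroHomIso (A : Rep.{u} k D) (n : ℕ) :
    groupCohomology (coind φ A) n ≅ groupCohomology A n :=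
  (LinearEquiv.ofBijective (shapiroHom φ A n).hom (shapiroHom_bijective φ hφ A n)).toModuleIso

lemma shapiroHomIso_hom (A : Rep.{u} k D) (n : ℕ) :
    (shapiroHomIso φ hφ A n).hom = shapiroHom φ A n := rfl

end Injective

end Fermat.Agent.GC.Tate
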