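/-
GATE-C / C4 GLOBAL-COH (helper14): cohomology of a quotient stage, generic form.

`π : G' ↠ G` a surjection of groups, `A : Rep k G`, `A' : Rep k G'`, `φ : Res_π A ⟶ A'` injective
with image the `ker π`-invariants of `A'`.  Then
  `quotIso : Hⁿ(G'/ker π, A'^{ker π}) ≅ Hⁿ(G, A)`
and `quotIso⁻¹` followed by the inflation `Hⁿ(G'/ker π, A'^{ker π}) → Hⁿ(G', A')` is the map
`Hⁿ(G, A) → Hⁿ(G', A')` induced by `(π, φ)`.  Stated for a generic commutative ring `k`.
-/
import Mathlib

set_option autoImplicit false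

open CategoryTheory

noncomputable section

namespace Fermat.Agent.GC.Tate.QuotIso

universe u

variable {k G G' : Type u} [CommRing k] [Group G] [Group G'] (A : Rep.{u} k G) (A' : Rep.{u} k G')
  (π : G' →* G) (φ : Rep.res π A ⟶ A')

theorem hom_rho (g' : G') (a : A) : φ.hom (A.ρ (π g') a) = A'.ρ g' (φ.hom a) := by
  have := φ.hom.isIntertwining' g'
  exact congrArg (fun f => f a) this

theorem hom_mem_invariants (a : A) :
    φ.hom a ∈ Representation.invariants (MonoidHom.comp A'.ρ π.ker.subtype) := by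
  intro n
  have h1 := hom_rho A A' π φ (n : G') a
  rw [MonoidHom.mem_ker.1 n.2, map_one] at h1
  exact h1.symm

/-- `A → A'^{ker π}`. -/
def toInv : A.V →ₗ[k] (A'.quotientToInvariants π.ker).V :=
  LinearMap.codRestrict (Representation.invariants (MonoidHom.comp A'.ρ π.ker.subtype))
    φ.hom.toLinearMap (hom_mem_invariants A A' π φ)

theorem coe_toInv (a : A) : ((toInv A A' π φ a : (A'.quotientToInvariants π.ker).V) : A') =
    φ.hom a := rfl

theorem toInv_rho (g' : G') (a : A) :
    toInv A A' π φ (A.ρ (π g') a) =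
      (A'.quotientToInvariants π.ker).ρ (QuotientGroup.mk g') (toInv A A' π φ a) := by
  apply Subtype.ext
  exact hom_rho A A' π φ g' a

variable (hπ : Function.Surjective π) (hinj : Function.Injective φ.hom)
  (hsurj : ∀ a' : A', (∀ n ∈ π.ker, A'.ρ n a' = a') → ∃ a : A, φ.hom a = a')

include hinj in
theorem toInv_injective : Function.Injective (toInv A A' π φ) := by
  intro a b hab
  exact hinj (congrArg Subtype.val hab)

include hsurj in
theorem toInv_surjective : Function.Surjective (toInv A A' π φ) := by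
  rintro ⟨a', ha'⟩
  obtain ⟨a, ha⟩ := hsurj a' (fun n hn => ha' ⟨n, hn⟩)
  exact ⟨a, Subtype.ext ha⟩

/-- `A ≃ A'^{ker π}`. -/
def toInvEquiv : A.V ≃ₗ[k] (A'.quotientToInvariants π.ker).V :=
  LinearEquiv.ofBijective (toInv A A' π φ)
    ⟨toInv_injective A A' π φ hinj, toInv_surjective A A' π φ hsurj⟩

/-- `G'/ker π ≃ G`. -/
def quotEquiv : G' ⧸ π.ker ≃* G := QuotientGroup.quotientKerEquivOfSurjective π hπ

theorem quotEquiv_mk (g' : G') : quotEquiv π hπ (QuotientGroup.mk g') = π g' := rfl

theorem toInvEquiv_symm_rho (g : G' ⧸ π.ker) :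
    ((toInvEquiv A A' π φ hinj hsurj).symm).toLinearMap ∘ₗ (A'.quotientToInvariants π.ker).ρ g =
      A.ρ (quotEquiv π hπ g) ∘ₗ ((toInvEquiv A A' π φ hinj hsurj).symm).toLinearMap := by
  obtain ⟨g', rfl⟩ := QuotientGroup.mk_surjective g
  refine LinearMap.ext fun b => ?_
  obtain ⟨a, rfl⟩ := (toInvEquiv A A' π φ hinj hsurj).surjective b
  have h1 : (A'.quotientToInvariants π.ker).ρ (QuotientGroup.mk g')
      (toInvEquiv A A' π φ hinj hsurj a) = toInvEquiv A A' π φ hinj hsurj (A.ρ (π g') a) :=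
    (toInv_rho A A' π φ g' a).symm
  change (toInvEquiv A A' π φ hinj hsurj).symm
      ((A'.quotientToInvariants π.ker).ρ (QuotientGroup.mk g')
        (toInvEquiv A A' π φ hinj hsurj a)) =
    A.ρ (π g') ((toInvEquiv A A' π φ hinj hsurj).symm (toInvEquiv A A' π φ hinj hsurj a))
  rw [h1, LinearEquiv.symm_apply_apply, LinearEquiv.symm_apply_apply]

/-- **The quotient-stage isomorphism** `Hⁿ(G'/ker π, A'^{ker π}) ≅ Hⁿ(G, A)`. -/
def quotIso (n : ℕ) :
    groupCohomology (A'.quotientToInvariants π.ker) n ≅ groupCohomology A n :=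
  groupCohomology.mapIso (quotEquiv π hπ) (toInvEquiv A A' π φ hinj hsurj).symm
    (toInvEquiv_symm_rho A A' π φ hπ hinj hsurj) n

/-- **`quotIso⁻¹` followed by inflation is the map induced by `(π, φ)`.** -/
theorem quotIso_inv_infl (n : ℕ) :
    (quotIso A A' π φ hπ hinj hsurj n).inv ≫
        groupCohomology.map (QuotientGroup.mk' π.ker)
          (Rep.ofHom (A'.ρ.quotientToInvariants_lift π.ker)) n =
      groupCohomology.map π φ n := by
  unfold quotIso
  rw [groupCohomology.mapIso_inv, ← groupCohomology.map_comp]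
  exact groupCohomology.map_congr rfl rfl n

end Fermat.Agent.GC.Tate.QuotIso
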