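/-
GATE-C / C2 (helper80): the trace criterion in low degrees.  Mathlib only.

If the identity of a `G`-module `A` (`G` finite) is a trace, `a = ∑_h h (e (h⁻¹ a))` for some additive
endomorphism `e` of `A`, then `H¹(G, A) = 0` and `H²(G, A) = 0` (explicit bounding cochains).
Application: `ℤ[G]` restricted to a subgroup (in `Aug.lean`).
-/
import Mathlib

set_option autoImplicit false

open CategoryTheory groupCohomology

namespace Fermat.Agent.GC.Tate.TraceCrit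

variable {k G : Type} [CommRing k] [Group G] [Fintype G] (A : Rep.{0} k G)
  (e : A →+ A) (he : ∀ a : A, ∑ h : G, A.ρ h (e (A.ρ h⁻¹ a)) = a)

include he

/-- every `1`-cocycle is a coboundary -/
theorem mem_coboundaries₁ (f : cocycles₁ A) : ⇑f ∈ coboundaries₁ A := by
  refine ⟨∑ h : G, A.ρ h (e (f h⁻¹)), ?_⟩
  funext x
  rw [d₀₁_hom_apply, map_sum]
  have h1 : ∀ h : G, A.ρ x (A.ρ h (e (f h⁻¹))) = A.ρ (x * h) (e (f ((x * h)⁻¹ * x))) := by
    intro h
    rw [map_mul, Module.End.mul_apply, mul_inv_rev, inv_mul_cancel_right]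
  rw [Finset.sum_congr rfl fun h _ => h1 h]
  rw [Fintype.sum_equiv (Equiv.mulLeft x) (fun h => A.ρ (x * h) (e (f ((x * h)⁻¹ * x))))
    (fun h' => A.ρ h' (e (f (h'⁻¹ * x)))) (fun h => rfl)]
  have h2 : ∀ h' : G, A.ρ h' (e (f (h'⁻¹ * x)))
      = A.ρ h' (e (A.ρ h'⁻¹ (f x))) + A.ρ h' (e (f h'⁻¹)) := by
    intro h'
    rw [(mem_cocycles₁_iff f).1 f.2 h'⁻¹ x, map_add, map_add]
  rw [Finset.sum_congr rfl fun h _ => h2 h, Finset.sum_add_distrib, he (f x)]
  abel

/-- every `2`-cocycle is a coboundary -/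
theorem mem_coboundaries₂ (f : cocycles₂ A) : ⇑f ∈ coboundaries₂ A := by
  refine ⟨fun y => ∑ h : G, A.ρ h (e (f (h⁻¹, y))), ?_⟩
  funext ⟨x, y⟩
  rw [d₁₂_hom_apply]
  dsimp only
  rw [map_sum]
  have h1 : ∀ h : G, A.ρ x (A.ρ h (e (f (h⁻¹, y))))
      = A.ρ (x * h) (e (f ((x * h)⁻¹ * x, y))) := by
    intro h
    rw [map_mul, Module.End.mul_apply, mul_inv_rev, inv_mul_cancel_right]
  rw [Finset.sum_congr rfl fun h _ => h1 h]
  rw [Fintype.sum_equiv (Equiv.mulLeft x) (fun h => A.ρ (x * h) (e (f ((x * h)⁻¹ * x, y))))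
    (fun h' => A.ρ h' (e (f (h'⁻¹ * x, y)))) (fun h => rfl)]
  have h2 : ∀ h' : G, A.ρ h' (e (f (h'⁻¹ * x, y)))
      = A.ρ h' (e (A.ρ h'⁻¹ (f (x, y)))) + A.ρ h' (e (f (h'⁻¹, x * y)))
        - A.ρ h' (e (f (h'⁻¹, x))) := by
    intro h'
    have hc := (mem_cocycles₂_iff f).1 f.2 h'⁻¹ x y
    have hc' : f (h'⁻¹ * x, y) = A.ρ h'⁻¹ (f (x, y)) + f (h'⁻¹, x * y) - f (h'⁻¹, x) :=
      eq_sub_of_add_eq hc
    rw [hc', map_sub, map_add, map_sub, map_add]
  rw [Finset.sum_congr rfl fun h _ => h2 h, Finset.sum_sub_distrib, Finset.sum_add_distrib,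
    he (f (x, y))]
  abel

theorem isZero_H1 : Limits.IsZero (H1 A) := by
  rw [ModuleCat.isZero_iff_subsingleton]
  refine ⟨fun x y => ?_⟩
  have hz : ∀ z : H1 A, z = 0 := by
    intro z
    induction z using H1_induction_on with
    | h f => exact (H1π_eq_zero_iff f).2 (mem_coboundaries₁ A e he f)
  rw [hz x, hz y]

theorem isZero_H2 : Limits.IsZero (H2 A) := by
  rw [ModuleCat.isZero_iff_subsingleton]
  refine ⟨fun x y => ?_⟩
  have hz : ∀ z : H2 A, z = 0 := by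
    intro z
    induction z using H2_induction_on with
    | h f => exact (H2π_eq_zero_iff f).2 (mem_coboundaries₂ A e he f)
  rw [hz x, hz y]

end Fermat.Agent.GC.Tate.TraceCrit
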