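/-
GATE-C / C2 leaf L7' AUG (helper80): cohomology of the augmentation ideal.

* `isZero_H1_res_leftRegular`, `isZero_H2_res_leftRegular` : `H¹(H, k[G]) = H²(H, k[G]) = 0` for a
  finite subgroup `H ≤ G` (trace criterion with `e` = restriction of the support to a transversal).
* `card_H1_aug`, `isZero_H2_aug` (statements verbatim from board 1452).
-/
import Fermat.Agent.GC.Tate.Defs
import Fermat.Agent.GC.Tate.TraceCrit

set_option autoImplicit false

open CategoryTheory groupCohomology

namespace Fermat.Agent.GC.Tate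

noncomputable section

namespace Aug

variable {k G : Type} [CommRing k] [Group G]

/-- restriction of the support of an element of `k[G]` to a set `T` -/
def cut (T : Set G) [DecidablePred (· ∈ T)] : MonoidAlgebra k G →+ MonoidAlgebra k G :=
  (MonoidAlgebra.coeffAddEquiv (R := k) (M := G)).symm.toAddMonoidHom.comp
    ((Finsupp.filterAddHom (· ∈ T)).comp
      (MonoidAlgebra.coeffAddEquiv (R := k) (M := G)).toAddMonoidHom)

theorem cut_single_of_mem (T : Set G) [DecidablePred (· ∈ T)] {g : G} (hg : g ∈ T) (r : k) :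
    cut T (MonoidAlgebra.single g r : MonoidAlgebra k G) = MonoidAlgebra.single g r := by
  show MonoidAlgebra.ofCoeff (Finsupp.filter (· ∈ T) (Finsupp.single g r)) = _
  rw [Finsupp.filter_single_of_pos _ hg]
  rfl

theorem cut_single_of_not_mem (T : Set G) [DecidablePred (· ∈ T)] {g : G} (hg : g ∉ T) (r : k) :
    cut T (MonoidAlgebra.single g r : MonoidAlgebra k G) = 0 := by
  show MonoidAlgebra.ofCoeff (Finsupp.filter (· ∈ T) (Finsupp.single g r)) = _
  rw [Finsupp.filter_single_of_neg _ hg]
  rfl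

theorem leftRegular_ρ_single' (τ ρ' : G) (r : k) :
    (Rep.leftRegular k G).ρ τ (MonoidAlgebra.single ρ' r : MonoidAlgebra k G)
      = (MonoidAlgebra.single (τ * ρ') r : MonoidAlgebra k G) := by
  show Representation.ofMulAction k G G τ (MonoidAlgebra.single ρ' r) = _
  rw [Representation.ofMulAction_single]
  rfl

/-- the identity of `k[G]` is the `H`-trace of `cut T`, `T` a right transversal of `H` -/
theorem trace_cut (H : Subgroup G) [Fintype H] (T : Set G) [DecidablePred (· ∈ T)]
    (hT : Subgroup.IsComplement (H : Set G) T) (a : MonoidAlgebra k G) :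
    ∑ h : H, (Rep.leftRegular k G).ρ (h : G)
      (cut T ((Rep.leftRegular k G).ρ ((h : G)⁻¹) a)) = a := by
  classical
  induction a using MonoidAlgebra.induction_linear with
  | zero => simp
  | add x y hx hy =>
    simp only [map_add, Finset.sum_add_distrib, hx, hy]
  | single g r =>
    obtain ⟨h₀, hh₀, huniq⟩ := (Subgroup.isComplement_iff_existsUnique_inv_mul_mem.1 hT) g
    have hterm : ∀ h : H, (Rep.leftRegular k G).ρ (h : G)
        (cut T ((Rep.leftRegular k G).ρ ((h : G)⁻¹) (MonoidAlgebra.single g r)))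
        = if (h : G)⁻¹ * g ∈ T then (MonoidAlgebra.single g r : MonoidAlgebra k G) else 0 := by
      intro h
      rw [leftRegular_ρ_single']
      split_ifs with hmem
      · rw [cut_single_of_mem T hmem, leftRegular_ρ_single', mul_inv_cancel_left]
      · rw [cut_single_of_not_mem T hmem, map_zero]
    rw [Finset.sum_congr rfl fun h _ => hterm h]
    rw [Finset.sum_eq_single (⟨h₀.1, h₀.2⟩ : H)]
    · rw [if_pos hh₀]
    · intro h _ hne
      rw [if_neg]
      intro hmem
      apply hne
      have := huniq ⟨h.1, h.2⟩ hmem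
      exact Subtype.ext (congrArg Subtype.val this)
    · intro hnot
      exact absurd (Finset.mem_univ _) hnot

variable (k) in
/-- `H¹(H, k[G]) = 0` for a finite subgroup `H` -/
theorem isZero_H1_res_leftRegular (H : Subgroup G) [Finite H] :
    Limits.IsZero (H1 (Rep.res H.subtype (Rep.leftRegular k G))) := by
  classical
  have : Fintype H := Fintype.ofFinite H
  obtain ⟨T, hT, -⟩ := Subgroup.exists_isComplement_right H (1 : G)
  exact TraceCrit.isZero_H1 (Rep.res H.subtype (Rep.leftRegular k G)) (cut T)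
    (fun a => trace_cut H T hT a)

variable (k) in
/-- `H²(H, k[G]) = 0` for a finite subgroup `H` -/
theorem isZero_H2_res_leftRegular (H : Subgroup G) [Finite H] :
    Limits.IsZero (H2 (Rep.res H.subtype (Rep.leftRegular k G))) := by
  classical
  have : Fintype H := Fintype.ofFinite H
  obtain ⟨T, hT, -⟩ := Subgroup.exists_isComplement_right H (1 : G)
  exact TraceCrit.isZero_H2 (Rep.res H.subtype (Rep.leftRegular k G)) (cut T)
    (fun a => trace_cut H T hT a)


/-! ### Part B : the augmentation ideal (`k = ℤ`) -/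

section PartB

variable {G : Type} [Group G]

/-- the augmentation sequence restricted to `H` -/
def seqRes (H : Subgroup G) : ShortComplex (Rep ℤ H) :=
  (augSeq G).map (Rep.resFunctor H.subtype)

lemma seqRes_shortExact (H : Subgroup G) : (seqRes H).ShortExact :=
  (Rep.shortExact_res H.subtype).2 (augSeq_shortExact G)

instance isTrivial_res_trivial (H : Subgroup G) :
    (Rep.res H.subtype (Rep.trivial ℤ G ℤ)).IsTrivial where
  out _ := rfl

/-- `Hom(H, ℤ) = 0` for a finite group -/
lemma isZero_H1_of_isTrivial_int {H : Type} [Group H] [Finite H] (A : Rep ℤ H) [A.IsTrivial]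
    (htf : ∀ (n : ℕ) (a : A), n ≠ 0 → n • a = 0 → a = 0) : Limits.IsZero (H1 A) := by
  refine Limits.IsZero.of_iso ?_ (H1IsoOfIsTrivial A)
  rw [ModuleCat.isZero_iff_subsingleton]
  refine ⟨fun f g => ?_⟩
  have hz : ∀ f : Additive H →+ A, f = 0 := by
    intro f
    refine AddMonoidHom.ext fun x => ?_
    apply htf (Nat.card H) _ Nat.card_pos.ne'
    rw [← map_nsmul]
    have : Nat.card H • x = 0 := by
      have := pow_card_eq_one' (G := H) (x := x.toMul)
      apply Additive.toMul.injective
      simp [this]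
    rw [this, map_zero]
  show (f : Additive H →+ A) = g
  rw [hz f, hz g]

/-- `H²(H, I_G) = 0` -/
theorem isZero_H2_aug' [Finite G] (H : Subgroup G) :
    Limits.IsZero (H2 (resSub (augRep G) H)) := by
  have h1 : Limits.IsZero (H1 (Rep.res H.subtype (Rep.trivial ℤ G ℤ))) := by
    apply isZero_H1_of_isTrivial_int
    intro n a hn h
    have h' : (n : ℤ) * a = 0 := by simpa using h
    rcases mul_eq_zero.1 h' with h0 | h0
    · exact absurd (by exact_mod_cast h0) hn
    · exact h0
  have h2 : Limits.IsZero (H2 (seqRes H).X₂) := isZero_H2_res_leftRegular ℤ H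
  exact (mapShortComplex₁_exact (seqRes_shortExact H) (i := 1) (j := 2) rfl).isZero_of_both_zeros
    (h1.eq_of_src _ _) (h2.eq_of_tgt _ _)


/-- the augmentation is invariant under the action -/
lemma augHom_ρ (g : G) (x : MonoidAlgebra ℤ G) :
    (augHom G).hom ((Rep.leftRegular ℤ G).ρ g x) = (augHom G).hom x := by
  rw [Rep.hom_comm_apply]
  rfl

/-- the augmentation of an `H`-invariant element is divisible by `|H|` -/
lemma augHom_of_invariant (H : Subgroup G) [Finite H] (a : MonoidAlgebra ℤ G)
    (ha : ∀ h : H, (Rep.leftRegular ℤ G).ρ (h : G) a = a) :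
    (Nat.card H : ℤ) ∣ (augHom G).hom a := by
  classical
  have : Fintype H := Fintype.ofFinite H
  obtain ⟨T, hT, -⟩ := Subgroup.exists_isComplement_right H (1 : G)
  have h1 := trace_cut (k := ℤ) H T hT a
  have h2 : ∀ h : H, (Rep.leftRegular ℤ G).ρ ((h : G)⁻¹) a = a := by
    intro h
    have := ha h⁻¹
    simpa using this
  refine ⟨(augHom G).hom (cut T a), ?_⟩
  conv_lhs => rw [← h1]
  rw [map_sum]
  rw [Finset.sum_congr rfl fun h _ => by rw [augHom_ρ, h2 h]]
  rw [Finset.sum_const, Finset.card_univ, Nat.card_eq_fintype_card]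
  simp

/-- the element `m · ∑_{h ∈ H} h` -/
def normElt (H : Subgroup G) [Fintype H] (m : ℤ) : MonoidAlgebra ℤ G :=
  ∑ h : H, MonoidAlgebra.single (h : G) m

lemma normElt_invariant (H : Subgroup G) [Fintype H] (m : ℤ) (h : H) :
    (Rep.leftRegular ℤ G).ρ (h : G) (normElt H m) = normElt H m := by
  unfold normElt
  rw [map_sum]
  rw [Finset.sum_congr rfl fun (h' : H) _ => leftRegular_ρ_single' (h : G) (h' : G) m]
  exact Fintype.sum_equiv (Equiv.mulLeft h) _ _ (fun h' => rfl)

lemma augHom_normElt (H : Subgroup G) [Fintype H] (m : ℤ) :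
    (augHom G).hom (normElt H m) = (Nat.card H : ℤ) * m := by
  unfold normElt
  rw [map_sum]
  rw [Finset.sum_congr rfl fun (h' : H) _ => augHom_single G (h' : G) m]
  rw [Finset.sum_const, Finset.card_univ, Nat.card_eq_fintype_card]
  simp


/-- the connecting homomorphism `ℤ = H⁰(H, ℤ) → H¹(H, I_G)` -/
def conn (H : Subgroup G) : ℤ →+ H1 (resSub (augRep G) H) :=
  (δ (seqRes_shortExact H) 0 1 rfl).hom.toAddMonoidHom.comp
    (H0IsoOfIsTrivial (Rep.res H.subtype (Rep.trivial ℤ G ℤ))).inv.hom.toAddMonoidHom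

lemma conn_surjective (H : Subgroup G) [Finite H] : Function.Surjective (conn H) := by
  have hepi : Epi (δ (seqRes_shortExact H) 0 1 rfl) :=
    epi_δ_of_isZero (seqRes_shortExact H) 0 (isZero_H1_res_leftRegular ℤ H)
  have h1 : Function.Surjective (δ (seqRes_shortExact H) 0 1 rfl).hom :=
    (ModuleCat.epi_iff_surjective _).1 hepi
  intro x
  obtain ⟨y, hy⟩ := h1 x
  refine ⟨(H0IsoOfIsTrivial (Rep.res H.subtype (Rep.trivial ℤ G ℤ))).hom.hom y, ?_⟩
  show (δ (seqRes_shortExact H) 0 1 rfl).hom
    ((H0IsoOfIsTrivial (Rep.res H.subtype (Rep.trivial ℤ G ℤ))).inv.hom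
      ((H0IsoOfIsTrivial (Rep.res H.subtype (Rep.trivial ℤ G ℤ))).hom.hom y)) = x
  rw [← hy]
  congr 1
  exact Iso.hom_inv_id_apply _ y


/-- the restricted augmentation -/
abbrev gH (H : Subgroup G) :
    Rep.res H.subtype (Rep.leftRegular ℤ G) ⟶ Rep.res H.subtype (Rep.trivial ℤ G ℤ) :=
  (Rep.resFunctor H.subtype).map (augHom G)

lemma key (H : Subgroup G) (y : H0 (Rep.res H.subtype (Rep.leftRegular ℤ G))) (n : ℤ) :
    (groupCohomology.map (MonoidHom.id H) (gH H) 0).hom y
        = (H0IsoOfIsTrivial (Rep.res H.subtype (Rep.trivial ℤ G ℤ))).inv.hom n ↔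
      (augHom G).hom ((H0Iso (Rep.res H.subtype (Rep.leftRegular ℤ G))).hom.hom y).1 = n := by
  have e : (H0Iso (Rep.res H.subtype (Rep.trivial ℤ G ℤ))).hom.hom
        ((groupCohomology.map (MonoidHom.id H) (gH H) 0).hom y)
      = ((Rep.invariantsFunctor ℤ H).map (gH H)).hom
        ((H0Iso (Rep.res H.subtype (Rep.leftRegular ℤ G))).hom.hom y) :=
    ConcreteCategory.congr_hom (map_id_comp_H0Iso_hom (gH H)) y
  have e1 : ((H0Iso (Rep.res H.subtype (Rep.trivial ℤ G ℤ))).hom.hom
        ((groupCohomology.map (MonoidHom.id H) (gH H) 0).hom y)).1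
      = (augHom G).hom ((H0Iso (Rep.res H.subtype (Rep.leftRegular ℤ G))).hom.hom y).1 := by
    rw [e]
    rfl
  rw [H0IsoOfIsTrivial_inv_apply, ← e1]
  constructor
  · intro h
    rw [h]
    exact congrArg Subtype.val
      (Iso.inv_hom_id_apply (H0Iso (Rep.res H.subtype (Rep.trivial ℤ G ℤ))) _)
  · intro h
    have h' : (H0Iso (Rep.res H.subtype (Rep.trivial ℤ G ℤ))).hom.hom
        ((groupCohomology.map (MonoidHom.id H) (gH H) 0).hom y) = ⟨n, by simp⟩ := Subtype.ext h
    rw [← h']
    exact (Iso.hom_inv_id_apply (H0Iso (Rep.res H.subtype (Rep.trivial ℤ G ℤ))) _).symm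


lemma conn_eq_zero_iff (H : Subgroup G) [Finite H] (n : ℤ) :
    conn H n = 0 ↔ (Nat.card H : ℤ) ∣ n := by
  classical
  have : Fintype H := Fintype.ofFinite H
  have hex := mapShortComplex₃_exact (seqRes_shortExact H) (i := 0) (j := 1) rfl
  constructor
  · intro h
    obtain ⟨y, hy⟩ := (ShortComplex.moduleCat_exact_iff _).1 hex
      ((H0IsoOfIsTrivial (Rep.res H.subtype (Rep.trivial ℤ G ℤ))).inv.hom n) h
    have h3 := (key H y n).1 hy
    rw [← h3]
    apply augHom_of_invariant
    intro h
    exact ((H0Iso (Rep.res H.subtype (Rep.leftRegular ℤ G))).hom.hom y).2 h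
  · rintro ⟨m, rfl⟩
    let a : (Rep.res H.subtype (Rep.leftRegular ℤ G)).ρ.invariants :=
      ⟨normElt H m, fun h => normElt_invariant H m h⟩
    let y := (H0Iso (Rep.res H.subtype (Rep.leftRegular ℤ G))).inv.hom a
    have hy := (key H y (Nat.card H * m)).2 (by
      rw [Iso.inv_hom_id_apply (H0Iso (Rep.res H.subtype (Rep.leftRegular ℤ G)))]
      exact augHom_normElt H m)
    show (δ (seqRes_shortExact H) 0 1 rfl).hom
      ((H0IsoOfIsTrivial (Rep.res H.subtype (Rep.trivial ℤ G ℤ))).inv.hom (Nat.card H * m)) = 0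
    rw [← hy]
    exact (mapShortComplex₃ (seqRes_shortExact H) (i := 0) (j := 1) rfl).moduleCat_zero_apply y

end PartB

end Aug

open Limits

variable {G : Type} [Group G]

open Aug in
/-- `H¹(H, I_G)` has `|H|` elements (it is `ℤ/|H|`, generated by the image of `1 ∈ ℤ = H⁰(H, ℤ)`
under the connecting map). -/
theorem card_H1_aug [Finite G] (H : Subgroup G) :
    Nat.card (H1 (resSub (augRep G) H)) = Nat.card H := by
  have hker : (conn H).ker = AddSubgroup.zmultiples (Nat.card H : ℤ) := by
    ext n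
    rw [AddMonoidHom.mem_ker, conn_eq_zero_iff, Int.mem_zmultiples_iff]
  have e := QuotientAddGroup.quotientKerEquivOfSurjective (conn H) (conn_surjective H)
  rw [← Nat.card_congr e.toEquiv, hker]
  have h := Int.index_zmultiples (Nat.card H : ℤ)
  rw [AddSubgroup.index] at h
  rw [h]
  simp

/-- `H²(H, I_G) = 0`. -/
theorem isZero_H2_aug [Finite G] (H : Subgroup G) : IsZero (H2 (resSub (augRep G) H)) :=
  Aug.isZero_H2_aug' H

end

end Fermat.Agent.GC.Tate
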