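/-
GATE-C / C2 leaf L5 PERIODIC (helper21), abstract core.  Mathlib only.

Two short exact sequences `0 → A → T → B → 0`, `0 → B → T → A → 0` of `G`-modules with
`Hᵐ⁺¹(G, T) = 0` for all `m` give `Hᵐ(G, A) ≅ Hᵐ⁺²(G, A)` for `m ≥ 1`; in vanishing form:
vanishing of `H^(q+1)(G, A)` and `H^(q+2)(G, A)` for one `q` implies vanishing in all positive degrees.
-/
import Mathlib

set_option autoImplicit false

namespace Fermat.Agent.GC.Tate.Periodic

open CategoryTheory CategoryTheory.Limits groupCohomology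

universe u

variable {k G : Type u} [CommRing k] [Group G]

/-- connecting isomorphism in vanishing form -/
theorem isZero_X₃_iff_isZero_X₁_succ {X : ShortComplex (Rep k G)} (hX : X.ShortExact) (n : ℕ)
    (h : IsZero (groupCohomology X.X₂ n)) (hs : IsZero (groupCohomology X.X₂ (n + 1))) :
    IsZero (groupCohomology X.X₃ n) ↔ IsZero (groupCohomology X.X₁ (n + 1)) := by
  haveI := isIso_δ_of_isZero hX n h hs
  exact (asIso (δ hX n (n + 1) rfl)).isZero_iff

/-- **Abstract periodicity.** -/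
theorem isZero_of_two_shortExact {X Y : ShortComplex (Rep k G)} (hX : X.ShortExact)
    (hY : Y.ShortExact) (e₁ : X.X₂ ≅ Y.X₂) (e₂ : X.X₃ ≅ Y.X₁) (e₃ : Y.X₃ ≅ X.X₁)
    (hT : ∀ m : ℕ, IsZero (groupCohomology X.X₂ (m + 1))) (q : ℕ)
    (h1 : IsZero (groupCohomology X.X₁ (q + 1))) (h2 : IsZero (groupCohomology X.X₁ (q + 2))) :
    ∀ m : ℕ, IsZero (groupCohomology X.X₁ (m + 1)) := by
  have hT' : ∀ m : ℕ, IsZero (groupCohomology Y.X₂ (m + 1)) := fun m =>
    (hT m).of_iso ((functor k G (m + 1)).mapIso e₁.symm)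
  -- `Z_A (n+1) ↔ Z_A (n+3)`
  have key : ∀ n : ℕ, IsZero (groupCohomology X.X₁ (n + 1)) ↔
      IsZero (groupCohomology X.X₁ (n + 3)) := by
    intro n
    have a1 : IsZero (groupCohomology Y.X₃ (n + 1)) ↔ IsZero (groupCohomology Y.X₁ (n + 2)) :=
      isZero_X₃_iff_isZero_X₁_succ hY (n + 1) (hT' n) (hT' (n + 1))
    have a2 : IsZero (groupCohomology X.X₃ (n + 2)) ↔ IsZero (groupCohomology X.X₁ (n + 3)) :=
      isZero_X₃_iff_isZero_X₁_succ hX (n + 2) (hT (n + 1)) (hT (n + 2))
    have b1 : IsZero (groupCohomology Y.X₃ (n + 1)) ↔ IsZero (groupCohomology X.X₁ (n + 1)) :=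
      ((functor k G (n + 1)).mapIso e₃).isZero_iff
    have b2 : IsZero (groupCohomology X.X₃ (n + 2)) ↔ IsZero (groupCohomology Y.X₁ (n + 2)) :=
      ((functor k G (n + 2)).mapIso e₂).isZero_iff
    rw [← b1, a1, ← b2, a2]
  -- pairs
  have pair : ∀ n : ℕ, IsZero (groupCohomology X.X₁ (n + 1)) ∧
      IsZero (groupCohomology X.X₁ (n + 2)) := by
    have up : ∀ n : ℕ, (IsZero (groupCohomology X.X₁ (n + 1)) ∧
        IsZero (groupCohomology X.X₁ (n + 2))) →
        (IsZero (groupCohomology X.X₁ (n + 1 + 1)) ∧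
        IsZero (groupCohomology X.X₁ (n + 1 + 2))) :=
      fun n h => ⟨h.2, (key n).mp h.1⟩
    have down : ∀ n : ℕ, (IsZero (groupCohomology X.X₁ (n + 1 + 1)) ∧
        IsZero (groupCohomology X.X₁ (n + 1 + 2))) →
        (IsZero (groupCohomology X.X₁ (n + 1)) ∧
        IsZero (groupCohomology X.X₁ (n + 2))) :=
      fun n h => ⟨(key n).mpr h.2, h.1⟩
    have hq : IsZero (groupCohomology X.X₁ (q + 1)) ∧ IsZero (groupCohomology X.X₁ (q + 2)) :=
      ⟨h1, h2⟩
    -- go down to 0, then up to n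
    have h0 : IsZero (groupCohomology X.X₁ (0 + 1)) ∧ IsZero (groupCohomology X.X₁ (0 + 2)) := by
      clear h1 h2
      induction q with
      | zero => exact hq
      | succ q ih => exact ih (down q hq)
    intro n
    induction n with
    | zero => exact h0
    | succ n ih => exact up n ih
  exact fun m => (pair m).1

end Fermat.Agent.GC.Tate.Periodic
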