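/-
GATE-C / C2 leaf L5 PERIODIC (helper21).
`H ⊴ G` with `G ⧸ H` cyclic, `A` a `G`-module with `Hᵐ⁺¹(H, A) = 0` for all `m`:
vanishing of `H^(q+1)(G, A)` and `H^(q+2)(G, A)` implies vanishing in all positive degrees.
Route: `T := Coind_H^G Res A`, `Φ_s f (g) = s • f (s⁻¹ g)`, exact sequence
`0 → A → T --(Φ_s − 1)--> T --trace--> A → 0`, Shapiro, abstract periodicity (`PeriodicCore`).
-/
import Fermat.Agent.GC.Tate.PeriodicCore
import Fermat.Agent.GC.Tate.Cor
import Fermat.Agent.GC.Tate.Defs

set_option autoImplicit false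
set_option linter.unusedSectionVars false

namespace Fermat.Agent.GC.Tate.Periodic

open CategoryTheory CategoryTheory.Limits groupCohomology Rep

universe u

variable {k G : Type u} [CommRing k] [Group G] (S : Subgroup G) [S.Normal] (A : Rep.{u} k G)
  (s : G)

/-! ### the shift `Φ_s` on `Coind_S^G Res_S A` -/

/-- `Φ_s f (g) = s • f (s⁻¹ g)` as a function -/
def shiftFun (f : coind S.subtype (res S.subtype A)) : coind S.subtype (res S.subtype A) :=
  ⟨fun g => A.ρ s (f.1 (s⁻¹ * g)), by
    intro h g
    have hn : s⁻¹ * (h : G) * s ∈ S := by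
      have := ‹S.Normal›.conj_mem (h : G) h.2 s⁻¹
      simpa using this
    have h2 := f.2 ⟨s⁻¹ * (h : G) * s, hn⟩ (s⁻¹ * g)
    have h2' : f.1 (s⁻¹ * (h : G) * s * (s⁻¹ * g)) = A.ρ (s⁻¹ * (h : G) * s) (f.1 (s⁻¹ * g)) := by
      simpa using h2
    have e1 : s⁻¹ * ((h : G) * g) = s⁻¹ * (h : G) * s * (s⁻¹ * g) := by group
    show A.ρ s (f.1 (s⁻¹ * (S.subtype h * g))) = A.ρ (h : G) (A.ρ s (f.1 (s⁻¹ * g)))
    rw [Subgroup.coe_subtype, e1, h2']
    simp only [← Module.End.mul_apply, ← map_mul]
    congr 2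
    group⟩

@[simp]
lemma shiftFun_apply (f : coind S.subtype (res S.subtype A)) (g : G) :
    (shiftFun S A s f).1 g = A.ρ s (f.1 (s⁻¹ * g)) := rfl

/-- the `k`-linear shift -/
def shiftLin : coind S.subtype (res S.subtype A) →ₗ[k] coind S.subtype (res S.subtype A) where
  toFun := shiftFun S A s
  map_add' f g := by
    apply Subtype.ext
    funext x
    simp [shiftFun]
  map_smul' c f := by
    apply Subtype.ext
    funext x
    simp [shiftFun]

lemma shiftLin_apply (f : coind S.subtype (res S.subtype A)) (g : G) :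
    (shiftLin S A s f).1 g = A.ρ s (f.1 (s⁻¹ * g)) := rfl

/-- the shift as a morphism of representations -/
noncomputable def shift : coind S.subtype (res S.subtype A) ⟶ coind S.subtype (res S.subtype A) :=
  Rep.ofHom ⟨shiftLin S A s, fun h => by
    ext f x
    show A.ρ s ((((coind S.subtype (res S.subtype A)).ρ h) f).1 (s⁻¹ * x))
      = (((coind S.subtype (res S.subtype A)).ρ h) (shiftLin S A s f)).1 x
    have e1 : ∀ (f' : coind S.subtype (res S.subtype A)) (y : G),
        (((coind S.subtype (res S.subtype A)).ρ h) f').1 y = f'.1 (y * h) := fun _ _ => rfl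
    rw [e1, e1, shiftLin_apply, mul_assoc]⟩

lemma shift_hom_apply (f : coind S.subtype (res S.subtype A)) (g : G) :
    ((shift S A s).hom f).1 g = A.ρ s (f.1 (s⁻¹ * g)) := rfl

lemma twistFun_shift (f : coind S.subtype (res S.subtype A)) (g : G) :
    twistFun S A ((shift S A s).hom f) g = twistFun S A f (g * s) := by
  unfold twistFun
  rw [shift_hom_apply]
  simp only [← Module.End.mul_apply, ← map_mul, mul_inv_rev]

/-! ### a telescoping lemma on finite cyclic groups -/

theorem exists_telescope {Q M : Type*} [Group Q] [Fintype Q] [AddCommGroup M] (σ : Q)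
    (hσ : ∀ c : Q, c ∈ Subgroup.zpowers σ) (E : Q → M) (hE : ∑ c, E c = 0) :
    ∃ D : Q → M, ∀ c, D (c * σ) - D c = E c := by
  classical
  have hfin : IsOfFinOrder σ := isOfFinOrder_of_finite σ
  have hnpos : 0 < orderOf σ := hfin.orderOf_pos
  have hex : ∀ c : Q, ∃ i : ℕ, i < orderOf σ ∧ σ ^ i = c := by
    intro c
    have := (hfin.mem_zpowers_iff_mem_range_orderOf).mp (hσ c)
    obtain ⟨i, hi, hic⟩ := Finset.mem_image.mp this
    exact ⟨i, Finset.mem_range.mp hi, hic⟩
  choose kf hkf_lt hkf_pow using hex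
  have huniq : ∀ (c : Q) (i : ℕ), i < orderOf σ → σ ^ i = c → kf c = i := by
    intro c i hi hic
    exact pow_injOn_Iio_orderOf (hkf_lt c) hi ((hkf_pow c).trans hic.symm)
  have htotal : ∑ j ∈ Finset.range (orderOf σ), E (σ ^ j) = 0 := by
    rw [← hE]
    refine Finset.sum_bij (fun j _ => σ ^ j) (fun _ _ => Finset.mem_univ _) ?_ ?_ (fun _ _ => rfl)
    · intro a ha b hb hab
      exact pow_injOn_Iio_orderOf (Finset.mem_range.mp ha) (Finset.mem_range.mp hb) hab
    · intro c _
      exact ⟨kf c, Finset.mem_range.mpr (hkf_lt c), hkf_pow c⟩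
  refine ⟨fun c => ∑ j ∈ Finset.range (kf c), E (σ ^ j), fun c => ?_⟩
  show ∑ j ∈ Finset.range (kf (c * σ)), E (σ ^ j) - ∑ j ∈ Finset.range (kf c), E (σ ^ j) = E c
  have hc : σ ^ (kf c + 1) = c * σ := by rw [pow_succ, hkf_pow]
  rcases Nat.lt_or_ge (kf c + 1) (orderOf σ) with hlt | hge
  · rw [huniq (c * σ) (kf c + 1) hlt hc, Finset.sum_range_succ, hkf_pow]
    abel
  · have heq : kf c + 1 = orderOf σ := le_antisymm (hkf_lt c) hge
    have h1 : c * σ = 1 := by rw [← hc, heq, pow_orderOf_eq_one]
    have h0 : kf (c * σ) = 0 := huniq (c * σ) 0 hnpos (by rw [pow_zero, h1])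
    rw [h0, Finset.sum_range_zero]
    have h2 := htotal
    rw [← heq, Finset.sum_range_succ, hkf_pow] at h2
    rw [zero_sub, neg_eq_iff_add_eq_zero]
    exact h2

/-! ### elements of `Coind` from functions on `G ⧸ S` -/

/-- the element of `Coind_S^G Res_S A` with twist function `E ∘ mk` -/
def ofQuot (E : G ⧸ S → A) : coind S.subtype (res S.subtype A) :=
  ⟨fun g => A.ρ g (E (QuotientGroup.mk g⁻¹)), by
    intro h g
    show A.ρ (S.subtype h * g) (E (QuotientGroup.mk (S.subtype h * g)⁻¹))
      = A.ρ (h : G) (A.ρ g (E (QuotientGroup.mk g⁻¹)))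
    have e1 : (QuotientGroup.mk (S.subtype h * g)⁻¹ : G ⧸ S) = QuotientGroup.mk g⁻¹ := by
      rw [QuotientGroup.eq]
      simp
    rw [e1, Subgroup.coe_subtype, map_mul]
    rfl⟩

lemma twistFun_ofQuot (E : G ⧸ S → A) (g : G) :
    twistFun S A (ofQuot S A E) g = E (QuotientGroup.mk g) := by
  unfold twistFun ofQuot
  simp only [inv_inv, ← Module.End.mul_apply, ← map_mul, mul_inv_cancel, map_one,
    Module.End.one_apply]

lemma eq_of_twistFun_eq {f f' : coind S.subtype (res S.subtype A)}
    (h : ∀ g, twistFun S A f g = twistFun S A f' g) : f = f' := by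
  apply Subtype.ext
  funext g
  have := h g⁻¹
  unfold twistFun at this
  rw [inv_inv] at this
  have h2 := congrArg (A.ρ g) this
  simpa [← Module.End.mul_apply, ← map_mul] using h2

lemma twistFun_sub (f f' : coind S.subtype (res S.subtype A)) (g : G) :
    twistFun S A (f - f') g = twistFun S A f g - twistFun S A f' g := by
  simp [twistFun]

lemma twistFun_eq_out (f : coind S.subtype (res S.subtype A)) (g : G) :
    twistFun S A f g = twistFun S A f (QuotientGroup.mk g : G ⧸ S).out :=
  (twistFun_out S A f g).symm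

/-! ### the four exactness facts -/

lemma coindUnit_injective : Function.Injective (coindUnit S A).hom := by
  intro a b hab
  have h1 : ((coindUnit S A).hom a).1 1 = ((coindUnit S A).hom b).1 1 := by rw [hab]
  rw [coindUnit_hom_apply, coindUnit_hom_apply, map_one] at h1
  exact h1

/-- `S` and `s` generate `G` in the form `x = s ^ k * h` -/
def Generates : Prop := ∀ x : G, ∃ k : ℤ, ∃ h ∈ S, x = s ^ k * h

lemma generates_of_zpowers (hs : ∀ c : G ⧸ S, c ∈ Subgroup.zpowers (QuotientGroup.mk s : G ⧸ S)) :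
    Generates S s := by
  intro x
  obtain ⟨k, hk⟩ := Subgroup.mem_zpowers_iff.mp (hs (QuotientGroup.mk x))
  have hk' : (QuotientGroup.mk (s ^ k) : G ⧸ S) = QuotientGroup.mk x := by
    rw [← hk]; rfl
  rw [QuotientGroup.eq] at hk'
  exact ⟨k, (s ^ k)⁻¹ * x, hk', by group⟩

/-- the subgroup of `x` with `f (x g) = x • f g` -/
def equivariantSubgroup (f : coind S.subtype (res S.subtype A)) : Subgroup G where
  carrier := {x | ∀ g, f.1 (x * g) = A.ρ x (f.1 g)}
  one_mem' := by intro g; simp
  mul_mem' := by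
    intro x y hx hy g
    rw [mul_assoc, hx, hy, map_mul]
    rfl
  inv_mem' := by
    intro x hx g
    have h1 := hx (x⁻¹ * g)
    rw [mul_inv_cancel_left] at h1
    rw [h1]
    simp [← Module.End.mul_apply, ← map_mul]

lemma eq_coindUnit_of_shift_eq (hgen : Generates S s) (f : coind S.subtype (res S.subtype A))
    (hf : (shift S A s).hom f = f) : f = (coindUnit S A).hom (f.1 1) := by
  have hS : S ≤ equivariantSubgroup S A f := by
    intro h hh g
    have := f.2 ⟨h, hh⟩ g
    simpa using this
  have hs : s ∈ equivariantSubgroup S A f := by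
    intro g
    have h1 : ((shift S A s).hom f).1 (s * g) = f.1 (s * g) := by rw [hf]
    rw [shift_hom_apply, inv_mul_cancel_left] at h1
    exact h1.symm
  apply Subtype.ext
  funext x
  obtain ⟨k, h, hh, rfl⟩ := hgen x
  have hx : s ^ k * h ∈ equivariantSubgroup S A f :=
    mul_mem (zpow_mem hs k) (hS hh)
  have := hx 1
  rw [mul_one] at this
  rw [this]
  rfl

section FiniteIndex

variable [S.FiniteIndex]

attribute [local instance] Subgroup.fintypeQuotientOfFiniteIndex

lemma coindTrace_shift (f : coind S.subtype (res S.subtype A)) :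
    (coindTrace S A).hom ((shift S A s).hom f) = (coindTrace S A).hom f := by
  rw [coindTrace_hom_apply, coindTrace_hom_apply]
  rw [← Equiv.sum_comp (Equiv.mulRight (QuotientGroup.mk s : G ⧸ S))
    (fun q => twistFun S A f q.out)]
  refine Finset.sum_congr rfl fun q _ => ?_
  rw [twistFun_shift, twistFun_eq_out]
  congr 2
  show (QuotientGroup.mk (q.out * s) : G ⧸ S) = q * QuotientGroup.mk s
  rw [QuotientGroup.mk_mul, QuotientGroup.out_eq']

lemma coindTrace_ofQuot (E : G ⧸ S → A) :
    (coindTrace S A).hom (ofQuot S A E) = ∑ q : G ⧸ S, E q := by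
  rw [coindTrace_hom_apply]
  refine Finset.sum_congr rfl fun q _ => ?_
  rw [twistFun_ofQuot, QuotientGroup.out_eq']

lemma coindTrace_surjective : Function.Surjective (coindTrace S A).hom := by
  classical
  intro a
  refine ⟨ofQuot S A (Pi.single 1 a), ?_⟩
  rw [coindTrace_ofQuot, Finset.sum_pi_single']
  simp

lemma exists_shift_sub_eq (hs : ∀ c : G ⧸ S, c ∈ Subgroup.zpowers (QuotientGroup.mk s : G ⧸ S))
    (f : coind S.subtype (res S.subtype A)) (hf : (coindTrace S A).hom f = 0) :
    ∃ e : coind S.subtype (res S.subtype A), (shift S A s).hom e - e = f := by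
  rw [coindTrace_hom_apply] at hf
  obtain ⟨D, hD⟩ := exists_telescope (QuotientGroup.mk s : G ⧸ S) hs
    (fun q => twistFun S A f q.out) hf
  refine ⟨ofQuot S A D, eq_of_twistFun_eq S A fun g => ?_⟩
  rw [twistFun_sub, twistFun_shift, twistFun_ofQuot, twistFun_ofQuot, QuotientGroup.mk_mul, hD,
    ← twistFun_eq_out]

/-! ### the two short exact sequences -/

/-- `Φ_s − 1` -/
noncomputable def phi : coind S.subtype (res S.subtype A) ⟶ coind S.subtype (res S.subtype A) :=
  shift S A s - 𝟙 _

lemma phi_hom_apply (f : coind S.subtype (res S.subtype A)) :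
    (phi S A s).hom f = (shift S A s).hom f - f := rfl

lemma coindUnit_comp_phi : coindUnit S A ≫ phi S A s = 0 := by
  ext a : 3
  show (phi S A s).hom ((coindUnit S A).hom a) = 0
  rw [phi_hom_apply, sub_eq_zero]
  apply Subtype.ext
  funext g
  rw [shift_hom_apply, coindUnit_hom_apply, coindUnit_hom_apply, ← Module.End.mul_apply,
    ← map_mul, mul_inv_cancel_left]

lemma phi_comp_coindTrace : phi S A s ≫ coindTrace S A = 0 := by
  ext f
  show (coindTrace S A).hom ((phi S A s).hom f) = 0
  rw [phi_hom_apply, map_sub, coindTrace_shift, sub_self]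

/-- `Φ_s − 1` as a map into the kernel of the trace -/
noncomputable def phiLift : coind S.subtype (res S.subtype A) ⟶ kernel (coindTrace S A) :=
  kernel.lift _ (phi S A s) (phi_comp_coindTrace S A s)

lemma phiLift_ι : phiLift S A s ≫ kernel.ι (coindTrace S A) = phi S A s :=
  kernel.lift_ι _ _ _

lemma ι_phiLift_apply (f : coind S.subtype (res S.subtype A)) :
    (kernel.ι (coindTrace S A)).hom ((phiLift S A s).hom f) = (phi S A s).hom f := by
  rw [← phiLift_ι S A s]
  rfl

lemma kernel_ι_injective : Function.Injective (kernel.ι (coindTrace S A)).hom :=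
  (Rep.mono_iff_injective _).1 inferInstance

lemma coindTrace_kernel_ι_apply (x : (kernel (coindTrace S A) : Rep.{u} k G)) :
    (coindTrace S A).hom ((kernel.ι (coindTrace S A)).hom x) = 0 := by
  have h := kernel.condition (coindTrace S A)
  have h2 : (kernel.ι (coindTrace S A) ≫ coindTrace S A).hom x = 0 := by rw [h]; rfl
  exact h2

/-- `0 → A → T → ker(trace) → 0` -/
noncomputable def seqOne : ShortComplex (Rep.{u} k G) :=
  ShortComplex.mk (coindUnit S A) (phiLift S A s) (by
    rw [← cancel_mono (kernel.ι (coindTrace S A)), Category.assoc, phiLift_ι, zero_comp,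
      coindUnit_comp_phi])

/-- `0 → ker(trace) → T → A → 0` -/
noncomputable def seqTwo : ShortComplex (Rep.{u} k G) :=
  ShortComplex.mk (kernel.ι (coindTrace S A)) (coindTrace S A) (kernel.condition _)

lemma seqTwo_shortExact : (seqTwo S A).ShortExact where
  exact := ShortComplex.exact_of_f_is_kernel _ (kernelIsKernel _)
  mono_f := by dsimp [seqTwo]; infer_instance
  epi_g := (Rep.epi_iff_surjective _).2 (coindTrace_surjective S A)

lemma phiLift_surjective
    (hs : ∀ c : G ⧸ S, c ∈ Subgroup.zpowers (QuotientGroup.mk s : G ⧸ S)) :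
    Function.Surjective (phiLift S A s).hom := by
  intro x
  obtain ⟨e, he⟩ := exists_shift_sub_eq S A s hs ((kernel.ι (coindTrace S A)).hom x)
    (coindTrace_kernel_ι_apply S A x)
  refine ⟨e, kernel_ι_injective S A ?_⟩
  rw [ι_phiLift_apply, phi_hom_apply, he]

lemma exists_of_phiLift_eq_zero
    (hs : ∀ c : G ⧸ S, c ∈ Subgroup.zpowers (QuotientGroup.mk s : G ⧸ S))
    (x : coind S.subtype (res S.subtype A)) (hx : (phiLift S A s).hom x = 0) :
    ∃ a : A, (coindUnit S A).hom a = x := by
  have h1 : (phi S A s).hom x = 0 := by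
    rw [← ι_phiLift_apply, hx, map_zero]
  rw [phi_hom_apply, sub_eq_zero] at h1
  exact ⟨x.1 1, (eq_coindUnit_of_shift_eq S A s (generates_of_zpowers S s hs) x h1).symm⟩

lemma seqOne_shortExact
    (hs : ∀ c : G ⧸ S, c ∈ Subgroup.zpowers (QuotientGroup.mk s : G ⧸ S)) :
    (seqOne S A s).ShortExact :=
  shortExact_of_concrete (seqOne S A s) (coindUnit_injective S A) (phiLift_surjective S A s hs)
    (exists_of_phiLift_eq_zero S A s hs)

/-- periodicity: general coefficient ring, generator of `G ⧸ S` given explicitly -/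
theorem isZero_of_generator
    (hs : ∀ c : G ⧸ S, c ∈ Subgroup.zpowers (QuotientGroup.mk s : G ⧸ S))
    (hH : ∀ m : ℕ, IsZero (groupCohomology (res S.subtype A) (m + 1))) (q : ℕ)
    (h1 : IsZero (groupCohomology A (q + 1))) (h2 : IsZero (groupCohomology A (q + 2))) :
    ∀ m : ℕ, IsZero (groupCohomology A (m + 1)) := by
  classical
  exact isZero_of_two_shortExact (X := seqOne S A s) (Y := seqTwo S A)
    (seqOne_shortExact S A s hs) (seqTwo_shortExact S A) (Iso.refl _) (Iso.refl _) (Iso.refl _)
    (fun m => (hH m).of_iso (groupCohomology.coindIso (res S.subtype A) (m + 1))) q h1 h2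

end FiniteIndex

end Fermat.Agent.GC.Tate.Periodic

namespace Fermat.Agent.GC.Tate

open CategoryTheory CategoryTheory.Limits groupCohomology

/-- **L5 PERIODIC.** `H ⊴ G` with `G ⧸ H` cyclic, `A` a `G`-module whose restriction to `H` is
cohomologically trivial in positive degrees: vanishing in two consecutive positive degrees implies
vanishing in all positive degrees. -/
theorem isZero_of_cyclic_quotient {G : Type} [Group G] [Finite G] (H : Subgroup G) [H.Normal]
    [IsCyclic (G ⧸ H)] (A : Rep ℤ G)
    (hH : ∀ m : ℕ, IsZero (groupCohomology (Rep.res H.subtype A) (m + 1))) (q : ℕ)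
    (h1 : IsZero (groupCohomology A (q + 1))) (h2 : IsZero (groupCohomology A (q + 2))) :
    ∀ m : ℕ, IsZero (groupCohomology A (m + 1)) := by
  obtain ⟨σ, hσ⟩ := IsCyclic.exists_generator (α := G ⧸ H)
  obtain ⟨s, rfl⟩ := QuotientGroup.mk_surjective σ
  exact Periodic.isZero_of_generator H A s hσ hH q h1 h2

end Fermat.Agent.GC.Tate
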