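/-
GATE-C / C2 leaf L7 (helper80): the splitting module, abstract core.  Mathlib only.

Given `G`-modules `C`, `I`, a `2`-cocycle `u` of `C`, a `1`-cocycle `s : G → I` and linear maps
`φ σ : I → C` (`σ ∈ G`) with
  `φ (σ τ) x = σ (φ τ x) + φ σ (τ x)`,  `φ 1 = 0`,  `φ σ (s τ) = u (σ, τ) - u (σ, 1)`,
the twisted product `X = C × I`, `σ (c, x) = (σ c + φ σ x, σ x)`, is a `G`-module sitting in a short
exact sequence `0 → C → X → I → 0`, and the image of `[u]` in `H²(G, X)` vanishes.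
(For `I = I_G`, `s σ = σ - 1`, `φ σ (τ) = u (σ, τ)` this is the classical splitting module.)
-/
import Mathlib

set_option autoImplicit false

open CategoryTheory groupCohomology

namespace Fermat.Agent.GC.Tate.Splitting

variable {k G : Type} [CommRing k] [Group G]

/-- The data defining a splitting module. -/
structure Datum (C I : Rep.{0} k G) where
  /-- the `2`-cocycle -/
  u : cocycles₂ C
  /-- the `1`-cocycle `σ ↦ σ - 1` -/
  s : G → I
  hs : ∀ σ τ : G, s (σ * τ) = I.ρ σ (s τ) + s σ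
  /-- the twisting maps -/
  φ : G → (I →ₗ[k] C)
  hφ_mul : ∀ (σ τ : G) (x : I), φ (σ * τ) x = C.ρ σ (φ τ x) + φ σ (I.ρ τ x)
  hφ_one : φ 1 = 0
  hφ_s : ∀ σ τ : G, φ σ (s τ) = u (σ, τ) - u (σ, 1)

namespace Datum

variable {C I : Rep.{0} k G} (D : Datum C I)

/-- the twisted action on `C × I` -/
def rhoFun (σ : G) : (C × I) →ₗ[k] (C × I) :=
  LinearMap.prod (LinearMap.coprod (C.ρ σ) (D.φ σ)) ((I.ρ σ).comp (LinearMap.snd k C I))

@[simp]
theorem rhoFun_apply (σ : G) (c : C) (x : I) :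
    D.rhoFun σ (c, x) = (C.ρ σ c + D.φ σ x, I.ρ σ x) := rfl

/-- the twisted representation on `C × I` -/
def rho : Representation k G (C × I) where
  toFun := D.rhoFun
  map_one' := by
    apply LinearMap.ext
    rintro ⟨c, x⟩
    simp [D.hφ_one]
  map_mul' σ τ := by
    apply LinearMap.ext
    rintro ⟨c, x⟩
    simp only [rhoFun_apply, Module.End.mul_apply, map_mul, map_add, D.hφ_mul σ τ x]
    rw [add_assoc]

@[simp]
theorem rho_apply (σ : G) (c : C) (x : I) :
    D.rho σ (c, x) = (C.ρ σ c + D.φ σ x, I.ρ σ x) := rfl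

/-- the splitting module -/
noncomputable abbrev X : Rep.{0} k G := Rep.of D.rho

/-- the inclusion `C ⟶ X` -/
noncomputable def incl : C ⟶ D.X :=
  Rep.ofHom (ρ := C.ρ) (σ := D.rho) ⟨LinearMap.inl k C I, fun σ => by
    apply LinearMap.ext
    intro c
    simp⟩

/-- the projection `X ⟶ I` -/
noncomputable def proj : D.X ⟶ I :=
  Rep.ofHom (ρ := D.rho) (σ := I.ρ) ⟨LinearMap.snd k C I, fun σ => by
    apply LinearMap.ext
    rintro ⟨c, x⟩
    simp⟩

@[simp]
theorem incl_hom_apply (c : C) : D.incl.hom c = ((c, 0) : C × I) := rfl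

@[simp]
theorem proj_hom_apply (y : C × I) : D.proj.hom (y : D.X) = y.2 := rfl

theorem X_ρ_apply (σ : G) (c : C) (x : I) :
    D.X.ρ σ ((c, x) : C × I) = ((C.ρ σ c + D.φ σ x, I.ρ σ x) : C × I) := rfl

theorem incl_comp_proj : D.incl ≫ D.proj = 0 := by
  ext c
  rfl

theorem incl_injective : Function.Injective D.incl.hom := by
  intro c c' h
  have h' : ((c, 0) : C × I) = ((c', 0) : C × I) := h
  exact congrArg Prod.fst h'

theorem proj_surjective : Function.Surjective D.proj.hom := by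
  intro x
  exact ⟨((0, x) : C × I), rfl⟩

/-- the short exact sequence `0 → C → X → I → 0` -/
theorem shortExact : (ShortComplex.mk D.incl D.proj D.incl_comp_proj).ShortExact := by
  refine { exact := ?_, mono_f := (Rep.mono_iff_injective _).2 D.incl_injective,
           epi_g := (Rep.epi_iff_surjective _).2 D.proj_surjective }
  rw [← ShortComplex.exact_map_iff_of_faithful _ (forget₂ (Rep k G) (ModuleCat k))]
  rw [ShortComplex.moduleCat_exact_iff]
  intro y hy
  obtain ⟨c, x⟩ : C × I := y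
  have hx : x = 0 := hy
  exact ⟨c, by subst hx; rfl⟩

/-- the `1`-cochain whose coboundary is the image of `u` -/
def cochain (σ : G) : D.X := ((D.u (1, 1), D.s σ) : C × I)

theorem d₁₂_cochain (σ τ : G) :
    (d₁₂ D.X).hom D.cochain (σ, τ) = ((D.u (σ, τ), 0) : C × I) := by
  rw [d₁₂_hom_apply]
  show (D.X.ρ σ ((D.u (1, 1), D.s τ) : C × I) : C × I) - ((D.u (1, 1), D.s (σ * τ)) : C × I)
    + ((D.u (1, 1), D.s σ) : C × I) = _
  rw [X_ρ_apply, D.hφ_s, D.hs, cocycles₂_map_one_snd D.u σ]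
  ext
  · show (C.ρ σ) (D.u (1, 1)) + (D.u (σ, τ) - (C.ρ σ) (D.u (1, 1))) - D.u (1, 1) + D.u (1, 1)
      = D.u (σ, τ)
    abel
  · show (I.ρ σ) (D.s τ) - ((I.ρ σ) (D.s τ) + D.s σ) + D.s σ = 0
    abel

/-- the image of `[u]` in `H²(G, X)` vanishes -/
theorem map_incl_H2π :
    (groupCohomology.map (MonoidHom.id G) D.incl 2).hom (H2π C D.u) = 0 := by
  have h := H2π_comp_map_apply (MonoidHom.id G) D.incl D.u
  rw [h, H2π_eq_zero_iff]
  refine ⟨D.cochain, ?_⟩
  funext ⟨σ, τ⟩
  rw [d₁₂_cochain]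
  rfl

end Datum

end Fermat.Agent.GC.Tate.Splitting
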