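/-
GATE-C / C2 leaf L7 SPLITTING (helper80): the splitting module of a class `u ∈ H²(G, C)`.

`exists_splitting` : there is a short exact sequence `0 → C → X → I_G → 0` of `G`-modules such that
the image of `u` in `H²(G, X)` vanishes (statement verbatim from board 1452).

Everything is first done over a general commutative ring `k` (to avoid the `ℤ`-module instance
diamond) and instantiated at `k = ℤ` at the very end.
-/
import Fermat.Agent.GC.Tate.Defs
import Fermat.Agent.GC.Tate.SplittingCore

set_option autoImplicit false

open CategoryTheory groupCohomology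

namespace Fermat.Agent.GC.Tate

noncomputable section

namespace Splitting

variable {k G : Type} [CommRing k] [Group G]

variable (k G) in
/-- the augmentation `k[G] ⟶ k` -/
def augHomK : Rep.leftRegular k G ⟶ Rep.trivial k G k :=
  Rep.leftRegularHom (Rep.trivial k G k) (1 : k)

theorem augHomK_single (g : G) (r : k) :
    (augHomK k G).hom (MonoidAlgebra.single g r : MonoidAlgebra k G) = r := by
  simp [augHomK]

variable (k G) in
/-- the augmentation ideal as a submodule of `k[G]` -/
def augSubmoduleK : Submodule k (Rep.leftRegular k G) :=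
  LinearMap.ker (augHomK k G).hom.toLinearMap

theorem augSubmoduleK_le_comap (g : G) :
    augSubmoduleK k G ≤ (augSubmoduleK k G).comap ((Rep.leftRegular k G).ρ g) := by
  intro x hx
  simp only [augSubmoduleK, Submodule.mem_comap, LinearMap.mem_ker] at hx ⊢
  have := Rep.hom_comm_apply (augHomK k G) g x
  change (augHomK k G).hom ((Rep.leftRegular k G).ρ g x) = 0
  rw [this]
  change (Rep.trivial k G k).ρ g ((augHomK k G).hom x) = 0
  have hx' : (augHomK k G).hom x = 0 := hx
  rw [hx']
  simp

variable (k G) in
/-- the augmentation ideal as a representation -/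
def augRepK : Rep.{0} k G :=
  (Rep.leftRegular k G).subrepresentation (augSubmoduleK k G) augSubmoduleK_le_comap

/-- the underlying element of `k[G]` -/
def val (x : augRepK k G) : MonoidAlgebra k G :=
  ((show augSubmoduleK k G from x) : Rep.leftRegular k G)

theorem augHomK_val (x : augRepK k G) : (augHomK k G).hom (val x) = 0 :=
  (show augSubmoduleK k G from x).2

theorem val_injective : Function.Injective (val : augRepK k G → MonoidAlgebra k G) :=
  fun _ _ h => Subtype.ext h

theorem val_ρ (σ : G) (x : augRepK k G) :
    val ((augRepK k G).ρ σ x) = (Rep.leftRegular k G).ρ σ (val x) := rfl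

theorem val_add (x y : augRepK k G) : val (x + y) = val x + val y := rfl

/-- `val` as a linear map -/
def valL : (augRepK k G) →ₗ[k] (Rep.leftRegular k G) := (augSubmoduleK k G).subtype

theorem valL_apply (x : augRepK k G) : valL x = val x := rfl

/-- the `k`-linear map `k[G] → C`, `τ ↦ u (σ, τ)` -/
def psi (C : Rep.{0} k G) (u : G × G → C) (σ : G) : (Rep.leftRegular k G) →ₗ[k] C :=
  Finsupp.lift C k G (fun τ => u (σ, τ)) ∘ₗ (MonoidAlgebra.coeffLinearEquiv k).toLinearMap

theorem psi_single (C : Rep.{0} k G) (u : G × G → C) (σ τ : G) (r : k) :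
    psi C u σ (MonoidAlgebra.single τ r : MonoidAlgebra k G) = r • u (σ, τ) := by
  simp [psi]

theorem leftRegular_ρ_single (τ ρ' : G) (r : k) :
    (Rep.leftRegular k G).ρ τ (MonoidAlgebra.single ρ' r : MonoidAlgebra k G)
      = (MonoidAlgebra.single (τ * ρ') r : MonoidAlgebra k G) := by
  show Representation.ofMulAction k G G τ (MonoidAlgebra.single ρ' r) = _
  rw [Representation.ofMulAction_single]
  rfl

/-- the twisted cocycle identity on all of `k[G]` -/
theorem psi_mul (C : Rep.{0} k G) (u : cocycles₂ C) (σ τ : G) (y : MonoidAlgebra k G) :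
    psi C u (σ * τ) y + (augHomK k G).hom y • u (σ, τ)
      = C.ρ σ (psi C u τ y) + psi C u σ ((Rep.leftRegular k G).ρ τ y) := by
  induction y using MonoidAlgebra.induction_linear with
  | zero => simp
  | add x y hx hy =>
    simp only [map_add, add_smul] at hx hy ⊢
    rw [add_add_add_comm, hx, hy]
    abel
  | single ρ' r =>
    rw [leftRegular_ρ_single, psi_single, psi_single, psi_single, augHomK_single, map_smul,
      ← smul_add, ← smul_add]
    congr 1
    exact (mem_cocycles₂_iff u).1 u.2 σ τ ρ'

theorem psi_one (C : Rep.{0} k G) (u : cocycles₂ C) (y : MonoidAlgebra k G) :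
    psi C u 1 y = (augHomK k G).hom y • u (1, 1) := by
  induction y using MonoidAlgebra.induction_linear with
  | zero => simp
  | add x y hx hy => simp only [map_add, add_smul, hx, hy]
  | single ρ' r => rw [psi_single, augHomK_single, cocycles₂_map_one_fst]

/-- `σ - 1 ∈ I_G` -/
def sAug (σ : G) : augRepK k G :=
  (⟨(MonoidAlgebra.single σ 1 - MonoidAlgebra.single 1 1 : MonoidAlgebra k G), by
    show (augHomK k G).hom _ = 0
    rw [map_sub, augHomK_single, augHomK_single, sub_self]⟩ : augSubmoduleK k G)

theorem val_sAug (σ : G) :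
    val (sAug σ : augRepK k G) = MonoidAlgebra.single σ 1 - MonoidAlgebra.single 1 1 := rfl

/-- the splitting datum of a `2`-cocycle -/
def datum (C : Rep.{0} k G) (u : cocycles₂ C) : Datum C (augRepK k G) where
  u := u
  s := sAug
  hs σ τ := by
    apply val_injective
    rw [val_add, val_ρ, val_sAug, val_sAug, val_sAug, map_sub, leftRegular_ρ_single,
      leftRegular_ρ_single, mul_one]
    abel
  φ σ := psi C u σ ∘ₗ valL
  hφ_mul σ τ x := by
    show psi C u (σ * τ) (val x) = C.ρ σ (psi C u τ (val x)) + psi C u σ (val ((augRepK k G).ρ τ x))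
    rw [val_ρ]
    have h := psi_mul C u σ τ (val x)
    rw [augHomK_val, zero_smul, add_zero] at h
    exact h
  hφ_one := by
    apply LinearMap.ext
    intro x
    show psi C u 1 (val x) = 0
    rw [psi_one, augHomK_val, zero_smul]
  hφ_s σ τ := by
    show psi C u σ (val (sAug τ)) = _
    rw [val_sAug, map_sub, psi_single, psi_single, one_smul, one_smul]

/-- the splitting module over a general commutative ring `k` -/
theorem exists_splittingK (C : Rep.{0} k G) (u : H2 C) :
    ∃ (X : Rep.{0} k G) (i : C ⟶ X) (π : X ⟶ augRepK k G) (w : i ≫ π = 0),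
      (ShortComplex.mk i π w).ShortExact ∧
        (groupCohomology.map (MonoidHom.id G) i 2).hom u = 0 := by
  obtain ⟨u', rfl⟩ : ∃ u' : cocycles₂ C, H2π C u' = u := by
    induction u using H2_induction_on with
    | h x => exact ⟨x, rfl⟩
  exact ⟨(datum C u').X, (datum C u').incl, (datum C u').proj,
    (datum C u').incl_comp_proj, (datum C u').shortExact, (datum C u').map_incl_H2π⟩

end Splitting

variable {G : Type} [Group G]

theorem augRepK_int : Splitting.augRepK ℤ G = augRep G := rfl

/-- **L7 SPLITTING**: the splitting module of a class `u ∈ H²(G, C)`. -/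
theorem exists_splitting (C : Rep ℤ G) (u : H2 C) :
    ∃ (X : Rep ℤ G) (i : C ⟶ X) (π : X ⟶ augRep G) (w : i ≫ π = 0),
      (ShortComplex.mk i π w).ShortExact ∧
        (groupCohomology.map (MonoidHom.id G) i 2).hom u = 0 :=
  Splitting.exists_splittingK C u

end

end Fermat.Agent.GC.Tate
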