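/-
GATE-C / C2 TATE, leaf L6 (helper25): the TWIN VANISHING CRITERION for Mathlib's group cohomology.

If `H^(q+1)(H, A) = H^(q+2)(H, A) = 0` for every subgroup `H` of the finite group `G`, then
`H^(m+1)(H, A) = 0` for every subgroup `H` and every `m`.

Proof: strong induction on `|G|`; for a non-`p`-group all Sylow subgroups are proper
(`isZero_of_forall_sylow`, helper52); for a nontrivial `p`-group take a maximal subgroup `H`
(normal, with cyclic quotient) and use the periodicity statement L5, here a hypothesis
`PeriodicStatement` (helper21 proves it in `GC/Tate/Periodic.lean`).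
-/
import Fermat.Agent.GC.Tate.Cor
import Fermat.Agent.GC.Tate.Defs

set_option autoImplicit false

namespace Fermat.Agent.GC.Tate

open CategoryTheory groupCohomology Limits

/-- The periodicity statement (leaf L5), as a proposition. -/
def PeriodicStatement : Prop :=
  ∀ (G : Type) [Group G] [Finite G] (H : Subgroup G) [H.Normal] [IsCyclic (G ⧸ H)] (A : Rep ℤ G),
    (∀ m : ℕ, IsZero (groupCohomology (Rep.res H.subtype A) (m + 1))) →
    ∀ q : ℕ, IsZero (groupCohomology A (q + 1)) → IsZero (groupCohomology A (q + 2)) →
    ∀ m : ℕ, IsZero (groupCohomology A (m + 1))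

/-- A nontrivial finite `p`-group has a proper normal subgroup with cyclic quotient
(a maximal subgroup). -/
lemma exists_normal_cyclic_quotient {G : Type} [Group G] [Finite G] [Nontrivial G] {p : ℕ}
    [Fact p.Prime] (hG : IsPGroup p G) :
    ∃ (H : Subgroup G) (_ : H.Normal), H ≠ ⊤ ∧ IsCyclic (G ⧸ H) := by
  obtain ⟨H, hH, -⟩ := (eq_top_or_exists_le_coatom (⊥ : Subgroup G)).resolve_left bot_ne_top
  have hnil : Group.IsNilpotent G := hG.isNilpotent
  have hN : H.Normal :=
    Subgroup.NormalizerCondition.normal_of_coatom H Group.normalizerCondition_of_isNilpotent hH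
  refine ⟨H, hN, hH.1, ?_⟩
  obtain ⟨g, hg⟩ : ∃ g : G, g ∉ H := by
    by_contra hcon
    exact hH.1 (eq_top_iff.2 fun x _ => not_not.1 fun hx => hcon ⟨x, hx⟩)
  have hsup : H ⊔ Subgroup.zpowers g = ⊤ := by
    apply hH.2
    refine lt_of_le_of_ne le_sup_left fun heq => hg ?_
    have : g ∈ H ⊔ Subgroup.zpowers g :=
      (le_sup_right : Subgroup.zpowers g ≤ _) (Subgroup.mem_zpowers g)
    rwa [← heq] at this
  rw [isCyclic_iff_exists_zpowers_eq_top]
  refine ⟨QuotientGroup.mk' H g, ?_⟩
  have h1 : (H ⊔ Subgroup.zpowers g).map (QuotientGroup.mk' H) = ⊤ := by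
    rw [hsup, ← MonoidHom.range_eq_map, MonoidHom.range_eq_top]
    exact QuotientGroup.mk'_surjective H
  have h2 : H.map (QuotientGroup.mk' H) = ⊥ :=
    (Subgroup.map_eq_bot_iff _).2 (QuotientGroup.ker_mk' H).ge
  rw [Subgroup.map_sup, MonoidHom.map_zpowers, h2, bot_sup_eq] at h1
  exact h1

/-- Main induction for the twin criterion (hom form). -/
theorem isZero_of_twin_aux (hP : PeriodicStatement) (n : ℕ) :
    ∀ (G : Type) [Group G] [Finite G], Nat.card G ≤ n → ∀ (A : Rep ℤ G) (q : ℕ),
      (∀ (H : Type) [Group H] [Finite H] (f : H →* G), Function.Injective f →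
        IsZero (groupCohomology (Rep.res f A) (q + 1)) ∧
          IsZero (groupCohomology (Rep.res f A) (q + 2))) →
      ∀ m : ℕ, IsZero (groupCohomology A (m + 1)) := by
  induction n with
  | zero =>
    intro G _ _ hcard
    exact absurd hcard (by have := Nat.card_pos (α := G); omega)
  | succ n ih =>
    intro G _ _ hcard A q h
    -- all proper "subgroups" are acyclic by induction
    have sub : ∀ (H : Type) [Group H] [Finite H] (f : H →* G), Function.Injective f →
        Nat.card H < Nat.card G → ∀ m : ℕ, IsZero (groupCohomology (Rep.res f A) (m + 1)) := by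
      intro H _ _ f hf hlt
      refine ih H (by omega) (Rep.res f A) q ?_
      intro H' _ _ f' hf'
      exact h H' (f.comp f') (hf.comp hf')
    by_cases hsub : Subsingleton G
    · intro m
      exact isZero_groupCohomology_succ_of_subsingleton _ m
    · have hnt : Nontrivial G := not_subsingleton_iff_nontrivial.1 hsub
      by_cases hp : ∃ (p : ℕ) (_ : Fact p.Prime) (P : Sylow p G), (P : Subgroup G) = ⊤
      · obtain ⟨p, hpp, P, hPtop⟩ := hp
        have hG : IsPGroup p G :=
          P.isPGroup'.of_equiv ((MulEquiv.subgroupCongr hPtop).trans Subgroup.topEquiv)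
        obtain ⟨H, hN, hHtop, hcyc⟩ := exists_normal_cyclic_quotient hG
        have hlt : Nat.card H < Nat.card G := by
          refine lt_of_le_of_ne (Subgroup.card_le_card_group H) fun heq => hHtop ?_
          exact Subgroup.eq_top_of_card_eq H heq
        have h0 := h G (MonoidHom.id G) Function.injective_id
        exact hP G H A (sub H H.subtype H.subtype_injective hlt) q h0.1 h0.2
      · intro m
        refine isZero_of_forall_sylow A (m + 1) fun p _ P => ?_
        have hlt : Nat.card (P : Subgroup G) < Nat.card G := by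
          refine lt_of_le_of_ne (Subgroup.card_le_card_group _) fun heq => hp ⟨p, inferInstance, P, ?_⟩
          exact Subgroup.eq_top_of_card_eq _ heq
        exact sub (P : Subgroup G) (P : Subgroup G).subtype (Subgroup.subtype_injective _) hlt m

/-- TWIN CRITERION, hom form, modulo the periodicity statement L5. -/
theorem isZero_of_twin_of_periodic (hP : PeriodicStatement) {G : Type} [Group G] [Finite G]
    (A : Rep ℤ G) (q : ℕ)
    (h : ∀ (H : Type) [Group H] [Finite H] (f : H →* G), Function.Injective f →
      IsZero (groupCohomology (Rep.res f A) (q + 1)) ∧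
        IsZero (groupCohomology (Rep.res f A) (q + 2))) :
    ∀ m : ℕ, IsZero (groupCohomology A (m + 1)) :=
  isZero_of_twin_aux hP (Nat.card G) G le_rfl A q h

/-- Cohomology of `H` acting through an injective hom `g : H →* G` is the cohomology of the
subgroup `g.range`. -/
noncomputable def resRangeIso {k : Type} [CommRing k] {G H : Type} [Group G] [Group H]
    (A : Rep k G) (g : H →* G) (hg : Function.Injective g) (n : ℕ) :
    groupCohomology (Rep.res g A) n ≅ groupCohomology (Rep.res g.range.subtype A) n :=
  mapIso (A := Rep.res g.range.subtype A) (B := Rep.res g A) (MonoidHom.ofInjective hg)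
    (LinearEquiv.refl k _) (fun _ => rfl) n

/-- TWIN CRITERION (O2), modulo the periodicity statement L5: if `H^(q+1)(H, A)` and
`H^(q+2)(H, A)` vanish for every subgroup `H ≤ G`, then `A` is acyclic. -/
theorem isAcyclic_of_twin_of_periodic (hP : PeriodicStatement) {G : Type} [Group G] [Finite G]
    (A : Rep ℤ G) (q : ℕ)
    (h : ∀ H : Subgroup G, IsZero (groupCohomology (resSub A H) (q + 1)) ∧
      IsZero (groupCohomology (resSub A H) (q + 2))) : IsAcyclic A := by
  intro K m
  refine isZero_of_twin_of_periodic hP (resSub A K) q ?_ m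
  intro H _ _ f hf
  have hinj : Function.Injective (K.subtype.comp f) := K.subtype_injective.comp hf
  have h' := h (K.subtype.comp f).range
  exact ⟨h'.1.of_iso (resRangeIso A (K.subtype.comp f) hinj (q + 1)),
    h'.2.of_iso (resRangeIso A (K.subtype.comp f) hinj (q + 2))⟩

end Fermat.Agent.GC.Tate
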