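/-
GATE-C / C2 TATE, leaf L8 (helper25): TATE–NAKAYAMA in degree 3 for class modules.

For a class module `(C, u)` of a finite group `G`, a splitting module
`0 → C → X → I_G → 0` of `u` (i.e. `u` dies in `H²(G, X)`) satisfies
`H¹(H, X) = H²(H, X) = 0` for all subgroups `H`, hence is acyclic by the twin criterion, and
`H³(H, C) ≅ H²(H, I_G) = 0` for all `H`.

Hypothesis form: the periodicity statement L5 (`PeriodicStatement`), the splitting module
(leaf L7) and the two facts about `I_G` (leaf L7') are explicit hypotheses.
-/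
import Fermat.Agent.GC.Tate.Twin
import Fermat.Agent.GC.Tate.LES

set_option autoImplicit false

namespace Fermat.Agent.GC.Tate

open CategoryTheory groupCohomology Limits

/-- Restriction to a subgroup commutes with the maps induced by a morphism of coefficients. -/
lemma res_map_comm {k : Type} [CommRing k] {G : Type} [Group G] {A B : Rep k G} (φ : A ⟶ B)
    (H : Subgroup G) (n : ℕ) (x : groupCohomology A n) :
    (groupCohomology.map H.subtype (𝟙 (Rep.res H.subtype B)) n).hom
        ((groupCohomology.map (MonoidHom.id G) φ n).hom x) =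
      (groupCohomology.map (MonoidHom.id H) ((Rep.resFunctor H.subtype).map φ) n).hom
        ((groupCohomology.map H.subtype (𝟙 (Rep.res H.subtype A)) n).hom x) := by
  have := (resNatTrans (k := k) H.subtype n).naturality φ
  exact congrArg (fun ψ => ψ.hom x) this

variable {G : Type} [Group G]

section Splitting

variable (CM : ClassModule G) (X : Rep ℤ G) (i : CM.C ⟶ X) (π : X ⟶ augRep G) (w : i ≫ π = 0)
  (hS : (ShortComplex.mk i π w).ShortExact)
  (hu : (groupCohomology.map (MonoidHom.id G) i 2).hom CM.u = 0)
  (haug1 : ∀ H : Subgroup G, Nat.card (H1 (resSub (augRep G) H)) = Nat.card H)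
  (haug2 : ∀ H : Subgroup G, IsZero (H2 (resSub (augRep G) H)))

include hS hu haug1 in
/-- The connecting map `H¹(H, I_G) → H²(H, C)` of a splitting module is bijective. -/
lemma bijective_δ_splitting [Finite G] (H : Subgroup G) :
    Function.Bijective
      (δ (X := (ShortComplex.mk i π w).map (Rep.resFunctor H.subtype))
        ((Rep.shortExact_res H.subtype).2 hS) 1 2 rfl).hom := by
  set SH := (ShortComplex.mk i π w).map (Rep.resFunctor H.subtype) with hSHdef
  have hSH : SH.ShortExact := (Rep.shortExact_res H.subtype).2 hS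
  -- `res u` dies in `H²(H, X)`
  have hres : (groupCohomology.map (MonoidHom.id H) SH.f 2).hom ((resH2 CM.C H).hom CM.u) = 0 := by
    have := res_map_comm i H 2 CM.u
    rw [hu, map_zero] at this
    exact this.symm
  obtain ⟨y0, hy0⟩ := exists_δ_eq_of_map_f_eq_zero hSH 1 _ hres
  have hsurj : Function.Surjective (δ hSH 1 2 rfl).hom := by
    intro x
    obtain ⟨n, hn⟩ := CM.h2_gen H x
    have hmem : x ∈ (δ hSH 1 2 rfl).hom.toAddMonoidHom.range := by
      rw [hn]
      have h0 : (resH2 CM.C H).hom CM.u ∈ (δ hSH 1 2 rfl).hom.toAddMonoidHom.range := ⟨y0, hy0⟩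
      exact AddSubgroup.zsmul_mem _ h0 n
    obtain ⟨y, hy⟩ := hmem
    exact ⟨y, hy⟩
  have hfin : Finite (H1 (resSub (augRep G) H)) := by
    apply Nat.finite_of_card_ne_zero
    rw [haug1 H]
    exact Nat.card_pos.ne'
  have : Finite ↑(groupCohomology SH.X₃ 1) := hfin
  refine hsurj.bijective_of_nat_card_le ?_
  change Nat.card (H1 (resSub (augRep G) H)) ≤ Nat.card (H2 (resSub CM.C H))
  rw [haug1 H, CM.h2_card H]

include hS hu haug1 haug2 in
/-- A splitting module of a class module has vanishing `H¹` and `H²` for every subgroup. -/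
lemma isZero_H1_H2_splitting [Finite G] (H : Subgroup G) :
    IsZero (groupCohomology (resSub X H) 1) ∧ IsZero (groupCohomology (resSub X H) 2) := by
  have hbij := bijective_δ_splitting CM X i π w hS hu haug1 H
  set SH := (ShortComplex.mk i π w).map (Rep.resFunctor H.subtype) with hSHdef
  have hSH : SH.ShortExact := (Rep.shortExact_res H.subtype).2 hS
  have hC1 : ∀ y : groupCohomology SH.X₁ 1, y = 0 := fun y =>
    (CM.h1 H).elim y 0
  have hI2 : ∀ y : groupCohomology SH.X₃ 2, y = 0 := fun y =>
    (ModuleCat.isZero_iff_subsingleton.1 (haug2 H)).elim y 0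
  constructor
  · -- `H¹`
    have key : ∀ x : groupCohomology SH.X₂ 1, x = 0 := by
      intro x
      have h1 : (groupCohomology.map (MonoidHom.id H) SH.g 1).hom x = 0 := by
        apply hbij.1
        rw [map_zero]
        exact δ_map_g_apply hSH 1 x
      obtain ⟨y, hy⟩ := exists_map_f_eq_of_map_g_eq_zero hSH 1 x h1
      rw [← hy, hC1 y, map_zero]
    exact ModuleCat.isZero_iff_subsingleton.2 ⟨fun a b => by rw [key a, key b]⟩
  · -- `H²`
    have key : ∀ x : groupCohomology SH.X₂ 2, x = 0 := by
      intro x
      have h1 : (groupCohomology.map (MonoidHom.id H) SH.g 2).hom x = 0 := hI2 _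
      obtain ⟨y, hy⟩ := exists_map_f_eq_of_map_g_eq_zero hSH 2 x h1
      obtain ⟨z, hz⟩ := hbij.2 y
      rw [← hy, ← hz]
      exact map_f_δ_apply hSH 1 z
    exact ModuleCat.isZero_iff_subsingleton.2 ⟨fun a b => by rw [key a, key b]⟩

include hS hu haug1 haug2 in
/-- A splitting module of a class module is acyclic (modulo the periodicity statement). -/
theorem isAcyclic_splitting (hP : PeriodicStatement) [Finite G] : IsAcyclic X :=
  isAcyclic_of_twin_of_periodic hP X 0 fun H =>
    isZero_H1_H2_splitting CM X i π w hS hu haug1 haug2 H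

include hS hu haug1 haug2 in
/-- TATE–NAKAYAMA in degree 3 (hypothesis form): `H³(H, C) = 0` for every subgroup `H`. -/
theorem isZero_H3_of_splitting (hP : PeriodicStatement) [Finite G] (H : Subgroup G) :
    IsZero (groupCohomology (resSub CM.C H) 3) := by
  have hSH : ((ShortComplex.mk i π w).map (Rep.resFunctor H.subtype)).ShortExact :=
    (Rep.shortExact_res H.subtype).2 hS
  exact isZero_X₁_succ_of_isZero hSH 2 (haug2 H)
    (isAcyclic_splitting CM X i π w hS hu haug1 haug2 hP H 2)

end Splitting

/-- The splitting-module statement (leaf L7, helper80). -/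
def SplittingStatement : Prop :=
  ∀ (G : Type) [Group G] (C : Rep ℤ G) (u : H2 C),
    ∃ (X : Rep ℤ G) (i : C ⟶ X) (π : X ⟶ augRep G) (w : i ≫ π = 0),
      (ShortComplex.mk i π w).ShortExact ∧ (groupCohomology.map (MonoidHom.id G) i 2).hom u = 0

/-- The augmentation-ideal statement (leaf L7', helper80): `|H¹(H, I_G)| = |H|` and
`H²(H, I_G) = 0` for every subgroup `H` of a finite group `G`. -/
def AugStatement : Prop :=
  ∀ (G : Type) [Group G] [Finite G] (H : Subgroup G),
    Nat.card (H1 (resSub (augRep G) H)) = Nat.card H ∧ IsZero (H2 (resSub (augRep G) H))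

/-- TATE–NAKAYAMA in degree 3 for class modules, modulo the three leaf statements:
`H³(H, C) = 0` for every subgroup `H`. -/
theorem ClassModule.isZero_H3_of (hP : PeriodicStatement) (hSp : SplittingStatement)
    (hAug : AugStatement) [Finite G] (CM : ClassModule G) (H : Subgroup G) :
    IsZero (groupCohomology (resSub CM.C H) 3) := by
  obtain ⟨X, i, π, w, hS, hu⟩ := hSp G CM.C CM.u
  exact isZero_H3_of_splitting CM X i π w hS hu (fun K => (hAug G K).1) (fun K => (hAug G K).2)
    hP H

end Fermat.Agent.GC.Tate
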