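/-
GATE-C / C2 TATE (helper25): final (hypothesis-free) statements of the C2 package.

* `periodicStatement`, `splittingStatement` : the leaf statements L5 (helper21), L7 (helper80);
* `isAcyclic_of_twin` (O2): the twin vanishing criterion;
* `ClassModule.isZero_H3_of_aug` (O1) modulo the augmentation statement L7'.
-/
import Fermat.Agent.GC.Tate.TateNakayama
import Fermat.Agent.GC.Tate.Periodic
import Fermat.Agent.GC.Tate.Splitting

set_option autoImplicit false

namespace Fermat.Agent.GC.Tate

open CategoryTheory groupCohomology Limits

/-- Leaf L5 (helper21). -/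
theorem periodicStatement : PeriodicStatement :=
  fun _ _ _ H _ _ A hH q h1 h2 => isZero_of_cyclic_quotient H A hH q h1 h2

/-- Leaf L7 (helper80). -/
theorem splittingStatement : SplittingStatement :=
  fun _ _ C u => exists_splitting C u

variable {G : Type} [Group G] [Finite G]

/-- (O2) TWIN CRITERION: if `H^(q+1)(H, A) = H^(q+2)(H, A) = 0` for every subgroup `H` of the
finite group `G`, then `H^(m+1)(H, A) = 0` for every subgroup `H` and every `m`. -/
theorem isAcyclic_of_twin (A : Rep ℤ G) (q : ℕ)
    (h : ∀ H : Subgroup G, IsZero (groupCohomology (resSub A H) (q + 1)) ∧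
      IsZero (groupCohomology (resSub A H) (q + 2))) : IsAcyclic A :=
  isAcyclic_of_twin_of_periodic periodicStatement A q h

/-- (O2), hom form: `G` finite, `A : Rep ℤ G`; if `H^(q+1)` and `H^(q+2)` vanish for every finite
group mapping injectively to `G`, then `H^(m+1)(G, A) = 0` for all `m`. -/
theorem isZero_of_twin (A : Rep ℤ G) (q : ℕ)
    (h : ∀ (H : Type) [Group H] [Finite H] (f : H →* G), Function.Injective f →
      IsZero (groupCohomology (Rep.res f A) (q + 1)) ∧
        IsZero (groupCohomology (Rep.res f A) (q + 2))) :
    ∀ m : ℕ, IsZero (groupCohomology A (m + 1)) :=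
  isZero_of_twin_of_periodic periodicStatement A q h

/-- (O1) modulo L7': `H³(H, C) = 0` for every subgroup `H`, for a class module `C`. -/
theorem ClassModule.isZero_H3_of_aug (hAug : AugStatement) (CM : ClassModule G)
    (H : Subgroup G) : IsZero (groupCohomology (resSub CM.C H) 3) :=
  ClassModule.isZero_H3_of periodicStatement splittingStatement hAug CM H

end Fermat.Agent.GC.Tate
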