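/-
GATE-C / C2 TATE (helper25): `p`-primary TATE–NAKAYAMA in degree 3.

For a `p`-class module `(C, u)` of a finite group `G` (`PClassModule G p`) and every subgroup
`H ≤ G`, the group `H³(H, C)` has no `p`-torsion.

Route: per-subgroup version of the splitting-module computation (for every `p`-subgroup `R ≤ G`
the class-module axioms hold for `R`), twin criterion on a Sylow `p`-subgroup, Sylow reduction.
-/
import Fermat.Agent.GC.Tate.Main

set_option autoImplicit false

namespace Fermat.Agent.GC.Tate

open CategoryTheory groupCohomology Limits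

variable {G : Type} [Group G]

section PerSubgroup

variable (C : Rep ℤ G) (u : H2 C) (X : Rep ℤ G) (i : C ⟶ X) (π : X ⟶ augRep G) (w : i ≫ π = 0)
  (hS : (ShortComplex.mk i π w).ShortExact)
  (hu : (groupCohomology.map (MonoidHom.id G) i 2).hom u = 0)

include hS hu in
/-- Per-subgroup version of `bijective_δ_splitting`. -/
lemma bijective_δ_splitting' [Finite G] (H : Subgroup G)
    (h2c : Nat.card (H2 (resSub C H)) = Nat.card H)
    (h2g : ∀ x : H2 (resSub C H), ∃ n : ℤ, x = n • (resH2 C H).hom u)
    (haug1 : Nat.card (H1 (resSub (augRep G) H)) = Nat.card H) :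
    Function.Bijective
      (δ (X := (ShortComplex.mk i π w).map (Rep.resFunctor H.subtype))
        ((Rep.shortExact_res H.subtype).2 hS) 1 2 rfl).hom := by
  set SH := (ShortComplex.mk i π w).map (Rep.resFunctor H.subtype) with hSHdef
  have hSH : SH.ShortExact := (Rep.shortExact_res H.subtype).2 hS
  have hres : (groupCohomology.map (MonoidHom.id H) SH.f 2).hom ((resH2 C H).hom u) = 0 := by
    have := res_map_comm i H 2 u
    rw [hu, map_zero] at this
    exact this.symm
  obtain ⟨y0, hy0⟩ := exists_δ_eq_of_map_f_eq_zero hSH 1 _ hres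
  have hsurj : Function.Surjective (δ hSH 1 2 rfl).hom := by
    intro x
    obtain ⟨n, hn⟩ := h2g x
    have hmem : x ∈ (δ hSH 1 2 rfl).hom.toAddMonoidHom.range := by
      rw [hn]
      have h0 : (resH2 C H).hom u ∈ (δ hSH 1 2 rfl).hom.toAddMonoidHom.range := ⟨y0, hy0⟩
      exact AddSubgroup.zsmul_mem _ h0 n
    obtain ⟨y, hy⟩ := hmem
    exact ⟨y, hy⟩
  have hfin : Finite (H1 (resSub (augRep G) H)) := by
    apply Nat.finite_of_card_ne_zero
    rw [haug1]
    exact Nat.card_pos.ne'
  have : Finite ↑(groupCohomology SH.X₃ 1) := hfin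
  refine hsurj.bijective_of_nat_card_le ?_
  change Nat.card (H1 (resSub (augRep G) H)) ≤ Nat.card (H2 (resSub C H))
  rw [haug1, h2c]

include hS hu in
/-- Per-subgroup version of `isZero_H1_H2_splitting`. -/
lemma isZero_H1_H2_splitting' [Finite G] (H : Subgroup G)
    (h1 : ∀ y : H1 (resSub C H), y = 0)
    (h2c : Nat.card (H2 (resSub C H)) = Nat.card H)
    (h2g : ∀ x : H2 (resSub C H), ∃ n : ℤ, x = n • (resH2 C H).hom u)
    (haug1 : Nat.card (H1 (resSub (augRep G) H)) = Nat.card H)
    (haug2 : IsZero (H2 (resSub (augRep G) H))) :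
    IsZero (groupCohomology (resSub X H) 1) ∧ IsZero (groupCohomology (resSub X H) 2) := by
  have hbij := bijective_δ_splitting' C u X i π w hS hu H h2c h2g haug1
  set SH := (ShortComplex.mk i π w).map (Rep.resFunctor H.subtype) with hSHdef
  have hSH : SH.ShortExact := (Rep.shortExact_res H.subtype).2 hS
  have hC1 : ∀ y : groupCohomology SH.X₁ 1, y = 0 := h1
  have hI2 : ∀ y : groupCohomology SH.X₃ 2, y = 0 := fun y =>
    (ModuleCat.isZero_iff_subsingleton.1 haug2).elim y 0
  constructor
  · have key : ∀ x : groupCohomology SH.X₂ 1, x = 0 := by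
      intro x
      have h1 : (groupCohomology.map (MonoidHom.id H) SH.g 1).hom x = 0 := by
        apply hbij.1
        rw [map_zero]
        exact δ_map_g_apply hSH 1 x
      obtain ⟨y, hy⟩ := exists_map_f_eq_of_map_g_eq_zero hSH 1 x h1
      rw [← hy, hC1 y, map_zero]
    exact ModuleCat.isZero_iff_subsingleton.2 ⟨fun a b => by rw [key a, key b]⟩
  · have key : ∀ x : groupCohomology SH.X₂ 2, x = 0 := by
      intro x
      have h1 : (groupCohomology.map (MonoidHom.id H) SH.g 2).hom x = 0 := hI2 _
      obtain ⟨y, hy⟩ := exists_map_f_eq_of_map_g_eq_zero hSH 2 x h1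
      obtain ⟨z, hz⟩ := hbij.2 y
      rw [← hy, ← hz]
      exact map_f_δ_apply hSH 1 z
    exact ModuleCat.isZero_iff_subsingleton.2 ⟨fun a b => by rw [key a, key b]⟩

end PerSubgroup

section PPrimary

variable {p : ℕ} [hp : Fact p.Prime]

omit hp in
/-- No `p`-torsion implies no `p`-power torsion. -/
lemma eq_zero_of_pow_nsmul_of_torsionFree {M : Type*} [AddCommGroup M]
    (htf : ∀ x : M, (p : ℤ) • x = 0 → x = 0) (a : ℕ) (x : M) (hx : (p ^ a) • x = 0) : x = 0 := by
  induction a generalizing x with
  | zero => simpa using hx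
  | succ a ih =>
    apply ih
    apply htf
    rw [natCast_zsmul, ← mul_nsmul, ← pow_succ]
    exact hx

variable [Finite G] (CM : PClassModule G p)

/-- For a `p`-subgroup `R`, the `p`-class-module axioms give the class-module axioms at `R`. -/
lemma PClassModule.axioms_of_pgroup (R : Subgroup G) (a : ℕ) (hR : Nat.card R = p ^ a) :
    (∀ y : H1 (resSub CM.C R), y = 0) ∧ Nat.card (H2 (resSub CM.C R)) = Nat.card R ∧
      ∀ x : H2 (resSub CM.C R), ∃ n : ℤ, x = n • (resH2 CM.C R).hom CM.u := by
  have hkill : ∀ (n : ℕ) (x : groupCohomology (resSub CM.C R) (n + 1)), (p ^ a) • x = 0 := by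
    intro n x
    rw [← hR]
    exact card_nsmul_groupCohomology_eq_zero (resSub CM.C R) n x
  have htors : ∀ x : H2 (resSub CM.C R), ∃ k : ℕ, ((p : ℤ) ^ k) • x = 0 := by
    intro x
    refine ⟨a, ?_⟩
    have := hkill 1 x
    rw [← natCast_zsmul] at this
    simpa using this
  refine ⟨fun y => ?_, ?_, fun x => CM.h2_gen R x (htors x)⟩
  · exact eq_zero_of_pow_nsmul_of_torsionFree (CM.h1 R) a y (hkill 0 y)
  · have h := CM.h2_card R
    rw [hR, Nat.Prime.factorization_pow hp.out] at h
    simp only [Finsupp.single_eq_same] at h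
    rw [hR, ← h]
    exact (Nat.card_congr (Equiv.subtypeUnivEquiv htors)).symm

/-- For a `p`-subgroup `R ≤ G` and a `p`-class module `C`: `H³(R, C) = 0`
(modulo the augmentation statement L7'). -/
theorem PClassModule.isZero_H3_of_pgroup (hAug : AugStatement) (R : Subgroup G) (a : ℕ)
    (hR : Nat.card R = p ^ a) : IsZero (groupCohomology (resSub CM.C R) 3) := by
  obtain ⟨X, i, π, w, hS, hu⟩ := exists_splitting CM.C CM.u
  -- every subgroup of `G` of `p`-power order has vanishing `H¹`, `H²` of `X`
  have hX : ∀ (R' : Subgroup G) (b : ℕ), Nat.card R' = p ^ b →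
      IsZero (groupCohomology (resSub X R') 1) ∧ IsZero (groupCohomology (resSub X R') 2) := by
    intro R' b hR'
    obtain ⟨h1, h2c, h2g⟩ := CM.axioms_of_pgroup R' b hR'
    exact isZero_H1_H2_splitting' CM.C CM.u X i π w hS hu R' h1 h2c h2g
      (hAug G R').1 (hAug G R').2
  -- twin criterion on `R`
  have hacyc : ∀ m : ℕ, IsZero (groupCohomology (resSub X R) (m + 1)) := by
    refine isZero_of_twin (resSub X R) 0 ?_
    intro K _ _ f hf
    have hginj : Function.Injective (R.subtype.comp f) := R.subtype_injective.comp hf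
    have hle : (R.subtype.comp f).range ≤ R := by
      rintro _ ⟨k, rfl⟩
      exact (f k).2
    obtain ⟨b, -, hb⟩ := (Nat.dvd_prime_pow hp.out).1 (hR ▸ Subgroup.card_dvd_of_le hle)
    have := hX (R.subtype.comp f).range b hb
    exact ⟨this.1.of_iso (resRangeIso X (R.subtype.comp f) hginj 1),
      this.2.of_iso (resRangeIso X (R.subtype.comp f) hginj 2)⟩
  have hSR : ((ShortComplex.mk i π w).map (Rep.resFunctor R.subtype)).ShortExact :=
    (Rep.shortExact_res R.subtype).2 hS
  exact isZero_X₁_succ_of_isZero hSR 2 (hAug G R).2 (hacyc 2)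

/-- (O1p) `p`-primary TATE–NAKAYAMA in degree 3 (modulo L7'): for a `p`-class module `C` and every
subgroup `H ≤ G`, the group `H³(H, C)` has no `p`-torsion. -/
theorem PClassModule.H3_torsion_free_of_aug (hAug : AugStatement) (H : Subgroup G)
    (x : groupCohomology (resSub CM.C H) 3) (hx : (p : ℤ) • x = 0) : x = 0 := by
  obtain ⟨P⟩ : Nonempty (Sylow p H) := inferInstance
  have hginj : Function.Injective (H.subtype.comp (P : Subgroup H).subtype) :=
    H.subtype_injective.comp (Subgroup.subtype_injective _)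
  obtain ⟨a, ha⟩ := IsPGroup.iff_card.1 P.isPGroup'
  have hcard : Nat.card (H.subtype.comp (P : Subgroup H).subtype).range = p ^ a := by
    rw [← ha]
    exact (Nat.card_congr (MonoidHom.ofInjective hginj).toEquiv).symm
  have h3 := CM.isZero_H3_of_pgroup hAug _ a hcard
  have h3' : IsZero (groupCohomology
      (Rep.res (P : Subgroup H).subtype (resSub CM.C H)) 3) :=
    h3.of_iso (resRangeIso CM.C (H.subtype.comp (P : Subgroup H).subtype) hginj 3)
  refine eq_zero_of_pow_nsmul_eq_zero_of_isZero_sylow p P (resSub CM.C H) 3 h3' x 1 ?_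
  rw [pow_one, ← natCast_zsmul]
  exact hx

end PPrimary

end Fermat.Agent.GC.Tate
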