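/-
GATE-C / C2 TATE (helper25): FINAL, hypothesis-free outputs of the C2 package.

* `ClassModule.isZero_H3` (O1): `H³(H, C) = 0` for a class module `C` and every subgroup `H`;
* `PClassModule.H3_torsion_free` (O1p): `H³(H, C)` has no `p`-torsion for a `p`-class module;
* `ClassModule.isAcyclic_splitting`: every splitting module of a class module is acyclic.
(The twin criterion (O2) `isAcyclic_of_twin` is in `Main.lean`.)
-/
import Fermat.Agent.GC.Tate.TateNakayamaP
import Fermat.Agent.GC.Tate.Aug

set_option autoImplicit false

namespace Fermat.Agent.GC.Tate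

open CategoryTheory groupCohomology Limits

/-- Leaf L7' (helper80). -/
theorem augStatement : AugStatement :=
  fun _ _ _ H => ⟨card_H1_aug H, isZero_H2_aug H⟩

variable {G : Type} [Group G] [Finite G]

/-- (O1) TATE–NAKAYAMA in degree 3: for a class module `(C, u)` of the finite group `G` and
every subgroup `H ≤ G`, `H³(H, C) = 0`. -/
theorem ClassModule.isZero_H3 (CM : ClassModule G) (H : Subgroup G) :
    IsZero (groupCohomology (resSub CM.C H) 3) :=
  CM.isZero_H3_of_aug augStatement H

/-- (O1p) `p`-primary TATE–NAKAYAMA in degree 3: for a `p`-class module `(C, u)` of the finite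
group `G` and every subgroup `H ≤ G`, `H³(H, C)` has no `p`-torsion. -/
theorem PClassModule.H3_torsion_free {p : ℕ} [Fact p.Prime] (CM : PClassModule G p)
    (H : Subgroup G) (x : groupCohomology (resSub CM.C H) 3) (hx : (p : ℤ) • x = 0) : x = 0 :=
  CM.H3_torsion_free_of_aug augStatement H x hx

/-- For a `p`-class module and a `p`-subgroup `R ≤ G`: `H³(R, C) = 0`. -/
theorem PClassModule.isZero_H3_pgroup {p : ℕ} [Fact p.Prime] (CM : PClassModule G p)
    (R : Subgroup G) (a : ℕ) (hR : Nat.card R = p ^ a) :
    IsZero (groupCohomology (resSub CM.C R) 3) :=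
  CM.isZero_H3_of_pgroup augStatement R a hR

/-- Every splitting module `0 → C → X → I_G → 0` of the fundamental class of a class module is
acyclic (cohomologically trivial in positive degrees, for all subgroups). -/
theorem ClassModule.isAcyclic_of_splitting (CM : ClassModule G) (X : Rep ℤ G) (i : CM.C ⟶ X)
    (π : X ⟶ augRep G) (w : i ≫ π = 0) (hS : (ShortComplex.mk i π w).ShortExact)
    (hu : (groupCohomology.map (MonoidHom.id G) i 2).hom CM.u = 0) : IsAcyclic X :=
  isAcyclic_splitting CM X i π w hS hu (fun K => (augStatement G K).1)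
    (fun K => (augStatement G K).2) periodicStatement

end Fermat.Agent.GC.Tate
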