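import Fermat.Agent.GC.Tate.InfRes2

/-!
# GATE-C / C4 (I1): `p`-primary injectivity of inflation on `H²` (helper1)

For `S ⊲ G` and `A : Rep k G`, the inflation `H²(G ⧸ S, A^S) ⟶ H²(G, A)` is injective as soon as
`H¹(S, A) = 0` (`InfRes2.inf_injective`).  The proof only uses that ONE specific `1`-cocycle of `S`
is a coboundary, hence:

* `nsmul_eq_zero_of_inf_eq_zero` : if `m • H¹(S, A) = 0` then `m` kills the kernel of inflation;
* `card_nsmul_H1_eq_zero` : `|S| • H¹(S, A) = 0` for finite `S`;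
* `inf_injective_of_noTorsion` : if `S` is finite and `H¹(S, A)` has no `p`-torsion (`p` prime),
  inflation is injective on `p`-power torsion classes.
-/

universe u

namespace Fermat.Agent.GC.Tate.InfRes2

open CategoryTheory groupCohomology Rep

variable {k G : Type u} [CommRing k] [Group G]

section Core

variable {A : Rep k G} {S : Subgroup G}

/-- For an inflated 2-cocycle `y = d v`, the cochain `s ↦ v s - y (1, 1)` is a 1-cocycle on `S`. -/
lemma descent_cocycle {y : G × G → A} (hy1 : ∀ g h, ∀ s ∈ S, y (g, h * s) = y (g, h))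
    (hy2 : ∀ g h, ∀ s ∈ S, y (g * s, h) = y (g, h))
    (hy3 : ∀ g h, ∀ s ∈ S, A.ρ s (y (g, h)) = y (g, h)) (v : G → A) (hv : y = dOne A v) :
    ∀ s ∈ S, ∀ t ∈ S, v (s * t) - y (1, 1) = A.ρ s (v t - y (1, 1)) + (v s - y (1, 1)) := by
  have hc : ∀ s ∈ S, ∀ t ∈ S, y (s, t) = y (1, 1) := by
    intro s hs t ht
    have := hy2 1 t s hs
    have := hy1 1 1 t ht
    simp_all
  intro s hs t ht
  have h1 := hc s hs t ht
  rw [hv, dOne_apply, ← hv] at h1
  have h2 := hy3 1 1 s hs
  simp only [map_sub, h2]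
  linear_combination (norm := abel) (-1 : ℤ) • h1

/-- **Injectivity of inflation, cocycle level, localised hypothesis.** If an inflated 2-cocycle
`y` is the coboundary of `v` and the 1-cocycle `s ↦ v s - y (1, 1)` of `S` is the coboundary of
`a`, then `y` is the coboundary of an inflated 1-cochain. -/
theorem exists_descent_of_coboundary [S.Normal] {y : G × G → A} (hy : IsZ2 A y)
    (hy1 : ∀ g h, ∀ s ∈ S, y (g, h * s) = y (g, h)) (hy2 : ∀ g h, ∀ s ∈ S, y (g * s, h) = y (g, h))
    (v : G → A) (hv : y = dOne A v) (a : A) (ha : ∀ s ∈ S, v s - y (1, 1) = A.ρ s a - a) :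
    ∃ v' : G → A, y = dOne A v' ∧ (∀ g, ∀ s ∈ S, v' (g * s) = v' g) ∧
      (∀ g, ∀ s ∈ S, A.ρ s (v' g) = v' g) := by
  have hyg1 : ∀ g, y (g, 1) = A.ρ g (y (1, 1)) := by
    intro g
    have := hy g 1 1
    simp only [mul_one] at this
    linear_combination (norm := abel) this
  have hy1g : ∀ g, y (1, g) = y (1, 1) := by
    intro g
    have := hy 1 1 g
    simp only [mul_one, one_mul, map_one, Module.End.one_apply] at this
    linear_combination (norm := abel) (-1 : ℤ) • this
  have hv' : y = dOne A (v - fun g => A.ρ g a - a) := by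
    rw [dOne_sub, dOne_dZero, sub_zero, hv]
  have hvS : ∀ s ∈ S, (v - fun g => A.ρ g a - a) s = y (1, 1) := by
    intro s hs
    have := ha s hs
    simp only [Pi.sub_apply]
    linear_combination (norm := abel) this
  set v' : G → A := v - fun g => A.ρ g a - a with hv'_def
  have hA : ∀ g, ∀ s ∈ S, v' (g * s) = v' g := by
    intro g s hs
    have h1 : y (g, s) = A.ρ g (y (1, 1)) := by
      have := hy1 g 1 s hs
      rw [one_mul] at this
      rw [this, hyg1]
    have h2 := congr_fun hv' (g, s)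
    rw [dOne_apply, hvS s hs, h1] at h2
    linear_combination (norm := abel) h2
  refine ⟨v', hv', hA, fun g s hs => ?_⟩
  have h1 : y (s, g) = y (1, 1) := by
    have := hy2 1 g s hs
    rw [one_mul] at this
    rw [this, hy1g]
  have h2 := congr_fun hv' (s, g)
  rw [dOne_apply, hvS s hs, show s * g = g * (g⁻¹ * s * g) by group,
    hA g _ (Subgroup.Normal.conj_mem' ‹_› s hs g), h1] at h2
  linear_combination (norm := abel) (-1 : ℤ) • h2

lemma dOne_nsmul (m : ℕ) (v : G → A) : dOne A (m • v) = m • dOne A v := by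
  funext ⟨g, h⟩
  simp only [dOne_apply, Pi.smul_apply, map_nsmul, smul_add, smul_sub]

lemma IsZ2.nsmul {f : G × G → A} (hf : IsZ2 A f) (m : ℕ) : IsZ2 A (m • f) := by
  intro g h j
  simp only [Pi.smul_apply, map_nsmul, ← smul_add]
  rw [hf g h j]

end Core

section Bridge

variable (A : Rep k G) (S : Subgroup G)

/-- If `m` kills `H¹(S, A)`, then `m` times any 1-cocycle of `S` in `A` is a coboundary
(cocycle-level form). -/
lemma exists_coboundary_of_nsmul_eq_zero (m : ℕ)
    (hm : ∀ c : groupCohomology (res S.subtype A) 1, m • c = 0) (c : G → A)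
    (hc : ∀ s ∈ S, ∀ t ∈ S, c (s * t) = A.ρ s (c t) + c s) :
    ∃ a : A, ∀ s ∈ S, m • c s = A.ρ s a - a := by
  have hmem : (fun s : S => c s.1) ∈ cocycles₁ (res S.subtype A) := by
    rw [mem_cocycles₁_iff]
    intro s t
    exact hc s.1 s.2 t.1 t.2
  have hz : H1π (res S.subtype A) (m • ⟨_, hmem⟩) = 0 := by
    rw [map_nsmul]
    exact hm _
  obtain ⟨a, ha⟩ := (H1π_eq_zero_iff _).1 hz
  refine ⟨a, fun s hs => ?_⟩
  have h2 : A.ρ s a - a = m • c s := congr_fun ha ⟨s, hs⟩
  exact h2.symm

/-- `|S|` kills `H¹(S, A)` for a finite group `S` (here: a finite subgroup of `G`). -/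
theorem card_nsmul_H1_eq_zero [Finite S] (c : groupCohomology (res S.subtype A) 1) :
    Nat.card S • c = 0 := by
  classical
  have := Fintype.ofFinite S
  induction c using H1_induction_on with | @h z =>
  rw [← map_nsmul, H1π_eq_zero_iff]
  refine ⟨-∑ t : S, (z : S → A) t, ?_⟩
  funext s
  have hz := (mem_cocycles₁_iff (A := res S.subtype A) (z : S → A)).1 z.2
  -- `∑_t z (s t) = s • ∑_t z t + |S| • z s`
  have h1 : ∑ t : S, (z : S → A) (s * t) = A.ρ s.1 (∑ t : S, (z : S → A) t) +
      Nat.card S • (z : S → A) s := by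
    rw [map_sum, Nat.card_eq_fintype_card, ← Finset.card_univ, ← Finset.sum_const,
      ← Finset.sum_add_distrib]
    exact Finset.sum_congr rfl fun t _ => hz s t
  have h2 : ∑ t : S, (z : S → A) (s * t) = ∑ t : S, (z : S → A) t :=
    Fintype.sum_bijective (fun t => s * t) (Group.mulLeft_bijective s) _ _ fun _ => rfl
  rw [h2] at h1
  show A.ρ s.1 (-∑ t : S, (z : S → A) t) - -∑ t : S, (z : S → A) t = Nat.card S • (z : S → A) s
  rw [map_neg]
  linear_combination (norm := abel) h1

variable [S.Normal]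

set_option backward.defeqAttrib.useBackward true in
set_option backward.isDefEq.respectTransparency false in
/-- If `m` kills `H¹(S, A)` then `m` kills the kernel of the inflation
`H²(G ⧸ S, A^S) ⟶ H²(G, A)`. -/
theorem nsmul_eq_zero_of_inf_eq_zero (m : ℕ)
    (hm : ∀ c : groupCohomology (res S.subtype A) 1, m • c = 0)
    (y : groupCohomology (A.quotientToInvariants S) 2) (h0 : (H2InfRes A S).f.hom y = 0) :
    m • y = 0 := by
  induction y using H2_induction_on with | @h y =>
  simp only [H2InfRes_X₂, H2InfRes_X₁, H2InfRes_f, H2π_comp_map_apply (QuotientGroup.mk' S)] at h0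
  rcases (H2π_eq_zero_iff _).1 h0 with ⟨(v : G → A), hv⟩
  let Y : G × G → A :=
    fun p => ((y ((p.1 : G ⧸ S), (p.2 : G ⧸ S)) : (A.quotientToInvariants S)) : A)
  have hY : Y = dOne A v := by
    funext ⟨g, j⟩
    have := congr_fun hv (g, j)
    erw [mapCocycles₂_apply] at this
    exact this.symm
  have hYZ : IsZ2 A Y := by rw [hY]; exact isZ2_dOne v
  have hY1 : ∀ g h, ∀ s ∈ S, Y (g, h * s) = Y (g, h) := by
    intro g h s hs
    simp only [Y, QuotientGroup.mk_mul_of_mem _ hs]
  have hY2 : ∀ g h, ∀ s ∈ S, Y (g * s, h) = Y (g, h) := by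
    intro g h s hs
    simp only [Y, QuotientGroup.mk_mul_of_mem _ hs]
  have hY3 : ∀ g h, ∀ s ∈ S, A.ρ s (Y (g, h)) = Y (g, h) :=
    fun g h s hs => (y ((g : G ⧸ S), (h : G ⧸ S))).2 ⟨s, hs⟩
  -- the obstruction cocycle, multiplied by `m`, is a coboundary
  obtain ⟨a, ha⟩ := exists_coboundary_of_nsmul_eq_zero A S m hm (fun g => v g - Y (1, 1))
    (descent_cocycle hY1 hY2 hY3 v hY)
  -- descent for `m • Y = d (m • v)`
  have hmY : m • Y = dOne A (m • v) := by rw [dOne_nsmul, hY]
  obtain ⟨v', hv', hv1, hv2⟩ := exists_descent_of_coboundary (hYZ.nsmul m)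
    (fun g h s hs => by simp only [Pi.smul_apply, hY1 g h s hs])
    (fun g h s hs => by simp only [Pi.smul_apply, hY2 g h s hs])
    (m • v) hmY a (fun s hs => by
      have := ha s hs
      simp only [Pi.smul_apply, ← smul_sub]
      exact this)
  rw [← map_nsmul, H2π_eq_zero_iff]
  refine ⟨fun p => ⟨v' p.out, fun s => hv2 _ s.1 s.2⟩, ?_⟩
  have hout : ∀ g : G, v' (g : G ⧸ S).out = v' g := by
    intro g
    obtain ⟨s, hs, es⟩ := out_rel S g
    rw [es, hv1 g s hs]
  funext ⟨p, q⟩
  induction p using QuotientGroup.induction_on with | H g =>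
  induction q using QuotientGroup.induction_on with | H j =>
  apply Subtype.ext
  rw [d₁₂_hom_apply]
  have e := congr_fun hv' (g, j)
  rw [dOne_apply] at e
  change A.ρ g (v' (j : G ⧸ S).out) - v' ((g : G ⧸ S) * (j : G ⧸ S)).out + v' (g : G ⧸ S).out =
    (m • Y) (g, j)
  rw [← QuotientGroup.mk_mul, hout, hout, hout, e]

/-- **(I1) `p`-primary injectivity of inflation.** If `S` is finite and `H¹(S, A)` has no
`p`-torsion, then a `p`-power torsion class of `H²(G ⧸ S, A^S)` dying in `H²(G, A)` is zero. -/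
theorem inf_injective_of_noTorsion (p : ℕ) (hp : p.Prime) [Finite S]
    (hS : ∀ (c : groupCohomology (res S.subtype A) 1) (m : ℕ), p ^ m • c = 0 → c = 0)
    (y : groupCohomology (A.quotientToInvariants S) 2) (a : ℕ) (hy : p ^ a • y = 0)
    (h0 : (H2InfRes A S).f.hom y = 0) : y = 0 := by
  -- `|S| = p ^ b * m` with `p ∤ m`
  have hn : Nat.card S ≠ 0 := Nat.card_pos.ne'
  obtain ⟨b, m, hpm, hnm⟩ := Nat.exists_eq_pow_mul_and_not_dvd hn p hp.ne_one
  -- `m` kills `H¹(S, A)`
  have hm : ∀ c : groupCohomology (res S.subtype A) 1, m • c = 0 := by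
    intro c
    apply hS (m • c) b
    rw [smul_smul, ← hnm]
    exact card_nsmul_H1_eq_zero A S c
  have h1 : m • y = 0 := nsmul_eq_zero_of_inf_eq_zero A S m hm y h0
  -- `gcd (m, p ^ a) = 1`
  have hcop : Nat.Coprime m (p ^ a) :=
    Nat.Coprime.pow_right a ((Nat.Prime.coprime_iff_not_dvd hp).2 hpm).symm
  have hd1 := addOrderOf_dvd_of_nsmul_eq_zero h1
  have hd2 := addOrderOf_dvd_of_nsmul_eq_zero hy
  have h3 : addOrderOf y = 1 := Nat.eq_one_of_dvd_coprimes hcop hd1 hd2
  exact AddMonoid.addOrderOf_eq_one_iff.1 h3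

/-- `Fact p.Prime` form of `inf_injective_of_noTorsion`. -/
theorem inf_injective_of_noTorsion' (p : ℕ) [Fact p.Prime] [Finite S]
    (hS : ∀ (c : groupCohomology (res S.subtype A) 1) (m : ℕ), p ^ m • c = 0 → c = 0)
    (y : groupCohomology (A.quotientToInvariants S) 2) (a : ℕ) (hy : p ^ a • y = 0)
    (h0 : (H2InfRes A S).f.hom y = 0) : y = 0 :=
  inf_injective_of_noTorsion A S p Fact.out hS y a hy h0

/-- Two `p`-power torsion classes of `H²(G ⧸ S, A^S)` with the same inflation are equal, when `S`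
is finite and `H¹(S, A)` has no `p`-torsion. -/
theorem inf_eq_imp_eq_of_noTorsion (p : ℕ) (hp : p.Prime) [Finite S]
    (hS : ∀ (c : groupCohomology (res S.subtype A) 1) (m : ℕ), p ^ m • c = 0 → c = 0)
    (y y' : groupCohomology (A.quotientToInvariants S) 2) (a a' : ℕ) (hy : p ^ a • y = 0)
    (hy' : p ^ a' • y' = 0) (h : (H2InfRes A S).f.hom y = (H2InfRes A S).f.hom y') : y = y' := by
  rw [← sub_eq_zero]
  refine inf_injective_of_noTorsion A S p hp hS (y - y') (a + a') ?_ ?_
  · rw [smul_sub, pow_add, mul_smul, smul_comm (p ^ a) (p ^ a') y, hy, mul_smul, hy']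
    simp
  · exact (map_sub (H2InfRes A S).f.hom y y').trans (sub_eq_zero.2 h)

end Bridge

end Fermat.Agent.GC.Tate.InfRes2
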