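/-
GATE-C / C4 (CYC-abs), helper74.

Pure group cohomology.  `G` a group, `N M ⊲ G`, `A : Rep k G`, `p` a prime:
if `H¹(N, A) = 0`, inflation from `G ⧸ M` is injective on `p`-primary classes (I1), the
`p`-primary part of `H²(G ⧸ N, A^N)` is finite of order dividing `p ^ a`, and
`Y ≤ H²(G ⧸ M, A^M)` is a subgroup of order `p ^ a`, killed by `p ^ a`, whose inflations to `G`
restrict to `0` on `N`, then the `p`-primary part of `H²(G ⧸ N, A^N)` has order exactly `p ^ a`
and is "the same" as `Y` inside `H²(G, A)`; in particular it is cyclic when `Y` is.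
-/
import Fermat.Agent.GC.Tate.InfRes2
import Fermat.Agent.GC.Tate.InfRes2P
import Fermat.Agent.GC.Global.Devissage

set_option autoImplicit false

open CategoryTheory groupCohomology

noncomputable section

namespace Fermat.Agent.GC.Tate.CycAbs

open Fermat.Agent.GC.Global.Devissage (primaryPart mem_primaryPart)
open Fermat.Agent.GC.Tate.InfRes2

/-! ### The additive-group core -/

section Abstract

variable {XN XM X : Type*} [AddCommGroup XN] [AddCommGroup XM] [AddCommGroup X]

/-- Two subgroups of orders `p ^ a` and `∣ p ^ a`, one mapping into the other, coincide. -/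
theorem map_primaryPart_eq_map {p a : ℕ} (hp : p.Prime) (iN : XN →+ X) (iM : XM →+ X)
    (hiN : Function.Injective iN) (Y : AddSubgroup XM) (hYcard : Nat.card Y = p ^ a)
    (hYtors : ∀ y ∈ Y, p ^ a • y = 0) (hYinj : ∀ y ∈ Y, iM y = 0 → y = 0)
    (hYrange : ∀ y ∈ Y, ∃ z, iN z = iM y) [Finite (primaryPart p XN)]
    (hcard : Nat.card (primaryPart p XN) ∣ p ^ a) :
    (primaryPart p XN).map iN = Y.map iM ∧ Nat.card (primaryPart p XN) = p ^ a := by
  have hpa : 0 < p ^ a := pow_pos hp.pos a
  -- `Y.map iM ≤ (primaryPart p XN).map iN`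
  have hle : Y.map iM ≤ (primaryPart p XN).map iN := by
    rintro x ⟨y, hy, rfl⟩
    obtain ⟨z, hz⟩ := hYrange y hy
    refine ⟨z, ⟨a, ?_⟩, hz⟩
    apply hiN
    rw [map_nsmul, hz, ← map_nsmul, hYtors y hy, map_zero, map_zero]
  -- cardinalities
  have hcN : Nat.card ((primaryPart p XN).map iN) = Nat.card (primaryPart p XN) :=
    Nat.card_congr ((primaryPart p XN).equivMapOfInjective iN hiN).symm.toEquiv
  have hinjY : Function.Injective (iM.comp Y.subtype) := by
    rw [injective_iff_map_eq_zero]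
    intro y hy
    exact Subtype.ext (hYinj y.1 y.2 hy)
  have hcM : Nat.card (Y.map iM) = Nat.card Y := by
    have hr : (iM.comp Y.subtype).range = Y.map iM := by
      rw [AddMonoidHom.range_comp, AddSubgroup.range_subtype]
    rw [← hr]
    exact Nat.card_congr (AddMonoidHom.ofInjective hinjY).symm.toEquiv
  have hfin : Finite ((primaryPart p XN).map iN) :=
    Finite.of_equiv _ ((primaryPart p XN).equivMapOfInjective iN hiN).toEquiv
  have h1 : Nat.card (Y.map iM) ≤ Nat.card ((primaryPart p XN).map iN) :=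
    AddSubgroup.card_le_of_le hle
  have h2 : Nat.card (primaryPart p XN) ≤ p ^ a := Nat.le_of_dvd hpa hcard
  have hcardeq : Nat.card (primaryPart p XN) = p ^ a := by
    rw [hcM, hYcard, hcN] at h1
    exact le_antisymm h2 h1
  refine ⟨?_, hcardeq⟩
  symm
  apply AddSubgroup.eq_of_le_of_card_ge hle
  rw [hcM, hYcard, hcN, hcardeq]

/-- Surjectivity form. -/
theorem exists_mem_of_mem_primaryPart {p a : ℕ} (hp : p.Prime) (iN : XN →+ X) (iM : XM →+ X)
    (hiN : Function.Injective iN) (Y : AddSubgroup XM) (hYcard : Nat.card Y = p ^ a)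
    (hYtors : ∀ y ∈ Y, p ^ a • y = 0) (hYinj : ∀ y ∈ Y, iM y = 0 → y = 0)
    (hYrange : ∀ y ∈ Y, ∃ z, iN z = iM y) [Finite (primaryPart p XN)]
    (hcard : Nat.card (primaryPart p XN) ∣ p ^ a) (z : XN) (hz : z ∈ primaryPart p XN) :
    ∃ y ∈ Y, iN z = iM y := by
  have h := (map_primaryPart_eq_map hp iN iM hiN Y hYcard hYtors hYinj hYrange hcard).1
  have hz' : iN z ∈ (primaryPart p XN).map iN := ⟨z, hz, rfl⟩
  rw [h] at hz'
  obtain ⟨y, hy, hyz⟩ := hz'
  exact ⟨y, hy, hyz.symm⟩

/-- Cyclicity transport. -/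
theorem isAddCyclic_primaryPart {p a : ℕ} (hp : p.Prime) (iN : XN →+ X) (iM : XM →+ X)
    (hiN : Function.Injective iN) (Y : AddSubgroup XM) (hYcard : Nat.card Y = p ^ a)
    (hYtors : ∀ y ∈ Y, p ^ a • y = 0) (hYinj : ∀ y ∈ Y, iM y = 0 → y = 0)
    (hYrange : ∀ y ∈ Y, ∃ z, iN z = iM y) [Finite (primaryPart p XN)]
    (hcard : Nat.card (primaryPart p XN) ∣ p ^ a) (hcyc : IsAddCyclic Y) :
    IsAddCyclic (primaryPart p XN) := by
  have h := (map_primaryPart_eq_map hp iN iM hiN Y hYcard hYtors hYinj hYrange hcard).1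
  -- `Y → Y.map iM` is onto, `(primaryPart).map iN ≃ primaryPart`
  have h1 : IsAddCyclic (Y.map iM) := by
    have hs : Function.Surjective (iM.addSubgroupMap Y) := iM.addSubgroupMap_surjective Y
    exact isAddCyclic_of_surjective _ hs
  rw [← h] at h1
  have e := ((primaryPart p XN).equivMapOfInjective iN hiN).symm
  exact isAddCyclic_of_surjective e.toAddMonoidHom e.surjective

end Abstract

/-- In a cyclic group, two elements killed by a prime `p` are multiples of one another. -/
theorem exists_nsmul_of_isAddCyclic {C : Type*} [AddCommGroup C] [IsAddCyclic C] [Finite C]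
    {p : ℕ} (hp : p.Prime) (z z' : C) (hz : p • z = 0) (hz' : p • z' = 0) :
    ∃ n : ℕ, z' = n • z ∨ z = n • z' := by
  by_cases h0 : z = 0
  · exact ⟨0, Or.inr (by rw [h0, zero_smul])⟩
  -- the `p`-torsion subgroup `T` is cyclic of exponent `p`, hence of order `p`
  let T : AddSubgroup C := (nsmulAddMonoidHom (α := C) p).ker
  have hzT : z ∈ T := hz
  have hz'T : z' ∈ T := hz'
  have hTcyc : IsAddCyclic T := inferInstance
  -- `z` has order `p`
  have hoz : addOrderOf z = p := by
    have hd : addOrderOf z ∣ p := addOrderOf_dvd_of_nsmul_eq_zero hz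
    rcases (Nat.dvd_prime hp).1 hd with h1 | h1
    · exact absurd (AddMonoid.addOrderOf_eq_one_iff.1 h1) h0
    · exact h1
  -- `z'` is a multiple of `z` because `⟨z⟩` has `p` elements and `T` has at most `p`
  have hTcard : Nat.card T ∣ p := by
    have hexp : AddMonoid.exponent T ∣ p := by
      apply AddMonoid.exponent_dvd_of_forall_nsmul_eq_zero
      intro t
      exact Subtype.ext t.2
    rw [← IsAddCyclic.exponent_eq_card]
    exact hexp
  have hzm : (AddSubgroup.zmultiples (⟨z, hzT⟩ : T)) = ⊤ := by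
    apply AddSubgroup.eq_top_of_le_card
    have h1 : Nat.card (AddSubgroup.zmultiples (⟨z, hzT⟩ : T)) = p := by
      rw [Nat.card_zmultiples]
      have : addOrderOf (⟨z, hzT⟩ : T) = addOrderOf z := by
        rw [← AddSubgroup.addOrderOf_coe]
      rw [this, hoz]
    rw [h1]
    exact Nat.le_of_dvd hp.pos hTcard
  have hmem : (⟨z', hz'T⟩ : T) ∈ AddSubgroup.zmultiples (⟨z, hzT⟩ : T) := by
    rw [hzm]; exact AddSubgroup.mem_top _
  obtain ⟨n, hn⟩ := AddSubgroup.mem_zmultiples_iff.1 hmem
  -- turn the integer multiple into a natural one (mod `p`)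
  have hn' : z' = n • z := by
    have := congrArg Subtype.val hn
    simpa using this.symm
  refine ⟨(n % p).toNat, Or.inl ?_⟩
  have hpz : (p : ℤ) • z = 0 := by rw [natCast_zsmul]; exact hz
  have hdecomp : n = (n % p) + p * (n / p) := (Int.emod_add_mul_ediv n p).symm
  have hnn : 0 ≤ n % (p : ℤ) := Int.emod_nonneg _ (by exact_mod_cast hp.ne_zero)
  rw [hn']
  conv_lhs => rw [hdecomp, add_smul, mul_comm, mul_smul, hpz, smul_zero, add_zero]
  rw [← natCast_zsmul, Int.toNat_of_nonneg hnn]

/-! ### The group-cohomology statement -/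

section Cohomology

universe u

variable {k G : Type u} [CommRing k] [Group G] (A : Rep k G) (N M : Subgroup G) [N.Normal]
  [M.Normal]

/-- **(CYC-abs)**.  `infl_N = (H2InfRes A N).f`, `res_N = (H2InfRes A N).g`, `infl_M` likewise.
Hypothesis `hI1` is the `p`-primary inflation injectivity (I1) for `M` (it follows from
"`H¹(M, A)` has no `p`-torsion"). -/
theorem cyc_abs {p a : ℕ} (hp : p.Prime)
    (h1 : Limits.IsZero (groupCohomology (Rep.res N.subtype A) 1))
    (hI1 : ∀ (y : groupCohomology (A.quotientToInvariants M) 2) (b : ℕ), p ^ b • y = 0 →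
      (H2InfRes A M).f.hom y = 0 → y = 0)
    [Finite (primaryPart p (groupCohomology (A.quotientToInvariants N) 2))]
    (h3 : Nat.card (primaryPart p (groupCohomology (A.quotientToInvariants N) 2)) ∣ p ^ a)
    (Y : AddSubgroup (groupCohomology (A.quotientToInvariants M) 2))
    (hYcard : Nat.card Y = p ^ a)
    (hY : ∀ y ∈ Y, p ^ a • y = 0 ∧
      (H2InfRes A N).g.hom ((H2InfRes A M).f.hom y) = 0) :
    (∀ z ∈ primaryPart p (groupCohomology (A.quotientToInvariants N) 2),
        ∃ y ∈ Y, (H2InfRes A N).f.hom z = (H2InfRes A M).f.hom y) ∧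
      Nat.card (primaryPart p (groupCohomology (A.quotientToInvariants N) 2)) = p ^ a ∧
      (IsAddCyclic Y →
        IsAddCyclic (primaryPart p (groupCohomology (A.quotientToInvariants N) 2))) ∧
      (IsAddCyclic Y → ∀ z ∈ primaryPart p (groupCohomology (A.quotientToInvariants N) 2),
        ∀ z' ∈ primaryPart p (groupCohomology (A.quotientToInvariants N) 2),
        p • z = 0 → p • z' = 0 → ∃ n : ℕ, z' = n • z ∨ z = n • z') := by
  set iN : groupCohomology (A.quotientToInvariants N) 2 →+ groupCohomology A 2 :=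
    (H2InfRes A N).f.hom.toAddMonoidHom with hiN_def
  set iM : groupCohomology (A.quotientToInvariants M) 2 →+ groupCohomology A 2 :=
    (H2InfRes A M).f.hom.toAddMonoidHom with hiM_def
  have hiN : Function.Injective iN := inf_injective A N h1
  have hYtors : ∀ y ∈ Y, p ^ a • y = 0 := fun y hy => (hY y hy).1
  have hYinj : ∀ y ∈ Y, iM y = 0 → y = 0 := fun y hy h0 => hI1 y a (hYtors y hy) h0
  have hYrange : ∀ y ∈ Y, ∃ z, iN z = iM y := fun y hy =>
    exists_inf_eq_of_res_eq_zero A N h1 _ (hY y hy).2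
  have hcyc : IsAddCyclic Y →
      IsAddCyclic (primaryPart p (groupCohomology (A.quotientToInvariants N) 2)) :=
    isAddCyclic_primaryPart hp iN iM hiN Y hYcard hYtors hYinj hYrange h3
  refine ⟨fun z hz => ?_, ?_, hcyc, fun hc z hz z' hz' hpz hpz' => ?_⟩
  · exact exists_mem_of_mem_primaryPart hp iN iM hiN Y hYcard hYtors hYinj hYrange h3 z hz
  · exact (map_primaryPart_eq_map hp iN iM hiN Y hYcard hYtors hYinj hYrange h3).2
  · have := hcyc hc
    obtain ⟨n, hn⟩ := exists_nsmul_of_isAddCyclic hp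
      (⟨z, hz⟩ : primaryPart p (groupCohomology (A.quotientToInvariants N) 2)) ⟨z', hz'⟩
      (Subtype.ext hpz) (Subtype.ext hpz')
    refine ⟨n, ?_⟩
    rcases hn with hn | hn
    · exact Or.inl (congrArg Subtype.val hn)
    · exact Or.inr (congrArg Subtype.val hn)

/-- **(CYC-abs)** with (I1) discharged (helper1, `InfRes2P.inf_injective_of_noTorsion`):
`M` finite and `H¹(M, A)` without `p`-torsion. -/
theorem cyc_abs_of_noTorsion {p a : ℕ} (hp : p.Prime) [Finite M]
    (h1 : Limits.IsZero (groupCohomology (Rep.res N.subtype A) 1))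
    (h2 : ∀ (c : groupCohomology (Rep.res M.subtype A) 1) (m : ℕ), p ^ m • c = 0 → c = 0)
    [Finite (primaryPart p (groupCohomology (A.quotientToInvariants N) 2))]
    (h3 : Nat.card (primaryPart p (groupCohomology (A.quotientToInvariants N) 2)) ∣ p ^ a)
    (Y : AddSubgroup (groupCohomology (A.quotientToInvariants M) 2))
    (hYcard : Nat.card Y = p ^ a)
    (hY : ∀ y ∈ Y, p ^ a • y = 0 ∧
      (H2InfRes A N).g.hom ((H2InfRes A M).f.hom y) = 0) :
    (∀ z ∈ primaryPart p (groupCohomology (A.quotientToInvariants N) 2),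
        ∃ y ∈ Y, (H2InfRes A N).f.hom z = (H2InfRes A M).f.hom y) ∧
      Nat.card (primaryPart p (groupCohomology (A.quotientToInvariants N) 2)) = p ^ a ∧
      (IsAddCyclic Y →
        IsAddCyclic (primaryPart p (groupCohomology (A.quotientToInvariants N) 2))) ∧
      (IsAddCyclic Y → ∀ z ∈ primaryPart p (groupCohomology (A.quotientToInvariants N) 2),
        ∀ z' ∈ primaryPart p (groupCohomology (A.quotientToInvariants N) 2),
        p • z = 0 → p • z' = 0 → ∃ n : ℕ, z' = n • z ∨ z = n • z') :=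
  cyc_abs A N M hp h1
    (fun y b hy h0 => inf_injective_of_noTorsion A M p hp h2 y b hy h0) h3 Y hYcard hY

end Cohomology

end Fermat.Agent.GC.Tate.CycAbs
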