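/-
GATE-C / C4 leaf (Y) of helper14's RULING 8, helper74.

Wrapper of `CycAbs.cyc_abs_of_noTorsion` with `Y :=` the `p ^ a`-torsion subgroup of
`H²(G ⧸ M, A^M)`, the latter being finite CYCLIC of order divisible by `p ^ a`.

`G` a group, `N M ⊲ G`, `M` finite, `A : Rep k G`, `p` a prime:
(h1) `H¹(N, A) = 0`; (h2) `H¹(M, A)` has no `p`-torsion; (h3) the `p`-primary part of
`H²(G ⧸ N, A^N)` is finite of order dividing `p ^ a`; `H²(G ⧸ M, A^M)` is finite cyclic of order
divisible by `p ^ a`; (hres) the inflation to `G` of every `p ^ a`-torsion class of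
`H²(G ⧸ M, A^M)` restricts to `0` on `N`.  Then
(i)   every `p ^ b`-torsion class `z` of `H²(G ⧸ N, A^N)` has the same inflation to `G` as a
      `p ^ b`-torsion class `y` of `H²(G ⧸ M, A^M)`;
(ii)  the `p`-primary part of `H²(G ⧸ N, A^N)` has exactly `p ^ a` elements;
(iii) two `p`-torsion classes of `H²(G ⧸ N, A^N)` are multiples of one another;
(iv)  the `p`-primary part of `H²(G ⧸ N, A^N)` is cyclic.
-/
import Fermat.Agent.GC.Tate.CycAbs

set_option autoImplicit false

open CategoryTheory groupCohomology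

noncomputable section

namespace Fermat.Agent.GC.Tate.CycAbsTors

open Fermat.Agent.GC.Global.Devissage (primaryPart mem_primaryPart)
open Fermat.Agent.GC.Tate.InfRes2 Fermat.Agent.GC.Tate.CycAbs

/-- The `d`-torsion subgroup of an additive commutative group. -/
def torsSub (d : ℕ) (X : Type*) [AddCommGroup X] : AddSubgroup X :=
  (nsmulAddMonoidHom (α := X) d).ker

lemma mem_torsSub {d : ℕ} {X : Type*} [AddCommGroup X] {x : X} :
    x ∈ torsSub d X ↔ d • x = 0 := Iff.rfl

/-- In a finite cyclic group whose order is divisible by `d`, the `d`-torsion has `d` elements. -/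
theorem card_torsSub_of_dvd {X : Type*} [AddCommGroup X] [IsAddCyclic X] [Finite X] {d : ℕ}
    (hd : d ∣ Nat.card X) : Nat.card (torsSub d X) = d := by
  rw [torsSub, IsAddCyclic.card_nsmulAddMonoidHom_ker]
  exact Nat.gcd_eq_right hd

section Cohomology

universe u

variable {k G : Type u} [CommRing k] [Group G] (A : Rep k G) (N M : Subgroup G) [N.Normal]
  [M.Normal]

/-- **(Y)**: `cyc_abs_of_noTorsion` with `Y` the `p ^ a`-torsion of the finite cyclic group
`H²(G ⧸ M, A^M)`. -/
theorem cyc_abs_tors {p a : ℕ} (hp : p.Prime) [Finite M]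
    (h1 : Limits.IsZero (groupCohomology (Rep.res N.subtype A) 1))
    (h2 : ∀ (c : groupCohomology (Rep.res M.subtype A) 1) (m : ℕ), p ^ m • c = 0 → c = 0)
    [Finite (primaryPart p (groupCohomology (A.quotientToInvariants N) 2))]
    (h3 : Nat.card (primaryPart p (groupCohomology (A.quotientToInvariants N) 2)) ∣ p ^ a)
    [Finite (groupCohomology (A.quotientToInvariants M) 2)]
    (hcyc : IsAddCyclic (groupCohomology (A.quotientToInvariants M) 2))
    (hdvd : p ^ a ∣ Nat.card (groupCohomology (A.quotientToInvariants M) 2))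
    (hres : ∀ y : groupCohomology (A.quotientToInvariants M) 2, p ^ a • y = 0 →
      (H2InfRes A N).g.hom ((H2InfRes A M).f.hom y) = 0) :
    (∀ (z : groupCohomology (A.quotientToInvariants N) 2) (b : ℕ), p ^ b • z = 0 →
        ∃ y : groupCohomology (A.quotientToInvariants M) 2, p ^ b • y = 0 ∧
          (H2InfRes A N).f.hom z = (H2InfRes A M).f.hom y) ∧
      Nat.card (primaryPart p (groupCohomology (A.quotientToInvariants N) 2)) = p ^ a ∧
      (∀ z z' : groupCohomology (A.quotientToInvariants N) 2, p • z = 0 → p • z' = 0 →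
        ∃ n : ℕ, z' = n • z ∨ z = n • z') ∧
      IsAddCyclic (primaryPart p (groupCohomology (A.quotientToInvariants N) 2)) := by
  set Y : AddSubgroup (groupCohomology (A.quotientToInvariants M) 2) :=
    torsSub (p ^ a) (groupCohomology (A.quotientToInvariants M) 2) with hYdef
  have hYcard : Nat.card Y = p ^ a := card_torsSub_of_dvd hdvd
  have hY : ∀ y ∈ Y, p ^ a • y = 0 ∧
      (H2InfRes A N).g.hom ((H2InfRes A M).f.hom y) = 0 := fun y hy =>
    ⟨mem_torsSub.1 hy, hres y (mem_torsSub.1 hy)⟩
  have hYcyc : IsAddCyclic Y := inferInstance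
  obtain ⟨hsurj, hcard, hcycN, hmult⟩ :=
    cyc_abs_of_noTorsion A N M hp h1 h2 h3 Y hYcard hY
  refine ⟨fun z b hz => ?_, hcard, fun z z' hz hz' => ?_, hcycN hYcyc⟩
  · obtain ⟨y, hyY, hzy⟩ := hsurj z (mem_primaryPart.2 ⟨b, hz⟩)
    refine ⟨y, ?_, hzy⟩
    -- `p ^ b • y` is `p`-power torsion and dies in `H²(G, A)`, hence vanishes by (I1)
    have hpa : p ^ a • (p ^ b • y) = 0 := by
      rw [smul_comm, mem_torsSub.1 hyY, smul_zero]
    set iN : groupCohomology (A.quotientToInvariants N) 2 →+ groupCohomology A 2 :=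
      (H2InfRes A N).f.hom.toAddMonoidHom with hiN_def
    set iM : groupCohomology (A.quotientToInvariants M) 2 →+ groupCohomology A 2 :=
      (H2InfRes A M).f.hom.toAddMonoidHom with hiM_def
    have hzy' : iN z = iM y := hzy
    have hinf : iM (p ^ b • y) = 0 := by
      rw [map_nsmul, ← hzy', ← map_nsmul, hz, map_zero]
    exact inf_injective_of_noTorsion A M p hp h2 (p ^ b • y) a hpa hinf
  · exact hmult hYcyc z (mem_primaryPart.2 ⟨1, by rw [pow_one]; exact hz⟩) z'
      (mem_primaryPart.2 ⟨1, by rw [pow_one]; exact hz'⟩) hz hz'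

end Cohomology

end Fermat.Agent.GC.Tate.CycAbsTors
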