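/-
GATE-C / C4 leaf (R) RES-CYC (helper3, per helper14 RULING 8).

`G` a group, `N M ⊲ G` with `N ⊓ M = ⊥`, `G ⧸ M = ⟨σ⟩` cyclic of order `m`, `A : Rep k G`.
Let `y ∈ H²(G ⧸ M, A^M)` have periodicity invariant `b ∈ A^G` (mod `N_{G/M}(A^M)`), and suppose that
`b = ∑_{n ∈ N} n • z` is an `N`-NORM.  Then `res_N (infl_M y) = 0` in `H²(N, A)`.

Proof.  `N ↪ G ⧸ M` has image `⟨σ^d⟩`, `d * e = m`, and is generated by `τ` over `σ^d`
(`CycH2.exists_isGen_of_injective`).  The restricted inflated cocycle is the "local component"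
`f'(n₁,n₂) = f(n̄₁,n̄₂)` and `gam τ e f' = gam σ m f + N_N(y₀)` (`CycH2.exists_gam_loc_eq`);
`gam σ m f = b + N_{G/M}(c)`, and `N_{G/M}(c) = N_N(∑_{r<d} σ^r c)` is an `N`-norm
(`nrm_mul`); so `gam τ e f'` is an `N`-norm and the class dies (`H2π_eq_zero_iff_gam'`).
-/
import Mathlib
import Fermat.Agent.GC.Tate.InfRes2
import Fermat.Agent.GC.Global.WRec.PeriodDict
import Fermat.Agent.GC.Local.CycH2Loc
import Fermat.Agent.GC.Local.InvLowerField

set_option autoImplicit false
set_option linter.unusedSectionVars false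
set_option linter.style.haveILetI false

open CategoryTheory groupCohomology
open Fermat.Agent.GC.Local.CycH2 Fermat.Agent.GC.Global.WRec

noncomputable section

namespace Fermat.Agent.GC.Tate.ResCyc

section Elementary

variable {G A : Type*} [Group G] [AddCommGroup A] [DistribMulAction G A]

/-- the norm along `σ` of length `d * e` is the norm along `σ ^ d` of length `e` of the partial
norm of length `d`. -/
lemma nrm_mul (σ : G) (d e : ℕ) (y : A) :
    nrm σ (d * e) y = nrm (σ ^ d) e (nrm σ d y) := by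
  induction e with
  | zero => simp [nrm]
  | succ e ih =>
    have h1 : nrm σ (d * (e + 1)) y = nrm σ (d * e) y + ∑ r ∈ Finset.range d, σ ^ (d * e + r) • y := by
      unfold nrm
      rw [Nat.mul_succ, Finset.sum_range_add]
    have h2 : nrm (σ ^ d) (e + 1) (nrm σ d y) =
        nrm (σ ^ d) e (nrm σ d y) + (σ ^ d) ^ e • nrm σ d y := by
      unfold nrm
      rw [Finset.sum_range_succ]
    rw [h1, h2, ih]
    congr 1
    unfold nrm
    rw [Finset.smul_sum]
    refine Finset.sum_congr rfl fun r _ => ?_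
    rw [← mul_smul, ← pow_mul, ← pow_add]

end Elementary

universe u

variable {k G : Type u} [CommRing k] [Group G] (A : Rep.{u} k G) (N M : Subgroup G)
  [N.Normal] [M.Normal]

/-- `N → G ⧸ M`. -/
def decNM : N →* G ⧸ M := (QuotientGroup.mk' M).comp N.subtype

lemma decNM_apply (n : N) : decNM N M n = QuotientGroup.mk (n : G) := rfl

lemma decNM_injective (hNM : N ⊓ M = ⊥) : Function.Injective (decNM N M) := by
  rw [injective_iff_map_eq_one]
  intro n hn
  have h1 : (n : G) ∈ M := (QuotientGroup.eq_one_iff _).1 hn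
  have h2 : (n : G) ∈ N ⊓ M := ⟨n.2, h1⟩
  rw [hNM, Subgroup.mem_bot] at h2
  exact Subtype.ext h2

/-- the underlying element of `A` of an element of `A^M`, as a map to `Res_N A`. -/
def evNM : (A.quotientToInvariants M).V →ₗ[k] (Rep.res N.subtype A).V := PeriodDict.qVal A M

lemma evNM_equivariant (n : N) (a : (A.quotientToInvariants M).V) :
    evNM A N M ((A.quotientToInvariants M).ρ (decNM N M n) a) =
      (Rep.res N.subtype A).ρ n (evNM A N M a) := rfl

/-- `evNM` as a compatible pair for `decNM`. -/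
def evNMRep : Rep.res (decNM N M) (A.quotientToInvariants M) ⟶ Rep.res N.subtype A :=
  Rep.ofHom ⟨evNM A N M, fun n => LinearMap.ext fun a => evNM_equivariant A N M n a⟩

/-- `res_N ∘ infl_M` is ONE `groupCohomology.map`. -/
lemma f_comp_g :
    (InfRes2.H2InfRes A M).f ≫ (InfRes2.H2InfRes A N).g =
      groupCohomology.map (decNM N M) (evNMRep A N M) 2 := by
  have h := groupCohomology.map_comp (A := A.quotientToInvariants M) (B := A)
    (C := Rep.res N.subtype A) (QuotientGroup.mk' M) N.subtype
    (Rep.ofHom <| A.ρ.quotientToInvariants_lift M) (𝟙 _) 2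
  refine Eq.trans ?_ (h.symm.trans ?_)
  · rfl
  · apply groupCohomology.map_congr
    · rfl
    · rfl

/-- `res_N ∘ infl_M` on a cocycle is its "local component" along `N → G ⧸ M`. -/
lemma res_infl_H2π (f : cocycles₂ (A.quotientToInvariants M)) :
    (InfRes2.H2InfRes A N).g.hom ((InfRes2.H2InfRes A M).f.hom (H2π _ f)) =
      H2π (Rep.res N.subtype A) (locCocycle (dec := decNM N M) (ev := evNM A N M)
        (evNM_equivariant A N M) f) := by
  have h0 : (InfRes2.H2InfRes A N).g.hom ((InfRes2.H2InfRes A M).f.hom (H2π _ f)) =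
      (groupCohomology.map (decNM N M) (evNMRep A N M) 2).hom (H2π _ f) := by
    rw [← f_comp_g]
    rfl
  rw [h0]
  have h := H2π_comp_map_apply (decNM N M) (evNMRep A N M) f
  refine h.trans ?_
  congr 1

variable {σ : G ⧸ M} {m : ℕ}

attribute [local instance] repAction

/-- **(R) RES-CYC.** -/
theorem res_infl_eq_zero_of_norm [Fintype (G ⧸ M)] [Fintype N] (hσ : IsGen σ m)
    (hNM : N ⊓ M = ⊥) (y : H2 (A.quotientToInvariants M)) (b : A.ρ.invariants)
    (hb : PeriodDict.periodEquiv A M hσ y = Submodule.Quotient.mk b) (z : A.V)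
    (hz : ∑ n : N, A.ρ (n : G) z = (b : A.V)) :
    (InfRes2.H2InfRes A N).g.hom ((InfRes2.H2InfRes A M).f.hom y) = 0 := by
  letI := repAction (A.quotientToInvariants M)
  induction y using H2_induction_on with
  | h f =>
    rw [res_infl_H2π]
    -- a generator of `N`
    obtain ⟨τ, d, e, hτ, hτσ, hde⟩ :=
      exists_isGen_of_injective hσ (decNM N M) (decNM_injective N M hNM)
    refine (H2π_eq_zero_iff_gam' hτ _).2 ?_
    -- periodicity of the local component
    obtain ⟨y₀, hy₀⟩ := exists_gam_loc_eq (dec := decNM N M) (ev := evNM A N M)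
      (evNM_equivariant A N M) hσ f hτσ hde
    -- `gam σ m f = b + N_{G/M}(c)`
    rw [PeriodDict.periodEquiv_H2π] at hb
    have hmem : PeriodDict.invEquiv A M (gamLin hσ f) - b ∈ PeriodDict.normRange A M :=
      (Submodule.Quotient.eq _).1 hb
    obtain ⟨c, hc, hcn⟩ := (PeriodDict.mem_normRange_iff A M _).1 hmem
    have hgam : PeriodDict.qVal A M (gam σ m (f : _ × _ → (A.quotientToInvariants M).V)) =
        (b : A.V) + relNorm A.ρ M c := by
      rw [hcn]
      show _ = (b : A.V) + (PeriodDict.qVal A M (gam σ m (f : _ × _ → _)) - (b : A.V))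
      abel
    -- `N_{G/M}(c)` is an `N`-norm
    have hrel : relNorm A.ρ M c = nrmLin (Rep.res N.subtype A) τ e
        (PeriodDict.qVal A M (nrm σ d (PeriodDict.qMk A M c hc))) := by
      have h1 := PeriodDict.qVal_nrmLin A M hσ (PeriodDict.qMk A M c hc)
      rw [PeriodDict.qVal_qMk] at h1
      rw [← h1, nrmLin_apply, ← hde, nrm_mul]
      generalize nrm σ d (PeriodDict.qMk A M c hc) = w
      have hterm : ∀ i : ℕ, PeriodDict.qVal A M ((σ ^ d) ^ i • w) =
          (Rep.res N.subtype A).ρ (τ ^ i) (PeriodDict.qVal A M w) := by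
        intro i
        rw [← hτσ, ← map_pow]
        exact evNM_equivariant A N M (τ ^ i) w
      unfold nrm nrmLin
      rw [map_sum, LinearMap.sum_apply]
      exact Finset.sum_congr rfl fun i _ => hterm i
    -- `b` is an `N`-norm
    have hbN : (b : A.V) = nrmLin (Rep.res N.subtype A) τ e z := by
      rw [Fermat.Agent.GC.Local.InvLowerField.nrmLin_eq_sum (B := Rep.res N.subtype A) hτ z, ← hz]
      rfl
    refine ⟨z + PeriodDict.qVal A M (nrm σ d (PeriodDict.qMk A M c hc)) + y₀, ?_⟩
    rw [map_add, map_add, ← hbN, ← hrel]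
    have h3 : gam τ e ((locCocycle (dec := decNM N M) (ev := evNM A N M)
        (evNM_equivariant A N M) f : cocycles₂ (Rep.res N.subtype A)) : N × N → _) =
        evNM A N M (gam σ m (f : _ × _ → _)) + nrmLin (Rep.res N.subtype A) τ e y₀ := hy₀
    rw [h3]
    show PeriodDict.qVal A M (gam σ m (f : _ × _ → _)) + _ = _
    rw [hgam]

end Fermat.Agent.GC.Tate.ResCyc
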