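import Fermat.Agent.GC.Tate.InfRes2P

/-!
# GATE-C / C4 : inflation along a COMPATIBLE PAIR (helper52)

`π : G' →* G` surjective, `A : Rep k G`, `A' : Rep k G'`, `ι : Res_π A ⟶ A'` injective with image
the `ker π`-invariants of `A'`.  Then `map π ι n : Hⁿ(G, A) ⟶ Hⁿ(G', A')` is the composite of an
isomorphism `Hⁿ(G, A) ≅ Hⁿ(G' ⧸ ker π, A'^{ker π})` (`pairIso`) and the inflation of `InfRes2`:

* `pairIso_inv_comp_inf`       : `(pairIso ..).inv ≫ (H2InfRes A' (ker π)).f = map π ι 2`;
* `pair_injective_of_noTorsion` : (I1) in pair form — if `ker π` is finite and `H¹(ker π, A')` has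
  no `p`-torsion, a `p`-power torsion class of `H²(G, A)` dying in `H²(G', A')` is zero;
* `pair_injective`              : if `H¹(ker π, A') = 0`, `map π ι 2` is injective.
-/

universe u

namespace Fermat.Agent.GC.Tate.InfResPair

open CategoryTheory groupCohomology Rep Fermat.Agent.GC.Tate.InfRes2

variable {k G G' : Type u} [CommRing k] [Group G] [Group G'] (π : G' →* G)
  (hπ : Function.Surjective π) {A : Rep.{u} k G} {A' : Rep.{u} k G'} (ι : Rep.res π A ⟶ A')
  (hι : Function.Injective ι.hom)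
  (hr : ∀ a' : A', (∀ s ∈ π.ker, A'.ρ s a' = a') → ∃ a : A, ι.hom a = a')

/-- `ι a` is `ker π`-invariant. -/
lemma ι_mem_invariants (a : A) :
    ι.hom a ∈ Representation.invariants (A'.ρ.comp π.ker.subtype) := by
  intro s
  have h := Rep.hom_comm_apply ι (s : G') a
  have h1 : π (s : G') = 1 := s.2
  show A'.ρ (s : G') (ι.hom a) = ι.hom a
  rw [← h]
  show ι.hom (A.ρ (π (s : G')) a) = ι.hom a
  rw [h1, map_one]
  rfl

/-- `a ↦ ι a`, into the invariants. -/
noncomputable def toInv : A.V →ₗ[k] (A'.quotientToInvariants π.ker).V :=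
  LinearMap.codRestrict _ ι.hom.toLinearMap (ι_mem_invariants π ι)

@[simp] lemma coe_toInv (a : A) : ((toInv π ι a : (A'.quotientToInvariants π.ker).V) : A'.V) =
    ι.hom a := rfl

include hι in
lemma toInv_injective : Function.Injective (toInv π ι) := fun _ _ hab =>
  hι (congrArg Subtype.val hab)

include hr in
lemma toInv_surjective : Function.Surjective (toInv π ι) := by
  rintro ⟨a', ha'⟩
  obtain ⟨a, ha⟩ := hr a' (fun s hs => ha' ⟨s, hs⟩)
  exact ⟨a, Subtype.ext ha⟩

/-- `G' ⧸ ker π ≃* G`. -/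
noncomputable abbrev quotEquiv : G' ⧸ π.ker ≃* G :=
  QuotientGroup.quotientKerEquivOfSurjective π hπ

lemma toInv_equivariant (q : G' ⧸ π.ker) (a : A) :
    toInv π ι (A.ρ (quotEquiv π hπ q) a) = (A'.quotientToInvariants π.ker).ρ q (toInv π ι a) := by
  induction q using QuotientGroup.induction_on with | H g' =>
  apply Subtype.ext
  show ι.hom (A.ρ (π g') a) = A'.ρ g' (ι.hom a)
  exact Rep.hom_comm_apply ι g' a

/-- The invariants of `A'`, linearly identified with `A`. -/
noncomputable def invEquiv : (A'.quotientToInvariants π.ker).V ≃ₗ[k] A.V :=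
  (LinearEquiv.ofBijective (toInv π ι) ⟨toInv_injective π ι hι, toInv_surjective π ι hr⟩).symm

lemma invEquiv_symm_apply (a : A) : (invEquiv π ι hι hr).symm a = toInv π ι a := rfl

lemma invEquiv_toInv (a : A) : invEquiv π ι hι hr (toInv π ι a) = a :=
  (invEquiv π ι hι hr).apply_symm_apply a

/-- **`Hⁿ(G' ⧸ ker π, A'^{ker π}) ≅ Hⁿ(G, A)`.** -/
noncomputable def pairIso (n : ℕ) :
    groupCohomology (A'.quotientToInvariants π.ker) n ≅ groupCohomology A n :=
  mapIso (quotEquiv π hπ) (invEquiv π ι hι hr) (fun q => by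
    refine LinearMap.ext fun b => ?_
    obtain ⟨a, rfl⟩ := toInv_surjective π ι hr b
    show invEquiv π ι hι hr ((A'.quotientToInvariants π.ker).ρ q (toInv π ι a)) =
      A.ρ (quotEquiv π hπ q) (invEquiv π ι hι hr (toInv π ι a))
    rw [← toInv_equivariant π hπ ι q a, invEquiv_toInv, invEquiv_toInv]) n

/-- `map π ι` is `pairIso⁻¹` followed by inflation. -/
theorem pairIso_inv_comp_inf :
    (pairIso π hπ ι hι hr 2).inv ≫
      map (QuotientGroup.mk' π.ker) (ofHom (A'.ρ.quotientToInvariants_lift π.ker)) 2 =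
        map π ι 2 := by
  unfold pairIso
  rw [mapIso_inv, ← map_comp]
  apply groupCohomology.map_congr
  · ext g'
    rfl
  · refine LinearMap.ext fun a => ?_
    rfl

include hπ hι hr in
/-- **(I1) in pair form.** -/
theorem pair_injective_of_noTorsion (p : ℕ) [Fact p.Prime] [Finite π.ker]
    (hS : ∀ (c : groupCohomology (res π.ker.subtype A') 1) (m : ℕ), p ^ m • c = 0 → c = 0)
    (c : groupCohomology A 2) (a : ℕ) (hc : p ^ a • c = 0) (h0 : (map π ι 2).hom c = 0) :
    c = 0 := by
  set y := (pairIso π hπ ι hι hr 2).inv.hom c with hy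
  have h1 : p ^ a • y = 0 := by rw [hy, ← map_nsmul, hc, map_zero]
  have h2 : (map (QuotientGroup.mk' π.ker)
      (ofHom (A'.ρ.quotientToInvariants_lift π.ker)) 2).hom y = 0 := by
    have := congrArg (fun φ => φ.hom c) (pairIso_inv_comp_inf π hπ ι hι hr)
    simp only [ModuleCat.hom_comp, LinearMap.comp_apply] at this
    rw [hy, this, h0]
  have h3 : y = 0 := inf_injective_of_noTorsion' A' π.ker p hS y a h1 h2
  have h4 : (pairIso π hπ ι hι hr 2).hom.hom y = c := by
    rw [hy]
    exact congrArg (fun φ => φ.hom c) (pairIso π hπ ι hι hr 2).inv_hom_id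
  rw [← h4, h3, map_zero]

end Fermat.Agent.GC.Tate.InfResPair
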