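/-
GATE-C / (B5) (helper68): multiplicativity of the Herbrand quotient on short exact sequences.

Part 1 (this file, index form).  `A` an abelian group, `D N : A →+ A` with `D ∘ N = N ∘ D = 0`,
`A' ≤ A` stable under `D` and `N`.  With
  `h0 X = [ker D|X : N X]`, `h1 X = [ker N|X : D X]`  for `X = A', A` and, for `A'' = A / A'`
written inside `A`,
  `h0 A'' = [D⁻¹ A' : A' + N A]`, `h1 A'' = [N⁻¹ A' : A' + D A]`,
we prove  `h0 A * h1 A' * h1 A'' = h1 A * h0 A' * h0 A''`  (unconditionally in `ℕ`).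
-/
import Mathlib
import Fermat.Agent.S14.HerbrandAux

set_option autoImplicit false

namespace Fermat.Agent.GC.HerbExact

open Fermat.Agent.S14.HQ

variable {A : Type*} [AddCommGroup A]

/-- relative form of Lang's index lemma: `[X : Y] = [X ∩ ker f : Y ∩ ker f] * [f X : f Y]`. -/
theorem relIndex_eq_relIndex_ker_mul {B : Type*} [AddCommGroup B] (f : A →+ B)
    (Y X : AddSubgroup A) (hYX : Y ≤ X) :
    Y.relIndex X = Y.relIndex (f.ker ⊓ X) * (Y.map f).relIndex (X.map f) := by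
  have h := index_eq_relIndex_ker_mul (f.comp X.subtype) (Y.addSubgroupOf X)
  have h1 : (Y.addSubgroupOf X).index = Y.relIndex X := rfl
  have h2 : (f.comp X.subtype).ker = (f.ker ⊓ X).addSubgroupOf X := by
    rw [AddSubgroup.inf_addSubgroupOf_right]
    rfl
  have h3 : (f.comp X.subtype).range = X.map f := by
    rw [AddMonoidHom.range_comp, AddSubgroup.range_subtype]
  have h4 : (Y.addSubgroupOf X).map (f.comp X.subtype) = Y.map f := by
    rw [← AddSubgroup.map_map, AddSubgroup.addSubgroupOf_map_subtype, inf_eq_left.mpr hYX]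
  rw [h1, h2, h3, h4, AddSubgroup.relIndex_addSubgroupOf inf_le_right] at h
  exact h

variable (f g : A →+ A) (A' : AddSubgroup A)

/-- (I1) `[ker g : im f] = [ker g : im f + (ker g ∩ A')] * [ker g ∩ A' : im f ∩ A']` -/
theorem relIndex_range_ker (hgf : ∀ x, g (f x) = 0) :
    f.range.relIndex g.ker =
      (f.range ⊔ (g.ker ⊓ A')).relIndex g.ker * (f.range ⊓ A').relIndex (g.ker ⊓ A') := by
  have hfg : f.range ≤ g.ker := by
    rintro _ ⟨x, rfl⟩; exact hgf x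
  have h1 : f.range ≤ f.range ⊔ (g.ker ⊓ A') := le_sup_left
  have h2 : f.range ⊔ (g.ker ⊓ A') ≤ g.ker := sup_le hfg inf_le_left
  rw [← AddSubgroup.relIndex_mul_relIndex _ _ _ h1 h2, mul_comm]
  congr 1
  -- `[im f + Z' : im f] = [Z' : Z' ∩ im f]`
  rw [AddSubgroup.relIndex_sup_left, ← AddSubgroup.inf_relIndex_right f.range (g.ker ⊓ A')]
  congr 1
  rw [← inf_assoc, inf_eq_left.mpr hfg]

/-- (I2) `[ker g ∩ A' : f A'] = [im f ∩ A' : f A'] * [ker g ∩ A' : im f ∩ A']` -/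
theorem relIndex_map_ker (hgf : ∀ x, g (f x) = 0) (hf : A'.map f ≤ A') :
    (A'.map f).relIndex (g.ker ⊓ A') =
      (A'.map f).relIndex (f.range ⊓ A') * (f.range ⊓ A').relIndex (g.ker ⊓ A') := by
  have hfg : f.range ≤ g.ker := by
    rintro _ ⟨x, rfl⟩; exact hgf x
  have h1 : A'.map f ≤ f.range ⊓ A' := le_inf (AddSubgroup.map_le_range f A') hf
  have h2 : f.range ⊓ A' ≤ g.ker ⊓ A' := inf_le_inf_right A' hfg
  rw [AddSubgroup.relIndex_mul_relIndex _ _ _ h1 h2]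

/-- (I3) `[g⁻¹ A' : A' + im f] = [ker g : im f + (ker g ∩ A')] * [im g ∩ A' : g A']` -/
theorem relIndex_sup_comap (hgf : ∀ x, g (f x) = 0) (hg : A'.map g ≤ A') :
    (A' ⊔ f.range).relIndex (A'.comap g) =
      (f.range ⊔ (g.ker ⊓ A')).relIndex g.ker * (A'.map g).relIndex (g.range ⊓ A') := by
  have hfg : f.range ≤ g.ker := by
    rintro _ ⟨x, rfl⟩; exact hgf x
  have hker : g.ker ≤ A'.comap g := by
    intro x hx
    rw [AddSubgroup.mem_comap, (AddMonoidHom.mem_ker).mp hx]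
    exact A'.zero_mem
  have hYX : A' ⊔ f.range ≤ A'.comap g := by
    refine sup_le ?_ (hfg.trans hker)
    intro x hx
    exact hg ⟨x, hx, rfl⟩
  rw [relIndex_eq_relIndex_ker_mul g _ _ hYX, inf_eq_left.mpr hker]
  congr 1
  · -- `(A' + im f) ∩ ker g = im f + (A' ∩ ker g)` (modular law)
    rw [← AddSubgroup.inf_relIndex_right]
    congr 1
    apply le_antisymm
    · rintro x ⟨hx1, hx2⟩
      obtain ⟨a, ha, b, hb, rfl⟩ := AddSubgroup.mem_sup.mp hx1
      have hbk : b ∈ g.ker := hfg hb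
      have hak : a ∈ g.ker := by
        have : a = (a + b) - b := by abel
        rw [this]
        exact g.ker.sub_mem hx2 hbk
      exact AddSubgroup.mem_sup.mpr ⟨b, hb, a, ⟨hak, ha⟩, add_comm b a⟩
    · refine le_inf (sup_le le_sup_right (inf_le_right.trans le_sup_left)) (sup_le hfg inf_le_left)
  · -- images
    have h1 : (A' ⊔ f.range).map g = A'.map g := by
      rw [AddSubgroup.map_sup]
      have : f.range.map g = ⊥ := by
        rw [eq_bot_iff]
        rintro _ ⟨y, ⟨x, rfl⟩, rfl⟩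
        rw [AddSubgroup.mem_bot]; exact hgf x
      rw [this, sup_bot_eq]
    rw [h1, AddSubgroup.map_comap_eq]

/-- **(EH)** multiplicativity of the Herbrand quotient, index form. -/
theorem herbrand_exact (D N : A →+ A) (hDN : ∀ x, D (N x) = 0) (hND : ∀ x, N (D x) = 0)
    (hD : A'.map D ≤ A') (hN : A'.map N ≤ A') :
    N.range.relIndex D.ker * (A'.map D).relIndex (N.ker ⊓ A') *
        (A' ⊔ D.range).relIndex (A'.comap N) =
      D.range.relIndex N.ker * (A'.map N).relIndex (D.ker ⊓ A') *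
        (A' ⊔ N.range).relIndex (A'.comap D) := by
  rw [relIndex_range_ker N D A' hDN, relIndex_range_ker D N A' hND,
    relIndex_map_ker N D A' hDN hN, relIndex_map_ker D N A' hND hD,
    relIndex_sup_comap N D A' hDN hD, relIndex_sup_comap D N A' hND hN]
  ring

/-- finiteness transfer: if the four indices of `A'` and `A` are nonzero, so are those of
`A'' = A / A'`. -/
theorem herbrand_exact_ne_zero (D N : A →+ A) (hDN : ∀ x, D (N x) = 0) (hND : ∀ x, N (D x) = 0)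
    (hD : A'.map D ≤ A') (hN : A'.map N ≤ A')
    (h0A : N.range.relIndex D.ker ≠ 0) (h1A : D.range.relIndex N.ker ≠ 0)
    (h0A' : (A'.map N).relIndex (D.ker ⊓ A') ≠ 0) (h1A' : (A'.map D).relIndex (N.ker ⊓ A') ≠ 0) :
    (A' ⊔ N.range).relIndex (A'.comap D) ≠ 0 ∧ (A' ⊔ D.range).relIndex (A'.comap N) ≠ 0 := by
  rw [relIndex_range_ker N D A' hDN] at h0A
  rw [relIndex_range_ker D N A' hND] at h1A
  rw [relIndex_map_ker N D A' hDN hN] at h0A'
  rw [relIndex_map_ker D N A' hND hD] at h1A'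
  rw [relIndex_sup_comap N D A' hDN hD, relIndex_sup_comap D N A' hND hN]
  exact ⟨mul_ne_zero (left_ne_zero_of_mul h0A) (left_ne_zero_of_mul h1A'),
    mul_ne_zero (left_ne_zero_of_mul h1A) (left_ne_zero_of_mul h0A')⟩

/-! ### three-group form -/

section ThreeGroups

variable {A₁ A₂ A₃ : Type*} [AddCommGroup A₁] [AddCommGroup A₂] [AddCommGroup A₃]
  (f : A₁ →+ A₂) (π : A₂ →+ A₃) (hf : Function.Injective f) (hπ : Function.Surjective π)
  (hex : f.range = π.ker)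
  (D₁ N₁ : A₁ →+ A₁) (D₂ N₂ : A₂ →+ A₂) (D₃ N₃ : A₃ →+ A₃)
  (hfD : ∀ x, f (D₁ x) = D₂ (f x)) (hfN : ∀ x, f (N₁ x) = N₂ (f x))
  (hπD : ∀ x, π (D₂ x) = D₃ (π x)) (hπN : ∀ x, π (N₂ x) = N₃ (π x))

include hf hfD hfN in
/-- transport of the indices of `A₁` into `A₂` -/
theorem relIndex_transport_sub :
    D₁.range.relIndex N₁.ker = (f.range.map D₂).relIndex (N₂.ker ⊓ f.range) := by
  rw [← AddSubgroup.relIndex_map_map_of_injective D₁.range N₁.ker hf]
  congr 1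
  · ext y
    constructor
    · rintro ⟨_, ⟨x, rfl⟩, rfl⟩
      exact ⟨f x, ⟨x, rfl⟩, (hfD x).symm⟩
    · rintro ⟨_, ⟨x, rfl⟩, rfl⟩
      exact ⟨D₁ x, ⟨x, rfl⟩, hfD x⟩
  · ext y
    constructor
    · rintro ⟨x, hx, rfl⟩
      refine ⟨?_, ⟨x, rfl⟩⟩
      have hx' : N₁ x = 0 := hx
      show N₂ (f x) = 0
      rw [← hfN, hx', map_zero]
    · rintro ⟨hy, ⟨x, rfl⟩⟩
      refine ⟨x, ?_, rfl⟩
      show N₁ x = 0
      apply hf
      rw [hfN, map_zero]
      exact hy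

include hπ hex hπD hπN in
/-- transport of the indices of `A₃` into `A₂` -/
theorem relIndex_transport_quot :
    D₃.range.relIndex N₃.ker = (f.range ⊔ D₂.range).relIndex (f.range.comap N₂) := by
  have h1 : (D₃.range.comap π).relIndex (N₃.ker.comap π) = D₃.range.relIndex N₃.ker := by
    rw [AddSubgroup.relIndex_comap, AddSubgroup.map_comap_eq_self_of_surjective hπ]
  rw [← h1]
  congr 1
  · ext x
    rw [AddSubgroup.mem_comap]
    constructor
    · rintro ⟨z, hz⟩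
      obtain ⟨y, rfl⟩ := hπ z
      have hk : x - D₂ y ∈ π.ker := by
        rw [AddMonoidHom.mem_ker, map_sub, hπD, hz, sub_self]
      rw [← hex] at hk
      exact AddSubgroup.mem_sup.mpr ⟨x - D₂ y, hk, D₂ y, ⟨y, rfl⟩, by abel⟩
    · intro hx
      obtain ⟨a, ha, b, ⟨y, rfl⟩, rfl⟩ := AddSubgroup.mem_sup.mp hx
      rw [hex] at ha
      refine ⟨π y, ?_⟩
      rw [map_add, (AddMonoidHom.mem_ker).mp ha, zero_add, hπD]
  · ext x
    rw [AddSubgroup.mem_comap, AddSubgroup.mem_comap, hex, AddMonoidHom.mem_ker,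
      AddMonoidHom.mem_ker, hπN]

include hf hπ hex hfD hfN hπD hπN in
/-- **(EH), three-group form**: for `0 → A₁ → A₂ → A₃ → 0` exact, compatible `(Dᵢ, Nᵢ)`,
`D₂ N₂ = N₂ D₂ = 0`:  `h0 A₂ * h1 A₁ * h1 A₃ = h1 A₂ * h0 A₁ * h0 A₃`. -/
theorem herbrand_exact₃ (hDN : ∀ x, D₂ (N₂ x) = 0) (hND : ∀ x, N₂ (D₂ x) = 0) :
    N₂.range.relIndex D₂.ker * D₁.range.relIndex N₁.ker * D₃.range.relIndex N₃.ker =
      D₂.range.relIndex N₂.ker * N₁.range.relIndex D₁.ker * N₃.range.relIndex D₃.ker := by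
  have hD : f.range.map D₂ ≤ f.range := by
    rintro _ ⟨_, ⟨x, rfl⟩, rfl⟩
    exact ⟨D₁ x, hfD x⟩
  have hN : f.range.map N₂ ≤ f.range := by
    rintro _ ⟨_, ⟨x, rfl⟩, rfl⟩
    exact ⟨N₁ x, hfN x⟩
  rw [relIndex_transport_sub f hf D₁ N₁ D₂ N₂ hfD hfN,
    relIndex_transport_sub f hf N₁ D₁ N₂ D₂ hfN hfD,
    relIndex_transport_quot f π hπ hex D₂ N₂ D₃ N₃ hπD hπN,
    relIndex_transport_quot f π hπ hex N₂ D₂ N₃ D₃ hπN hπD]
  exact herbrand_exact f.range D₂ N₂ hDN hND hD hN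

include hf hπ hex hfD hfN hπD hπN in
theorem herbrand_exact₃_ne_zero (hDN : ∀ x, D₂ (N₂ x) = 0) (hND : ∀ x, N₂ (D₂ x) = 0)
    (h0₂ : N₂.range.relIndex D₂.ker ≠ 0) (h1₂ : D₂.range.relIndex N₂.ker ≠ 0)
    (h0₁ : N₁.range.relIndex D₁.ker ≠ 0) (h1₁ : D₁.range.relIndex N₁.ker ≠ 0) :
    N₃.range.relIndex D₃.ker ≠ 0 ∧ D₃.range.relIndex N₃.ker ≠ 0 := by
  have hD : f.range.map D₂ ≤ f.range := by
    rintro _ ⟨_, ⟨x, rfl⟩, rfl⟩
    exact ⟨D₁ x, hfD x⟩
  have hN : f.range.map N₂ ≤ f.range := by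
    rintro _ ⟨_, ⟨x, rfl⟩, rfl⟩
    exact ⟨N₁ x, hfN x⟩
  rw [relIndex_transport_sub f hf D₁ N₁ D₂ N₂ hfD hfN] at h1₁
  rw [relIndex_transport_sub f hf N₁ D₁ N₂ D₂ hfN hfD] at h0₁
  rw [relIndex_transport_quot f π hπ hex D₂ N₂ D₃ N₃ hπD hπN,
    relIndex_transport_quot f π hπ hex N₂ D₂ N₃ D₃ hπN hπD]
  exact herbrand_exact_ne_zero f.range D₂ N₂ hDN hND hD hN h0₂ h1₂ h0₁ h1₁

end ThreeGroups

end Fermat.Agent.GC.HerbExact
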