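/-
GATE-C / (B5) (helper68): multiplicativity of the Herbrand quotient for a finite cyclic group on a
short exact sequence of representations, in `Nat.card (groupCohomology _ i)` form.
-/
import Fermat.Agent.GC.Tate.HerbrandExact
import Fermat.Agent.GC.Tate.CyclicCard

set_option autoImplicit false
set_option linter.unusedSectionVars false

open CategoryTheory

namespace Fermat.Agent.GC.HerbExact

open Fermat.Agent.GC.CycBridge

universe u

variable {k G : Type u} [CommRing k] [Group G] [Fintype G] (g : G)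
  (hg : ∀ x, x ∈ Subgroup.zpowers g)

/-- `ρ g - 1` as an additive endomorphism -/
noncomputable def dAdd (A : Rep k G) : A.V →+ A.V := (A.ρ g - 1 : A.V →ₗ[k] A.V).toAddMonoidHom

/-- the norm as an additive endomorphism -/
noncomputable def nAdd (A : Rep k G) : A.V →+ A.V := (A.ρ.norm : A.V →ₗ[k] A.V).toAddMonoidHom

theorem dAdd_apply (A : Rep k G) (x : A.V) : dAdd g A x = A.ρ g x - x := rfl

theorem nAdd_apply (A : Rep k G) (x : A.V) : nAdd A x = ∑ h : G, A.ρ h x := by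
  simp [nAdd, Representation.norm]

include hg

theorem card_odd_eq (A : Rep k G) (i : ℕ) (hi : Odd i) :
    Nat.card (groupCohomology A i) = (dAdd g A).range.relIndex (nAdd A).ker := by
  rw [card_groupCohomology_odd_of_group A g hg i hi, LinearMap.range_toAddSubgroup,
    LinearMap.ker_toAddSubgroup]
  rfl

theorem card_even_eq (A : Rep k G) (i : ℕ) [NeZero i] (hi : Even i) :
    Nat.card (groupCohomology A i) = (nAdd A).range.relIndex (dAdd g A).ker := by
  rw [card_groupCohomology_even_of_group A g hg i hi, LinearMap.range_toAddSubgroup,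
    LinearMap.ker_toAddSubgroup]
  rfl

theorem dAdd_nAdd (A : Rep k G) (x : A.V) : dAdd g A (nAdd A x) = 0 := by
  rw [dAdd_apply, nAdd_apply, map_sum, sub_eq_zero]
  exact Fintype.sum_equiv (Equiv.mulLeft g) _ _ (fun h => by
    rw [Equiv.coe_mulLeft, map_mul]; rfl)

theorem nAdd_dAdd (A : Rep k G) (x : A.V) : nAdd A (dAdd g A x) = 0 := by
  rw [dAdd_apply, nAdd_apply]
  simp only [map_sub, Finset.sum_sub_distrib]
  rw [sub_eq_zero]
  exact Fintype.sum_equiv (Equiv.mulRight g) _ _ (fun h => by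
    rw [Equiv.coe_mulRight, map_mul]; rfl)

variable {X : ShortComplex (Rep k G)} (hX : X.ShortExact)

include hX

/-- **(EH-Rep)**: for `0 → X₁ → X₂ → X₃ → 0` short exact in `Rep k G`, `G` finite cyclic:
`|H²(X₂)| * |H¹(X₁)| * |H¹(X₃)| = |H¹(X₂)| * |H²(X₁)| * |H²(X₃)|`. -/
theorem card_H2_mul_card_H1_of_shortExact :
    Nat.card (groupCohomology X.X₂ 2) * Nat.card (groupCohomology X.X₁ 1) *
        Nat.card (groupCohomology X.X₃ 1) =
      Nat.card (groupCohomology X.X₂ 1) * Nat.card (groupCohomology X.X₁ 2) *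
        Nat.card (groupCohomology X.X₃ 2) := by
  rw [card_even_eq g hg X.X₂ 2 (by decide), card_odd_eq g hg X.X₁ 1 (by decide),
    card_odd_eq g hg X.X₃ 1 (by decide), card_odd_eq g hg X.X₂ 1 (by decide),
    card_even_eq g hg X.X₁ 2 (by decide), card_even_eq g hg X.X₃ 2 (by decide)]
  have hinj : Function.Injective X.f.hom := (Rep.mono_iff_injective X.f).1 hX.mono_f
  have hsurj : Function.Surjective X.g.hom := (Rep.epi_iff_surjective X.g).1 hX.epi_g
  have hrk : LinearMap.range X.f.hom.toLinearMap = LinearMap.ker X.g.hom.toLinearMap :=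
    (hX.exact.map (forget₂ (Rep k G) (ModuleCat k))).moduleCat_range_eq_ker
  refine herbrand_exact₃ (X.f.hom.toLinearMap.toAddMonoidHom) (X.g.hom.toLinearMap.toAddMonoidHom)
    hinj hsurj ?_ (dAdd g X.X₁) (nAdd X.X₁) (dAdd g X.X₂) (nAdd X.X₂) (dAdd g X.X₃) (nAdd X.X₃)
    ?_ ?_ ?_ ?_ (dAdd_nAdd g hg X.X₂) (nAdd_dAdd g hg X.X₂)
  · rw [← LinearMap.range_toAddSubgroup, ← LinearMap.ker_toAddSubgroup, hrk]
  · intro x
    change X.f.hom (X.X₁.ρ g x - x) = X.X₂.ρ g (X.f.hom x) - X.f.hom x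
    rw [map_sub, Rep.hom_comm_apply]
  · intro x
    change X.f.hom (nAdd X.X₁ x) = nAdd X.X₂ (X.f.hom x)
    rw [nAdd_apply, nAdd_apply, map_sum]
    exact Finset.sum_congr rfl fun h _ => Rep.hom_comm_apply _ _ _
  · intro x
    change X.g.hom (X.X₂.ρ g x - x) = X.X₃.ρ g (X.g.hom x) - X.g.hom x
    rw [map_sub, Rep.hom_comm_apply]
  · intro x
    change X.g.hom (nAdd X.X₂ x) = nAdd X.X₃ (X.g.hom x)
    rw [nAdd_apply, nAdd_apply, map_sum]
    exact Finset.sum_congr rfl fun h _ => Rep.hom_comm_apply _ _ _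

/-- finiteness transfer: `H¹, H²` of `X₁` and `X₂` finite (nonzero `Nat.card`) ⟹ those of `X₃`. -/
theorem card_ne_zero_of_shortExact
    (h1₁ : Nat.card (groupCohomology X.X₁ 1) ≠ 0) (h2₁ : Nat.card (groupCohomology X.X₁ 2) ≠ 0)
    (h1₂ : Nat.card (groupCohomology X.X₂ 1) ≠ 0) (h2₂ : Nat.card (groupCohomology X.X₂ 2) ≠ 0) :
    Nat.card (groupCohomology X.X₃ 1) ≠ 0 ∧ Nat.card (groupCohomology X.X₃ 2) ≠ 0 := by
  rw [card_odd_eq g hg X.X₁ 1 (by decide)] at h1₁
  rw [card_even_eq g hg X.X₁ 2 (by decide)] at h2₁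
  rw [card_odd_eq g hg X.X₂ 1 (by decide)] at h1₂
  rw [card_even_eq g hg X.X₂ 2 (by decide)] at h2₂
  rw [card_odd_eq g hg X.X₃ 1 (by decide), card_even_eq g hg X.X₃ 2 (by decide)]
  have hinj : Function.Injective X.f.hom := (Rep.mono_iff_injective X.f).1 hX.mono_f
  have hsurj : Function.Surjective X.g.hom := (Rep.epi_iff_surjective X.g).1 hX.epi_g
  have hrk : LinearMap.range X.f.hom.toLinearMap = LinearMap.ker X.g.hom.toLinearMap :=
    (hX.exact.map (forget₂ (Rep k G) (ModuleCat k))).moduleCat_range_eq_ker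
  refine (herbrand_exact₃_ne_zero (X.f.hom.toLinearMap.toAddMonoidHom)
    (X.g.hom.toLinearMap.toAddMonoidHom)
    hinj hsurj ?_ (dAdd g X.X₁) (nAdd X.X₁) (dAdd g X.X₂) (nAdd X.X₂) (dAdd g X.X₃) (nAdd X.X₃)
    ?_ ?_ ?_ ?_ (dAdd_nAdd g hg X.X₂) (nAdd_dAdd g hg X.X₂) h2₂ h1₂ h2₁ h1₁).symm
  · rw [← LinearMap.range_toAddSubgroup, ← LinearMap.ker_toAddSubgroup, hrk]
  · intro x
    change X.f.hom (X.X₁.ρ g x - x) = X.X₂.ρ g (X.f.hom x) - X.f.hom x
    rw [map_sub, Rep.hom_comm_apply]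
  · intro x
    change X.f.hom (nAdd X.X₁ x) = nAdd X.X₂ (X.f.hom x)
    rw [nAdd_apply, nAdd_apply, map_sum]
    exact Finset.sum_congr rfl fun h _ => Rep.hom_comm_apply _ _ _
  · intro x
    change X.g.hom (X.X₂.ρ g x - x) = X.X₃.ρ g (X.g.hom x) - X.g.hom x
    rw [map_sub, Rep.hom_comm_apply]
  · intro x
    change X.g.hom (nAdd X.X₂ x) = nAdd X.X₃ (X.g.hom x)
    rw [nAdd_apply, nAdd_apply, map_sum]
    exact Finset.sum_congr rfl fun h _ => Rep.hom_comm_apply _ _ _

end Fermat.Agent.GC.HerbExact
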