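import Fermat.Agent.GC.Tate.InfRes2
import Fermat.Agent.GC.Global.Devissage

/-!
# Discharging the `InfRes2` hypothesis of `GC/Global/Devissage.lean`

`Fermat.Agent.GC.Global.Devissage.InfRes2 k` is the elementwise form of degree-2
inflation–restriction; it is a theorem by `GC/Tate/InfRes2.lean`.
-/

universe u

namespace Fermat.Agent.GC.Tate.InfRes2

open CategoryTheory groupCohomology Rep

/-- helper11's hypothesis `Devissage.InfRes2 k` holds for every commutative ring `k`. -/
theorem infRes2 (k : Type u) [CommRing k] : Fermat.Agent.GC.Global.Devissage.InfRes2 k := by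
  intro G _ A S _ h
  refine ⟨inf_injective A S h, fun x hx => ?_⟩
  exact exists_inf_eq_of_res_eq_zero A S h x hx

end Fermat.Agent.GC.Tate.InfRes2
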