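/-
GATE-C / C2 TATE (helper25): a constructor for class modules from CARDINALITIES.

If `H¹(H, C) = 0` and `|H²(H, C)| = |H|` for every subgroup `H ≤ G`, `|H²(G, C)| = |G|` and
`u` generates `H²(G, C)`, then `(C, u)` is a class module: `res_H u` generates `H²(H, C)`
(because `cor ∘ res = [G : H]`).  Consequently `H³(H, C) = 0` for every subgroup `H`.
-/
import Fermat.Agent.GC.Tate.Final
import Fermat.Agent.GC.Tate.CorRes

set_option autoImplicit false

namespace Fermat.Agent.GC.Tate

open CategoryTheory groupCohomology Limits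

variable {G : Type} [Group G] [Finite G]

/-- If `u` generates `H²(G, C)`, which has `|G|` elements, and `|H²(H, C)| = |H|`, then
`res_H u` generates `H²(H, C)`. -/
lemma res_generates_of_card (C : Rep ℤ G) (u : H2 C) (hu : ∀ x : H2 C, ∃ n : ℤ, x = n • u)
    (hG : Nat.card (H2 C) = Nat.card G) (H : Subgroup G)
    (hH : Nat.card (H2 (resSub C H)) = Nat.card H) (x : H2 (resSub C H)) :
    ∃ n : ℤ, x = n • (resH2 C H).hom u := by
  set r : H2 (resSub C H) := (resH2 C H).hom u with hr
  have hfinH : Finite (H2 (resSub C H)) :=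
    Nat.finite_of_card_ne_zero (by rw [hH]; exact Nat.card_pos.ne')
  have hfinG : Finite (H2 C) :=
    Nat.finite_of_card_ne_zero (by rw [hG]; exact Nat.card_pos.ne')
  -- the order of `u` is `|G|`
  have htop : AddSubgroup.zmultiples u = ⊤ := by
    rw [eq_top_iff]
    intro x _
    obtain ⟨n, hn⟩ := hu x
    rw [hn]
    exact AddSubgroup.zsmul_mem _ (AddSubgroup.mem_zmultiples u) n
  have hordu : addOrderOf u = Nat.card G := by
    rw [← Nat.card_zmultiples, htop, ← hG]
    exact Nat.card_congr AddSubgroup.topEquiv.toEquiv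
  -- the order of `r` divides `|H|`
  have h1 : addOrderOf r ∣ Nat.card H :=
    addOrderOf_dvd_iff_nsmul_eq_zero.2 (card_nsmul_groupCohomology_eq_zero (resSub C H) 1 r)
  -- `|H|` divides the order of `r`
  have h2 : Nat.card H ∣ addOrderOf r := by
    have hres : (groupCohomology.map H.subtype (𝟙 (Rep.res H.subtype C)) 2).hom
        (addOrderOf r • u) = 0 := by
      rw [map_nsmul]
      exact addOrderOf_nsmul_eq_zero r
    have h3 := index_nsmul_eq_zero_of_res_eq_zero H C 2 (addOrderOf r • u) hres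
    rw [← mul_nsmul'] at h3
    have h4 : Nat.card G ∣ H.index * addOrderOf r := by
      rw [← hordu]
      exact addOrderOf_dvd_iff_nsmul_eq_zero.2 h3
    rw [← Subgroup.index_mul_card H] at h4
    exact Nat.dvd_of_mul_dvd_mul_left (Nat.pos_of_ne_zero H.index_ne_zero_of_finite) h4
  have hordr : addOrderOf r = Nat.card H := Nat.dvd_antisymm h1 h2
  have htopr : AddSubgroup.zmultiples r = ⊤ := by
    apply AddSubgroup.eq_top_of_card_eq
    rw [Nat.card_zmultiples, hordr, hH]
  have hx : x ∈ AddSubgroup.zmultiples r := htopr ▸ AddSubgroup.mem_top x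
  obtain ⟨n, hn⟩ := AddSubgroup.mem_zmultiples_iff.1 hx
  exact ⟨n, hn.symm⟩

/-- Constructor of class modules from cardinalities. -/
def ClassModule.ofCard (C : Rep ℤ G) (u : H2 C) (hu : ∀ x : H2 C, ∃ n : ℤ, x = n • u)
    (hG : Nat.card (H2 C) = Nat.card G)
    (h1 : ∀ H : Subgroup G, Subsingleton (H1 (resSub C H)))
    (h2 : ∀ H : Subgroup G, Nat.card (H2 (resSub C H)) = Nat.card H) : ClassModule G where
  C := C
  u := u
  h1 := h1
  h2_card := h2
  h2_gen := fun H x => res_generates_of_card C u hu hG H (h2 H) x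

/-- `H³(H, C) = 0` for every subgroup `H`, as soon as `H¹(H, C) = 0`, `|H²(H, C)| = |H|` for all
subgroups `H`, `|H²(G, C)| = |G|` and `H²(G, C)` is cyclic. -/
theorem isZero_H3_of_card (C : Rep ℤ G) (u : H2 C) (hu : ∀ x : H2 C, ∃ n : ℤ, x = n • u)
    (hG : Nat.card (H2 C) = Nat.card G)
    (h1 : ∀ H : Subgroup G, Subsingleton (H1 (resSub C H)))
    (h2 : ∀ H : Subgroup G, Nat.card (H2 (resSub C H)) = Nat.card H) (H : Subgroup G) :
    IsZero (groupCohomology (resSub C H) 3) :=
  (ClassModule.ofCard C u hu hG h1 h2).isZero_H3 H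

/-- A class of order `|G|` in a group `H²(G, C)` with `|G|` elements generates it. -/
lemma generates_of_addOrderOf (C : Rep ℤ G) (u : H2 C) (hG : Nat.card (H2 C) = Nat.card G)
    (hord : addOrderOf u = Nat.card G) (x : H2 C) : ∃ n : ℤ, x = n • u := by
  have hfinG : Finite (H2 C) :=
    Nat.finite_of_card_ne_zero (by rw [hG]; exact Nat.card_pos.ne')
  have htop : AddSubgroup.zmultiples u = ⊤ := by
    apply AddSubgroup.eq_top_of_card_eq
    rw [Nat.card_zmultiples, hord, hG]
  have hx : x ∈ AddSubgroup.zmultiples u := htop ▸ AddSubgroup.mem_top x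
  obtain ⟨n, hn⟩ := AddSubgroup.mem_zmultiples_iff.1 hx
  exact ⟨n, hn.symm⟩

/-- Same, with a class `u` of order `|G|`. -/
theorem isZero_H3_of_card_of_addOrderOf (C : Rep ℤ G) (u : H2 C)
    (hord : addOrderOf u = Nat.card G) (hG : Nat.card (H2 C) = Nat.card G)
    (h1 : ∀ H : Subgroup G, Subsingleton (H1 (resSub C H)))
    (h2 : ∀ H : Subgroup G, Nat.card (H2 (resSub C H)) = Nat.card H) (H : Subgroup G) :
    IsZero (groupCohomology (resSub C H) 3) :=
  isZero_H3_of_card C u (generates_of_addOrderOf C u hG hord) hG h1 h2 H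

/-- Same, with cyclicity of `H²(G, C)` as an `IsAddCyclic` hypothesis. -/
theorem isZero_H3_of_card_of_isAddCyclic (C : Rep ℤ G) (hcyc : IsAddCyclic (H2 C))
    (hG : Nat.card (H2 C) = Nat.card G)
    (h1 : ∀ H : Subgroup G, Subsingleton (H1 (resSub C H)))
    (h2 : ∀ H : Subgroup G, Nat.card (H2 (resSub C H)) = Nat.card H) (H : Subgroup G) :
    IsZero (groupCohomology (resSub C H) 3) := by
  obtain ⟨u, hu⟩ := hcyc.exists_generator
  refine isZero_H3_of_card C u (fun x => ?_) hG h1 h2 H
  obtain ⟨n, hn⟩ := AddSubgroup.mem_zmultiples_iff.1 (hu x)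
  exact ⟨n, hn.symm⟩

end Fermat.Agent.GC.Tate
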