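import Fermat.Agent.GC.Tate.CorRes

/-!
# GATE-C / C2 : SHIFT KIT — dimension shifting for all subgroups simultaneously

Mathlib `groupCohomology`, `{k G : Type u}`, `A : Rep.{u} k G`, `H : Subgroup G`.
`env A = Coind_1^G Res_1 A` (from `CorRes.lean`).

* `mackeyIso H B : Res_H Coind_1^G B ≅ Coind_1^H Fun(G/H, B)` (Mackey for `Coind_1^G`);
* (S1) `isZero_groupCohomology_res_env H A m : IsZero (Hᵐ⁺¹(H, Res_H env A))`
  (`env A` is acyclic for EVERY subgroup);
* (S2) `up A := env A / A` (`= (envSES A).X₃`), `res_envSES_shortExact`, `upδ`, `isIso_upδ`,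
  `upIso H A m : Hᵐ⁺¹(H, up A) ≅ Hᵐ⁺²(H, A)`, `epi_upδ_zero`;
* (S3) `[Finite G]` `dn A := ker (coindTrace ⊥ A : env A ⟶ A)` (`= (dnSES A).X₁`),
  `epi_coindTrace_bot`, `dnSES_shortExact`, `res_dnSES_shortExact`, `dnδ`, `isIso_dnδ`,
  `dnIso H A m : Hᵐ⁺¹(H, A) ≅ Hᵐ⁺²(H, dn A)`.
-/

namespace Fermat.Agent.GC.Tate

open CategoryTheory groupCohomology Rep Limits

universe u

variable {k G : Type u} [CommRing k] [Group G] (H : Subgroup G)

/-- The `H`-component of `g` in the decomposition `g = (gH).out * h`. -/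
noncomputable def hPart (g : G) : H :=
  ⟨((QuotientGroup.mk g : G ⧸ H).out)⁻¹ * g,
    QuotientGroup.leftRel_apply.mp (Quotient.exact' (QuotientGroup.out_eq' (QuotientGroup.mk g)))⟩

lemma out_mul_hPart (g : G) : (QuotientGroup.mk g : G ⧸ H).out * (hPart H g : G) = g := by
  simp [hPart]

lemma mk_out_mul (q : G ⧸ H) (h : H) : (QuotientGroup.mk (q.out * (h : G)) : G ⧸ H) = q := by
  rw [QuotientGroup.mk_mul_of_mem _ h.2, QuotientGroup.out_eq']

lemma hPart_out_mul (q : G ⧸ H) (h : H) : hPart H (q.out * (h : G)) = h := by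
  apply Subtype.ext
  simp only [hPart]
  rw [mk_out_mul]
  simp

/-- The coefficient module for the Mackey decomposition of `Res_H Coind_1^G B`. -/
noncomputable abbrev mackeyCoeff (B : Rep.{u} k (⊥ : Subgroup G)) : Rep.{u} k (⊥ : Subgroup H) :=
  Rep.trivial k (⊥ : Subgroup H) ((G ⧸ H) → B)

/-- `Res_H Coind_1^G B ⟶ Coind_1^H (Fun(G/H, B))`, `f ↦ (h ↦ (q ↦ f (q.out * h)))`. -/
noncomputable def mackeyHom (B : Rep.{u} k (⊥ : Subgroup G)) :
    res H.subtype (coind (⊥ : Subgroup G).subtype B) ⟶
      coind (⊥ : Subgroup H).subtype (mackeyCoeff H B) :=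
  Rep.ofHom ⟨
    { toFun := fun f => ⟨fun h q => f.1 (q.out * (h : G)), by
        intro x h
        have hx : x = 1 := Subsingleton.elim _ _
        subst hx
        simp⟩
      map_add' := fun _ _ => rfl
      map_smul' := fun _ _ => rfl }, fun h' => by
    ext f h q
    change f.1 (q.out * (h : G) * (h' : G)) = f.1 (q.out * ((h * h' : H) : G))
    rw [Subgroup.coe_mul, mul_assoc]⟩

/-- `Coind_1^H (Fun(G/H, B)) ⟶ Res_H Coind_1^G B`, `F ↦ (g ↦ F (hPart g) (gH))`. -/
noncomputable def mackeyInv (B : Rep.{u} k (⊥ : Subgroup G)) :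
    coind (⊥ : Subgroup H).subtype (mackeyCoeff H B) ⟶
      res H.subtype (coind (⊥ : Subgroup G).subtype B) :=
  Rep.ofHom ⟨
    { toFun := fun F => ⟨fun g => F.1 (hPart H g) (QuotientGroup.mk g), by
        intro x g
        have hx : x = 1 := Subsingleton.elim _ _
        subst hx
        simp⟩
      map_add' := fun _ _ => rfl
      map_smul' := fun _ _ => rfl }, fun h' => by
    ext F g
    change F.1 (hPart H g * h') (QuotientGroup.mk g) =
      F.1 (hPart H (g * (h' : G))) (QuotientGroup.mk (g * (h' : G)))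
    have h1 : (QuotientGroup.mk (g * (h' : G)) : G ⧸ H) = QuotientGroup.mk g :=
      QuotientGroup.mk_mul_of_mem _ h'.2
    have h2 : hPart H (g * (h' : G)) = hPart H g * h' := by
      apply Subtype.ext
      simp only [hPart, Subgroup.coe_mul]
      rw [h1, mul_assoc]
    rw [h1, h2]⟩

lemma mackeyHom_comp_mackeyInv (B : Rep.{u} k (⊥ : Subgroup G)) :
    mackeyHom H B ≫ mackeyInv H B = 𝟙 _ := by
  ext f g
  change f.1 ((QuotientGroup.mk g : G ⧸ H).out * (hPart H g : G)) = f.1 g
  rw [out_mul_hPart]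

lemma mackeyInv_comp_mackeyHom (B : Rep.{u} k (⊥ : Subgroup G)) :
    mackeyInv H B ≫ mackeyHom H B = 𝟙 _ := by
  ext F h q
  change F.1 (hPart H (q.out * (h : G))) (QuotientGroup.mk (q.out * (h : G))) = F.1 h q
  rw [hPart_out_mul, mk_out_mul]

/-- Mackey for `Coind_1^G`: `Res_H Coind_1^G B ≅ Coind_1^H Fun(G/H, B)`. -/
noncomputable def mackeyIso (B : Rep.{u} k (⊥ : Subgroup G)) :
    res H.subtype (coind (⊥ : Subgroup G).subtype B) ≅
      coind (⊥ : Subgroup H).subtype (mackeyCoeff H B) where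
  hom := mackeyHom H B
  inv := mackeyInv H B
  hom_inv_id := mackeyHom_comp_mackeyInv H B
  inv_hom_id := mackeyInv_comp_mackeyHom H B

/-- `Coind_1^G B` is acyclic for every subgroup `H ≤ G`. -/
theorem isZero_groupCohomology_res_coind_bot (B : Rep.{u} k (⊥ : Subgroup G)) (m : ℕ) :
    IsZero (groupCohomology (res H.subtype (coind (⊥ : Subgroup G).subtype B)) (m + 1)) := by
  have h1 : IsZero (groupCohomology (coind (⊥ : Subgroup H).subtype (mackeyCoeff H B)) (m + 1)) :=
    (isZero_groupCohomology_succ_of_subsingleton _ m).of_iso (coindIso _ (m + 1))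
  exact h1.of_iso ((groupCohomology.functor k H (m + 1)).mapIso (mackeyIso H B))

/-- The envelope `env A` is acyclic for every subgroup. -/
theorem isZero_groupCohomology_res_env (A : Rep.{u} k G) (m : ℕ) :
    IsZero (groupCohomology (res H.subtype (env A)) (m + 1)) :=
  isZero_groupCohomology_res_coind_bot H _ m

/-! ### Up-shift -/

/-- The up-shift `up A = env A / A`. -/
noncomputable abbrev up (A : Rep.{u} k G) : Rep.{u} k G := (envSES A).X₃

/-- The envelope sequence restricted to `H` is short exact. -/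
lemma res_envSES_shortExact (A : Rep.{u} k G) :
    ((envSES A).map (resFunctor H.subtype)).ShortExact :=
  (Rep.shortExact_res H.subtype).2 (envSES_shortExact A)

/-- The connecting map `Hᵐ⁺¹(H, up A) ⟶ Hᵐ⁺²(H, A)` of the envelope sequence. -/
noncomputable def upδ (A : Rep.{u} k G) (m : ℕ) :
    groupCohomology (res H.subtype (up A)) (m + 1) ⟶ groupCohomology (res H.subtype A) (m + 2) :=
  δ (res_envSES_shortExact H A) (m + 1) (m + 2) rfl

instance isIso_upδ (A : Rep.{u} k G) (m : ℕ) : IsIso (upδ H A m) :=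
  isIso_δ_of_isZero (res_envSES_shortExact H A) (m + 1)
    (isZero_groupCohomology_res_env H A m) (isZero_groupCohomology_res_env H A (m + 1))

/-- Dimension shifting up: `Hᵐ⁺¹(H, up A) ≅ Hᵐ⁺²(H, A)` for every subgroup `H`. -/
noncomputable def upIso (A : Rep.{u} k G) (m : ℕ) :
    groupCohomology (res H.subtype (up A)) (m + 1) ≅ groupCohomology (res H.subtype A) (m + 2) :=
  asIso (upδ H A m)

/-- In degree `0 → 1` the connecting map is (only) an epimorphism. -/
lemma epi_upδ_zero (A : Rep.{u} k G) :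
    Epi (δ (res_envSES_shortExact H A) 0 1 rfl) :=
  epi_δ_of_isZero (res_envSES_shortExact H A) 0 (isZero_groupCohomology_res_env H A 0)

/-! ### Down-shift (finite `G`) -/

section Down

variable [Finite G]

attribute [local instance] Subgroup.fintypeQuotientOfFiniteIndex

open Classical in
/-- The function `G → A` supported at `1` with value `a`, as an element of `env A`. -/
noncomputable def envDelta (A : Rep.{u} k G) (a : A) : env A :=
  ⟨fun g => if g = 1 then a else 0, by
    intro x g
    have hx : x = 1 := Subsingleton.elim _ _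
    subst hx
    simp⟩

lemma coindTrace_envDelta (A : Rep.{u} k G) (a : A) :
    (coindTrace (⊥ : Subgroup G) A).hom (envDelta A a) = a := by
  classical
  rw [coindTrace_hom_apply]
  rw [Finset.sum_eq_single (QuotientGroup.mk (1 : G) : G ⧸ (⊥ : Subgroup G))]
  · rw [twistFun_out]
    simp [twistFun, envDelta]
  · intro q _ hq
    have hne : q.out ≠ 1 := by
      intro h1
      apply hq
      rw [← QuotientGroup.out_eq' q, h1]
    simp [twistFun, envDelta, hne]
  · intro h
    exact absurd (Finset.mem_univ _) h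

instance epi_coindTrace_bot (A : Rep.{u} k G) : Epi (coindTrace (⊥ : Subgroup G) A) := by
  rw [Rep.epi_iff_surjective]
  intro a
  exact ⟨envDelta A a, coindTrace_envDelta A a⟩

/-- The down-shift short complex `dn A ⟶ env A ⟶ A`. -/
noncomputable def dnSES (A : Rep.{u} k G) : ShortComplex (Rep.{u} k G) :=
  ShortComplex.kernelSequence (coindTrace (⊥ : Subgroup G) A)

/-- The down-shift `dn A = ker (trace : env A ⟶ A)`. -/
noncomputable abbrev dn (A : Rep.{u} k G) : Rep.{u} k G := (dnSES A).X₁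

lemma dnSES_shortExact (A : Rep.{u} k G) : (dnSES A).ShortExact :=
  ShortComplex.ShortExact.mk' (ShortComplex.kernelSequence_exact _)
    (by dsimp [dnSES, ShortComplex.kernelSequence]; infer_instance)
    (by dsimp [dnSES, ShortComplex.kernelSequence]; infer_instance)

lemma res_dnSES_shortExact (A : Rep.{u} k G) :
    ((dnSES A).map (resFunctor H.subtype)).ShortExact :=
  (Rep.shortExact_res H.subtype).2 (dnSES_shortExact A)

/-- The connecting map `Hᵐ⁺¹(H, A) ⟶ Hᵐ⁺²(H, dn A)`. -/
noncomputable def dnδ (A : Rep.{u} k G) (m : ℕ) :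
    groupCohomology (res H.subtype A) (m + 1) ⟶ groupCohomology (res H.subtype (dn A)) (m + 2) :=
  δ (res_dnSES_shortExact H A) (m + 1) (m + 2) rfl

instance isIso_dnδ (A : Rep.{u} k G) (m : ℕ) : IsIso (dnδ H A m) :=
  isIso_δ_of_isZero (res_dnSES_shortExact H A) (m + 1)
    (isZero_groupCohomology_res_env H A m) (isZero_groupCohomology_res_env H A (m + 1))

/-- Dimension shifting down: `Hᵐ⁺¹(H, A) ≅ Hᵐ⁺²(H, dn A)` for every subgroup `H`. -/
noncomputable def dnIso (A : Rep.{u} k G) (m : ℕ) :
    groupCohomology (res H.subtype A) (m + 1) ≅ groupCohomology (res H.subtype (dn A)) (m + 2) :=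
  asIso (dnδ H A m)

end Down

end Fermat.Agent.GC.Tate
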