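import Fermat.Agent.GC.Tate.Shift

/-!
# GATE-C / C2 : SHIFT KIT (S3), degree-1 statement — `H¹(H, dn A) = 0 ↔ A^H = N_H A`

`[Finite G]`, `A : Rep.{u} k G`, `H : Subgroup G`, `dn A = ker (trace : env A ⟶ A)`.

* `coindTrace_bot_apply : (coindTrace ⊥ A).hom f = ∑ g : G, A.ρ g (f.1 g⁻¹)`;
* `envInd H A b : env A` (`b · 1_H`), `envInd_invariant`, `coindTrace_envInd : trace = ∑ h : H, h b`;
* `coindTrace_of_invariant` : the trace of an `H`-invariant function is an `H`-norm;
* `isZero_H1_dn_iff_surjective`, `H0Iso_H0trace_apply`;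
* `isZero_H1_dn_iff [Fintype H] : IsZero (H¹(H, dn A)) ↔
    ∀ a, (∀ h : H, A.ρ h a = a) → ∃ b, ∑ h : H, A.ρ h b = a`.
-/

namespace Fermat.Agent.GC.Tate

open CategoryTheory groupCohomology Rep Limits

universe u

variable {k G : Type u} [CommRing k] [Group G] [Finite G]

attribute [local instance] Subgroup.fintypeQuotientOfFiniteIndex

omit [Finite G] in
lemma mk_bot_bijective : Function.Bijective (QuotientGroup.mk : G → G ⧸ (⊥ : Subgroup G)) := by
  refine ⟨fun a b hab => ?_, QuotientGroup.mk_surjective⟩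
  have := QuotientGroup.eq.1 hab
  rw [Subgroup.mem_bot] at this
  exact (inv_mul_eq_one.1 this)

/-- The trace `env A ⟶ A` as a sum over the group. -/
lemma coindTrace_bot_apply [Fintype G] (A : Rep.{u} k G) (f : env A) :
    (coindTrace (⊥ : Subgroup G) A).hom f = ∑ g : G, A.ρ g (f.1 g⁻¹) := by
  rw [coindTrace_hom_apply]
  rw [← Equiv.sum_comp (Equiv.ofBijective _ (mk_bot_bijective (G := G)))
    (fun q => twistFun (⊥ : Subgroup G) A f q.out)]
  refine Finset.sum_congr rfl fun g _ => ?_
  rw [Equiv.ofBijective_apply, twistFun_out]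
  rfl

variable (H : Subgroup G)

open Classical in
/-- The function `b · 1_H ∈ env A`. -/
noncomputable def envInd (A : Rep.{u} k G) (b : A) : env A :=
  ⟨fun g => if g ∈ H then b else 0, by
    intro x g
    have hx : x = 1 := Subsingleton.elim _ _
    subst hx
    simp⟩

omit [Finite G] in
lemma envInd_invariant (A : Rep.{u} k G) (b : A) (h : H) :
    (env A).ρ (h : G) (envInd H A b) = envInd H A b := by
  classical
  apply Subtype.ext
  funext g
  change (envInd H A b).1 (g * (h : G)) = (envInd H A b).1 g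
  have : g * (h : G) ∈ H ↔ g ∈ H := Subgroup.mul_mem_cancel_right H h.2
  change (if g * (h : G) ∈ H then b else 0) = (if g ∈ H then b else 0)
  simp only [this]

lemma coindTrace_envInd [Fintype G] [Fintype H] (A : Rep.{u} k G) (b : A) :
    (coindTrace (⊥ : Subgroup G) A).hom (envInd H A b) = ∑ h : H, A.ρ (h : G) b := by
  classical
  rw [coindTrace_bot_apply]
  have h1 : ∀ g : G, A.ρ g ((envInd H A b).1 g⁻¹) = if g ∈ H then A.ρ g b else 0 := by
    intro g
    simp only [envInd, inv_mem_iff]
    split_ifs <;> simp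
  rw [Finset.sum_congr rfl fun g _ => h1 g, ← Finset.sum_filter]
  rw [← Finset.sum_subtype (p := fun g => g ∈ H) (Finset.univ.filter (· ∈ H)) (by simp)
    (fun g => A.ρ g b)]

/-- `G ≃ (G ⧸ H) × H`, `g ↦ (gH, hPart g)`, inverse `(q, h) ↦ q.out * h`. -/
noncomputable def cosetProdEquiv : (G ⧸ H) × H ≃ G where
  toFun p := p.1.out * (p.2 : G)
  invFun g := (QuotientGroup.mk g, hPart H g)
  left_inv p := by
    rcases p with ⟨q, h⟩
    simp only [mk_out_mul, hPart_out_mul]
  right_inv g := out_mul_hPart H g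

lemma coindTrace_of_invariant [Fintype G] [Fintype H] (A : Rep.{u} k G) (f : env A)
    (hf : ∀ h : H, (env A).ρ (h : G) f = f) :
    (coindTrace (⊥ : Subgroup G) A).hom f =
      ∑ h : H, A.ρ (h : G) (∑ q : G ⧸ H, A.ρ (q.out)⁻¹ (f.1 q.out)) := by
  have hf' : ∀ (g : G) (h : H), f.1 (g * (h : G)) = f.1 g := by
    intro g h
    have := congrArg (fun F => F.1 g) (hf h)
    exact this
  rw [coindTrace_bot_apply]
  -- reindex `g ↦ g⁻¹`
  rw [← Equiv.sum_comp (Equiv.inv G) (fun g => A.ρ g (f.1 g⁻¹))]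
  simp only [Equiv.inv_apply, inv_inv]
  -- reindex over `(G ⧸ H) × H`
  rw [← Equiv.sum_comp (cosetProdEquiv H) (fun x => A.ρ x⁻¹ (f.1 x))]
  rw [Fintype.sum_prod_type, Finset.sum_comm]
  rw [← Equiv.sum_comp (Equiv.inv H)
    (fun h : H => A.ρ (h : G) (∑ q : G ⧸ H, A.ρ (q.out)⁻¹ (f.1 q.out)))]
  refine Finset.sum_congr rfl fun h _ => ?_
  rw [Equiv.inv_apply, map_sum]
  refine Finset.sum_congr rfl fun q _ => ?_
  change A.ρ (q.out * (h : G))⁻¹ (f.1 (q.out * (h : G))) = _
  rw [hf', mul_inv_rev, map_mul]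
  rfl

/-- The trace restricted to `H`. -/
noncomputable def resTrace (A : Rep.{u} k G) : res H.subtype (env A) ⟶ res H.subtype A :=
  (resFunctor H.subtype).map (coindTrace (⊥ : Subgroup G) A)

/-- `H⁰(H, env A) ⟶ H⁰(H, A)` induced by the trace. -/
noncomputable def H0trace (A : Rep.{u} k G) :
    groupCohomology (res H.subtype (env A)) 0 ⟶ groupCohomology (res H.subtype A) 0 :=
  map (MonoidHom.id H) (resTrace H A) 0

/-- Step A: `H¹(H, dn A) = 0` iff `H⁰(H, env A) ⟶ H⁰(H, A)` is surjective. -/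
lemma isZero_H1_dn_iff_surjective (A : Rep.{u} k G) :
    IsZero (groupCohomology (res H.subtype (dn A)) 1) ↔
      Function.Surjective (H0trace H A) := by
  have hX := res_dnSES_shortExact H A
  have hδ : Function.Surjective (δ hX 0 1 rfl) :=
    (ModuleCat.epi_iff_surjective _).1
      (epi_δ_of_isZero hX 0 (isZero_groupCohomology_res_env H A 0))
  have hex := mapShortComplex₃_exact hX (i := 0) (j := 1) rfl
  rw [ShortComplex.moduleCat_exact_iff] at hex
  have hzero := (mapShortComplex₃ hX (i := 0) (j := 1) rfl).zero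
  constructor
  · intro hz y
    have h0 : δ hX 0 1 rfl y = 0 :=
      (ModuleCat.subsingleton_of_isZero hz).elim _ _
    exact hex y h0
  · intro hs
    rw [ModuleCat.isZero_iff_subsingleton]
    refine ⟨fun x y => ?_⟩
    suffices ∀ z : groupCohomology (res H.subtype (dn A)) 1, z = 0 by rw [this x, this y]
    intro z
    obtain ⟨y, rfl⟩ := hδ z
    obtain ⟨w, rfl⟩ := hs y
    exact congrArg (fun f => f w) hzero

/-- The trace on `H`-invariants, through `H0Iso`. -/
lemma H0Iso_H0trace_apply (A : Rep.{u} k G) (z : groupCohomology (res H.subtype (env A)) 0) :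
    ((H0Iso (res H.subtype A)).hom (H0trace H A z)).1 =
      (coindTrace (⊥ : Subgroup G) A).hom ((H0Iso (res H.subtype (env A))).hom z).1 := by
  have := map_id_comp_H0Iso_hom_apply (resTrace H A) z
  unfold H0trace
  rw [this]
  rfl

/-- (S3), degree `1`: `H¹(H, dn A) = 0` iff every `H`-invariant of `A` is an `H`-norm. -/
theorem isZero_H1_dn_iff [Fintype H] (A : Rep.{u} k G) :
    IsZero (groupCohomology (res H.subtype (dn A)) 1) ↔
      ∀ a : A, (∀ h : H, A.ρ (h : G) a = a) → ∃ b : A, ∑ h : H, A.ρ (h : G) b = a := by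
  classical
  have : Fintype G := Fintype.ofFinite G
  rw [isZero_H1_dn_iff_surjective]
  constructor
  · intro hs a ha
    let a' : (res H.subtype A).ρ.invariants := ⟨a, fun h => ha h⟩
    obtain ⟨z, hz⟩ := hs ((H0Iso (res H.subtype A)).inv a')
    have h1 := H0Iso_H0trace_apply H A z
    rw [hz] at h1
    have h2 : (H0Iso (res H.subtype A)).hom ((H0Iso (res H.subtype A)).inv a') = a' := by simp
    rw [h2] at h1
    set f := (H0Iso (res H.subtype (env A))).hom z with hf
    have hinv : ∀ h : H, (env A).ρ (h : G) f.1 = f.1 := fun h => f.2 h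
    rw [coindTrace_of_invariant H A f.1 hinv] at h1
    exact ⟨_, h1.symm⟩
  · intro hn y
    set a' := (H0Iso (res H.subtype A)).hom y with ha'
    obtain ⟨b, hb⟩ := hn a'.1 (fun h => a'.2 h)
    let f' : (res H.subtype (env A)).ρ.invariants :=
      ⟨envInd H A b, fun h => envInd_invariant H A b h⟩
    refine ⟨(H0Iso (res H.subtype (env A))).inv f', ?_⟩
    have h1 := H0Iso_H0trace_apply H A ((H0Iso (res H.subtype (env A))).inv f')
    have h2 : (H0Iso (res H.subtype (env A))).hom ((H0Iso (res H.subtype (env A))).inv f') = f' := by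
      simp
    rw [h2] at h1
    have h3 : (coindTrace (⊥ : Subgroup G) A).hom f'.1 = a'.1 := by
      change (coindTrace (⊥ : Subgroup G) A).hom (envInd H A b) = a'.1
      rw [coindTrace_envInd, hb]
    have h4 : (H0Iso (res H.subtype A)).hom
        (H0trace H A ((H0Iso (res H.subtype (env A))).inv f')) = a' :=
      Subtype.ext (h1.trans h3)
    have h5 : Function.Injective (H0Iso (res H.subtype A)).hom :=
      (ModuleCat.mono_iff_injective _).1 inferInstance
    exact h5 (h4.trans ha')

end Fermat.Agent.GC.Tate
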