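import Fermat.Agent.GC.Tate.Defs
import Fermat.Agent.GC.Tate.Shift

/-!
# GATE-C / C2 : SHIFT KIT in the notation of `Defs.lean` (`Rep ℤ G`, `G : Type`, `IsAcyclic`)

* (S1) `isAcyclic_env A : IsAcyclic (env A)`;
* (S2) `IsAcyclic.up : IsAcyclic A → IsAcyclic (up A)` and the converse in degrees `≥ 2`;
* (S3) `isZero_dn_of_isAcyclic`, `isZero_of_isAcyclic_dn`.
The isomorphisms themselves are `upIso H A m`, `dnIso H A m` of `Shift.lean`
(`resSub A H` is an `abbrev` for `Rep.res H.subtype A`).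
-/

namespace Fermat.Agent.GC.Tate

open CategoryTheory groupCohomology Rep Limits

variable {G : Type} [Group G]

/-- (S1) The envelope `env A = Coind_1^G Res_1 A` is acyclic for all subgroups. -/
theorem isAcyclic_env (A : Rep ℤ G) : IsAcyclic (env A) :=
  fun H m => isZero_groupCohomology_res_env H A m

/-- (S2) `Hᵐ⁺¹(H, up A) = 0 ↔ Hᵐ⁺²(H, A) = 0`. -/
theorem isZero_up_iff (A : Rep ℤ G) (H : Subgroup G) (m : ℕ) :
    IsZero (groupCohomology (resSub (up A) H) (m + 1)) ↔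
      IsZero (groupCohomology (resSub A H) (m + 2)) :=
  ⟨fun h => h.of_iso (upIso H A m).symm, fun h => h.of_iso (upIso H A m)⟩

/-- (S2) If `A` is acyclic then so is `up A`. -/
theorem IsAcyclic.up {A : Rep ℤ G} (hA : IsAcyclic A) : IsAcyclic (up A) :=
  fun H m => (isZero_up_iff A H m).2 (hA H (m + 1))

/-- (S3) `Hᵐ⁺²(H, dn A) = 0 ↔ Hᵐ⁺¹(H, A) = 0`. -/
theorem isZero_dn_iff [Finite G] (A : Rep ℤ G) (H : Subgroup G) (m : ℕ) :
    IsZero (groupCohomology (resSub (dn A) H) (m + 2)) ↔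
      IsZero (groupCohomology (resSub A H) (m + 1)) :=
  ⟨fun h => h.of_iso (dnIso H A m), fun h => h.of_iso (dnIso H A m).symm⟩

/-- (S3) If `dn A` is acyclic then so is `A`. -/
theorem isAcyclic_of_isAcyclic_dn [Finite G] {A : Rep ℤ G} (h : IsAcyclic (dn A)) :
    IsAcyclic A :=
  fun H m => (isZero_dn_iff A H m).1 (h H (m + 1))

end Fermat.Agent.GC.Tate
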